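import Mathlib

set_option autoImplicit false

/-!
# S23, basic layer: "nice" functions on the upper half plane and the q-expansion ring hom

A function `F : ℍ → ℂ` is *nice* if it is `1`-periodic, holomorphic and bounded at `i∞`.
Nice functions form a subring of `ℍ → ℂ` on which `qExpansion 1` is an injective ring hom.
-/

namespace Fermat.Agent.S23

open UpperHalfPlane Function
open scoped MatrixGroups ModularForm Manifold

/-- `F` is `1`-periodic, holomorphic on `ℍ` and bounded at `i∞`. -/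
def IsNice (F : ℍ → ℂ) : Prop :=
  Periodic (F ∘ ofComplex) 1 ∧ MDiff F ∧ IsBoundedAtImInfty F

theorem IsNice.analyticAt {F : ℍ → ℂ} (hF : IsNice F) : AnalyticAt ℂ (cuspFunction 1 F) 0 :=
  analyticAt_cuspFunction_zero one_pos hF.1 hF.2.1 hF.2.2

theorem isNice_const (c : ℂ) : IsNice (fun _ => c) := by
  refine ⟨fun w => rfl, mdifferentiable_const, ?_⟩
  exact Filter.const_boundedAtFilter _ c

theorem isNice_zero : IsNice (0 : ℍ → ℂ) := isNice_const 0

theorem isNice_one : IsNice (1 : ℍ → ℂ) := isNice_const 1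

theorem IsNice.add {F G : ℍ → ℂ} (hF : IsNice F) (hG : IsNice G) : IsNice (F + G) := by
  refine ⟨?_, hF.2.1.add hG.2.1, hF.2.2.add hG.2.2⟩
  intro w
  have h1 := hF.1 w
  have h2 := hG.1 w
  simp only [comp_apply, Pi.add_apply] at h1 h2 ⊢
  rw [h1, h2]

theorem IsNice.neg {F : ℍ → ℂ} (hF : IsNice F) : IsNice (-F) := by
  refine ⟨?_, hF.2.1.neg, hF.2.2.neg⟩
  intro w
  have h1 := hF.1 w
  simp only [comp_apply, Pi.neg_apply] at h1 ⊢
  rw [h1]

theorem IsNice.mul {F G : ℍ → ℂ} (hF : IsNice F) (hG : IsNice G) : IsNice (F * G) := by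
  refine ⟨?_, hF.2.1.mul hG.2.1, hF.2.2.mul hG.2.2⟩
  intro w
  have h1 := hF.1 w
  have h2 := hG.1 w
  simp only [comp_apply, Pi.mul_apply] at h1 h2 ⊢
  rw [h1, h2]

/-- The subring of nice functions. -/
def niceSubring : Subring (ℍ → ℂ) where
  carrier := {F | IsNice F}
  mul_mem' := IsNice.mul
  one_mem' := isNice_one
  add_mem' := IsNice.add
  zero_mem' := isNice_zero
  neg_mem' := IsNice.neg

theorem mem_niceSubring {F : ℍ → ℂ} : F ∈ niceSubring ↔ IsNice F := Iff.rfl

theorem IsNice.sub {F G : ℍ → ℂ} (hF : IsNice F) (hG : IsNice G) : IsNice (F - G) :=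
  niceSubring.sub_mem hF hG

theorem IsNice.pow {F : ℍ → ℂ} (hF : IsNice F) (n : ℕ) : IsNice (F ^ n) :=
  niceSubring.pow_mem hF n

theorem IsNice.smul {F : ℍ → ℂ} (hF : IsNice F) (c : ℂ) : IsNice (c • F) := by
  have : c • F = (fun _ => c) * F := by ext z; simp
  rw [this]; exact (isNice_const c).mul hF

theorem isNice_sum {ι : Type*} (s : Finset ι) (F : ι → ℍ → ℂ) (hF : ∀ i ∈ s, IsNice (F i)) :
    IsNice (∑ i ∈ s, F i) :=
  niceSubring.sum_mem hF

theorem isNice_prod {ι : Type*} (s : Finset ι) (F : ι → ℍ → ℂ) (hF : ∀ i ∈ s, IsNice (F i)) :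
    IsNice (∏ i ∈ s, F i) :=
  niceSubring.prod_mem hF

/-- The q-expansion as a ring hom on nice functions. -/
noncomputable def qexpHom : niceSubring →+* PowerSeries ℂ where
  toFun F := qExpansion 1 (F : ℍ → ℂ)
  map_one' := qExpansion_one 1
  map_mul' F G := qExpansion_mul (IsNice.analyticAt F.2) (IsNice.analyticAt G.2)
  map_zero' := qExpansion_zero 1
  map_add' F G := qExpansion_add (IsNice.analyticAt F.2) (IsNice.analyticAt G.2)

@[simp] theorem qexpHom_apply (F : niceSubring) : qexpHom F = qExpansion 1 (F : ℍ → ℂ) := rfl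

theorem qexpHom_injective : Function.Injective qexpHom := by
  rw [injective_iff_map_eq_zero]
  intro F hF
  apply Subtype.ext
  exact (qExpansion_eq_zero_iff one_pos F.2.1 F.2.2.1 F.2.2.2).mp hF

/-- Two nice functions with the same q-expansion are equal. -/
theorem IsNice.eq_of_qExpansion_eq {F G : ℍ → ℂ} (hF : IsNice F) (hG : IsNice G)
    (h : qExpansion 1 F = qExpansion 1 G) : F = G := by
  have := @qexpHom_injective ⟨F, hF⟩ ⟨G, hG⟩ h
  exact congrArg Subtype.val this

theorem IsNice.qExpansion_add {F G : ℍ → ℂ} (hF : IsNice F) (hG : IsNice G) :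
    qExpansion 1 (F + G) = qExpansion 1 F + qExpansion 1 G :=
  UpperHalfPlane.qExpansion_add hF.analyticAt hG.analyticAt

theorem IsNice.qExpansion_mul {F G : ℍ → ℂ} (hF : IsNice F) (hG : IsNice G) :
    qExpansion 1 (F * G) = qExpansion 1 F * qExpansion 1 G :=
  UpperHalfPlane.qExpansion_mul hF.analyticAt hG.analyticAt

theorem IsNice.qExpansion_pow {F : ℍ → ℂ} (hF : IsNice F) (n : ℕ) :
    qExpansion 1 (F ^ n) = qExpansion 1 F ^ n := by
  induction n with
  | zero => simpa using qExpansion_one 1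
  | succ n ih => rw [pow_succ, pow_succ, (hF.pow n).qExpansion_mul hF, ih]

theorem IsNice.qExpansion_neg {F : ℍ → ℂ} (hF : IsNice F) :
    qExpansion 1 (-F) = -qExpansion 1 F :=
  UpperHalfPlane.qExpansion_neg hF.analyticAt

theorem IsNice.qExpansion_sub {F G : ℍ → ℂ} (hF : IsNice F) (hG : IsNice G) :
    qExpansion 1 (F - G) = qExpansion 1 F - qExpansion 1 G :=
  UpperHalfPlane.qExpansion_sub hF.analyticAt hG.analyticAt

theorem IsNice.qExpansion_smul {F : ℍ → ℂ} (hF : IsNice F) (c : ℂ) :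
    qExpansion 1 (c • F) = c • qExpansion 1 F :=
  UpperHalfPlane.qExpansion_smul hF.analyticAt c

theorem isNice_qExpansion_sum {ι : Type*} (s : Finset ι) (F : ι → ℍ → ℂ)
    (hF : ∀ i ∈ s, IsNice (F i)) :
    qExpansion 1 (∑ i ∈ s, F i) = ∑ i ∈ s, qExpansion 1 (F i) := by
  classical
  induction s using Finset.induction_on with
  | empty => simpa using qExpansion_zero 1
  | insert a s ha ih =>
    rw [Finset.sum_insert ha, Finset.sum_insert ha,
      (hF a (Finset.mem_insert_self a s)).qExpansion_add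
        (isNice_sum s F fun i hi => hF i (Finset.mem_insert_of_mem hi)),
      ih fun i hi => hF i (Finset.mem_insert_of_mem hi)]

/-- The value at `i∞` of a nice function is the constant coefficient; in particular a nice
function vanishes at `i∞` iff its constant coefficient vanishes. -/
theorem IsNice.isZeroAtImInfty_iff {F : ℍ → ℂ} (hF : IsNice F) :
    IsZeroAtImInfty F ↔ (qExpansion 1 F).coeff 0 = 0 := by
  have hcoeff : (qExpansion 1 F).coeff 0 = cuspFunction 1 F 0 := by
    simp [qExpansion_coeff]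
  have htend : Filter.Tendsto F atImInfty (nhds (cuspFunction 1 F 0)) := by
    have h1 : (cuspFunction 1 F ∘ fun τ : ℍ ↦ Function.Periodic.qParam 1 τ) = F := by
      funext τ
      simpa using eq_cuspFunction τ one_ne_zero hF.1
    have := hF.analyticAt.continuousAt.tendsto.comp (qParam_tendsto_atImInfty one_pos)
    rwa [h1] at this
  rw [hcoeff]
  constructor
  · intro h
    exact tendsto_nhds_unique htend h
  · intro h
    rw [h] at htend
    exact htend

/-- Modular forms for an arithmetic group with `1` as a strict period are nice. -/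
theorem isNice_of_modularForm {Γ : Subgroup (GL (Fin 2) ℝ)} [Γ.IsArithmetic] {k : ℤ}
    {F : Type*} [FunLike F ℍ ℂ] [ModularFormClass F Γ k]
    (h1 : (1 : ℝ) ∈ Γ.strictPeriods) (f : F) : IsNice (f : ℍ → ℂ) :=
  ⟨SlashInvariantFormClass.periodic_comp_ofComplex f h1, ModularFormClass.holo f,
    ModularFormClass.bdd_at_infty f⟩

end Fermat.Agent.S23

namespace Fermat.Agent.S23

open UpperHalfPlane Function
open scoped MatrixGroups ModularForm Manifold

/-- `F'` is a `σ`-conjugate of `F`: the q-expansion of `F'` is obtained from that of `F`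
by applying `σ` to every coefficient. -/
def IsConj (σ : ℂ ≃+* ℂ) (F F' : ℍ → ℂ) : Prop :=
  qExpansion 1 F' = (qExpansion 1 F).map (σ : ℂ →+* ℂ)

theorem isConj_iff {σ : ℂ ≃+* ℂ} {F F' : ℍ → ℂ} :
    IsConj σ F F' ↔ ∀ n, (qExpansion 1 F').coeff n = σ ((qExpansion 1 F).coeff n) := by
  unfold IsConj
  rw [PowerSeries.ext_iff]
  simp

theorem IsConj.add {σ : ℂ ≃+* ℂ} {F F' G G' : ℍ → ℂ} (hF : IsNice F) (hF' : IsNice F')
    (hG : IsNice G) (hG' : IsNice G') (h1 : IsConj σ F F') (h2 : IsConj σ G G') :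
    IsConj σ (F + G) (F' + G') := by
  unfold IsConj at *
  rw [hF'.qExpansion_add hG', hF.qExpansion_add hG, map_add, h1, h2]

theorem IsConj.mul {σ : ℂ ≃+* ℂ} {F F' G G' : ℍ → ℂ} (hF : IsNice F) (hF' : IsNice F')
    (hG : IsNice G) (hG' : IsNice G') (h1 : IsConj σ F F') (h2 : IsConj σ G G') :
    IsConj σ (F * G) (F' * G') := by
  unfold IsConj at *
  rw [hF'.qExpansion_mul hG', hF.qExpansion_mul hG, map_mul, h1, h2]

theorem IsConj.neg {σ : ℂ ≃+* ℂ} {F F' : ℍ → ℂ} (hF : IsNice F) (hF' : IsNice F')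
    (h1 : IsConj σ F F') : IsConj σ (-F) (-F') := by
  unfold IsConj at *
  rw [hF'.qExpansion_neg, hF.qExpansion_neg, map_neg, h1]

theorem IsConj.pow {σ : ℂ ≃+* ℂ} {F F' : ℍ → ℂ} (hF : IsNice F) (hF' : IsNice F')
    (h1 : IsConj σ F F') (n : ℕ) : IsConj σ (F ^ n) (F' ^ n) := by
  unfold IsConj at *
  rw [hF'.qExpansion_pow, hF.qExpansion_pow, map_pow, h1]

theorem isConj_zero (σ : ℂ ≃+* ℂ) : IsConj σ 0 0 := by
  unfold IsConj
  rw [qExpansion_zero, map_zero]

theorem isConj_one (σ : ℂ ≃+* ℂ) : IsConj σ 1 1 := by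
  unfold IsConj
  rw [qExpansion_one, map_one]

theorem isConj_sum {σ : ℂ ≃+* ℂ} {ι : Type*} (s : Finset ι) (F F' : ι → ℍ → ℂ)
    (hF : ∀ i ∈ s, IsNice (F i)) (hF' : ∀ i ∈ s, IsNice (F' i))
    (h : ∀ i ∈ s, IsConj σ (F i) (F' i)) : IsConj σ (∑ i ∈ s, F i) (∑ i ∈ s, F' i) := by
  unfold IsConj at *
  rw [isNice_qExpansion_sum s F' hF', isNice_qExpansion_sum s F hF, map_sum]
  exact Finset.sum_congr rfl h

/-- If `F` is nice with zero conjugate then `F = 0`, etc.: conjugation is injective. -/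
theorem IsConj.eq_zero {σ : ℂ ≃+* ℂ} {F' : ℍ → ℂ} (hF' : IsNice F') (h : IsConj σ 0 F') :
    F' = 0 := by
  unfold IsConj at h
  rw [qExpansion_zero, map_zero] at h
  exact (qExpansion_eq_zero_iff one_pos hF'.1 hF'.2.1 hF'.2.2).mp h

/-- A function whose q-expansion has coefficients fixed by `σ` is its own conjugate. -/
theorem isConj_self_of_fixed {σ : ℂ ≃+* ℂ} {F : ℍ → ℂ}
    (h : ∀ n, σ ((qExpansion 1 F).coeff n) = (qExpansion 1 F).coeff n) : IsConj σ F F :=
  isConj_iff.mpr fun n => (h n).symm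

end Fermat.Agent.S23
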