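import Mathlib

set_option autoImplicit false
set_option linter.unusedSectionVars false

/-!
# S23, auxiliary lemmas for piece Conj: the interpolation identity, no zero divisors

Pure algebra over a commutative ring `R`.  For a finite family `u : Q → R` put
`rootPoly u = ∏ q, (X - C (u q))`.  For another family `f : Q → R` and `q₀ : Q`,
`f q₀ * ∏_{q ≠ q₀} (u q₀ - u q) = ∑_m g_m * (u q₀) ^ m` with
`g_m = ∑_{i = m+1}^{μ} (rootPoly u).coeff i * ∑ q, f q * u q ^ (i - (m+1))`,
and `∏_{q ≠ q₀} (u q₀ - u q) = (rootPoly u)'(u q₀) = ∑_n n * (rootPoly u).coeff n * (u q₀)^(n-1)`.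
-/

namespace Fermat.Agent.S23

open Polynomial Finset

section ConjAlg

variable {R : Type*} [CommRing R] {Q : Type*} [Fintype Q] [DecidableEq Q]

/-- The monic polynomial with roots `u q`. -/
noncomputable def rootPoly (u : Q → R) : R[X] := ∏ q, (X - C (u q))

theorem rootPoly_monic (u : Q → R) : (rootPoly u).Monic :=
  monic_prod_of_monic _ _ fun q _ => monic_X_sub_C (u q)

theorem rootPoly_natDegree [Nontrivial R] (u : Q → R) :
    (rootPoly u).natDegree = Fintype.card Q := by
  unfold rootPoly
  rw [natDegree_prod_of_monic _ _ fun q _ => monic_X_sub_C (u q)]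
  simp

theorem rootPoly_eq_mul (u : Q → R) (q : Q) :
    rootPoly u = (X - C (u q)) * ∏ q' ∈ univ.erase q, (X - C (u q')) := by
  unfold rootPoly
  exact (mul_prod_erase univ (fun q' => X - C (u q')) (mem_univ q)).symm

theorem rootPoly_divByMonic (u : Q → R) (q : Q) :
    rootPoly u /ₘ (X - C (u q)) = ∏ q' ∈ univ.erase q, (X - C (u q')) := by
  rw [rootPoly_eq_mul u q, mul_divByMonic_cancel_left _ (monic_X_sub_C (u q))]

theorem eval_rootPoly (u : Q → R) (q : Q) : eval (u q) (rootPoly u) = 0 := by
  rw [rootPoly_eq_mul u q]; simp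

theorem eval_rootPoly_divByMonic (u : Q → R) (q q₀ : Q) :
    eval (u q₀) (rootPoly u /ₘ (X - C (u q))) =
      if q = q₀ then ∏ q' ∈ univ.erase q₀, (u q₀ - u q') else 0 := by
  rw [rootPoly_divByMonic, eval_prod]
  split_ifs with h
  · subst h
    simp
  · apply prod_eq_zero (i := q₀) (mem_erase.mpr ⟨fun h' => h h'.symm, mem_univ _⟩)
    simp

/-- The coefficients of `rootPoly u /ₘ (X - C (u q))`. -/
theorem coeff_rootPoly_divByMonic [Nontrivial R] (u : Q → R) (q : Q) (m : ℕ) :
    (rootPoly u /ₘ (X - C (u q))).coeff m =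
      ∑ i ∈ Icc (m + 1) (Fintype.card Q), u q ^ (i - (m + 1)) * (rootPoly u).coeff i := by
  rw [coeff_divByMonic_X_sub_C, rootPoly_natDegree]

/-- **Interpolation identity.** -/
theorem interpolation_identity (u f : Q → R) (q₀ : Q) :
    f q₀ * ∏ q ∈ univ.erase q₀, (u q₀ - u q) =
      ∑ m ∈ range (Fintype.card Q),
        (∑ i ∈ Icc (m + 1) (Fintype.card Q),
          (rootPoly u).coeff i * ∑ q, f q * u q ^ (i - (m + 1))) * u q₀ ^ m := by
  nontriviality R
  have hdeg : ∀ q, (rootPoly u /ₘ (X - C (u q))).natDegree < Fintype.card Q := by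
    intro q
    rw [natDegree_divByMonic _ (monic_X_sub_C (u q)), rootPoly_natDegree, natDegree_X_sub_C]
    have : 0 < Fintype.card Q := Fintype.card_pos_iff.mpr ⟨q⟩
    omega
  have h1 : f q₀ * ∏ q ∈ univ.erase q₀, (u q₀ - u q) =
      ∑ q, f q * eval (u q₀) (rootPoly u /ₘ (X - C (u q))) := by
    simp_rw [eval_rootPoly_divByMonic, mul_ite, mul_zero]
    rw [sum_ite_eq' univ q₀]
    simp
  rw [h1]
  simp_rw [eval_eq_sum_range' (hdeg _), coeff_rootPoly_divByMonic, mul_sum, sum_mul]
  rw [sum_comm]
  apply sum_congr rfl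
  intro m _
  rw [sum_comm]
  apply sum_congr rfl
  intro q _
  rw [mul_sum]
  apply sum_congr rfl
  intro i _
  ring

/-- The derivative of `rootPoly u` at the root `u q₀`. -/
theorem eval_derivative_rootPoly (u : Q → R) (q₀ : Q) :
    eval (u q₀) (derivative (rootPoly u)) = ∏ q ∈ univ.erase q₀, (u q₀ - u q) := by
  unfold rootPoly
  rw [derivative_prod_finset, eval_finsetSum]
  rw [sum_eq_single q₀]
  · simp [eval_prod]
  · intro q _ hq
    rw [eval_mul, eval_prod]
    rw [prod_eq_zero (i := q₀) (mem_erase.mpr ⟨fun h' => hq h'.symm, mem_univ _⟩) (by simp)]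
    simp
  · intro h; exact absurd (mem_univ q₀) h

/-- The derivative of `rootPoly u` at the root `u q₀`, as an explicit sum. -/
theorem prod_erase_eq_sum (u : Q → R) (q₀ : Q) :
    ∏ q ∈ univ.erase q₀, (u q₀ - u q) =
      ∑ n ∈ range (Fintype.card Q + 1), (n : R) * (rootPoly u).coeff n * u q₀ ^ (n - 1) := by
  nontriviality R
  rw [← eval_derivative_rootPoly, derivative_eval, sum_over_range' _ _ (Fintype.card Q + 1)]
  · apply sum_congr rfl
    intro n _
    ring
  · rw [rootPoly_natDegree]; omega
  · intro n; simp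

/-- `u q₀` is a root of `rootPoly u`, as an explicit sum. -/
theorem sum_coeff_rootPoly_eq_zero (u : Q → R) (q₀ : Q) :
    ∑ n ∈ range (Fintype.card Q + 1), (rootPoly u).coeff n * u q₀ ^ n = 0 := by
  nontriviality R
  rw [← eval_rootPoly u q₀]
  rw [eval_eq_sum_range' (n := Fintype.card Q + 1)]
  rw [rootPoly_natDegree]; omega

/-- Vieta: the coefficients of `rootPoly u` are the signed elementary symmetric functions. -/
theorem coeff_rootPoly (u : Q → R) {n : ℕ} (hn : n ≤ Fintype.card Q) :
    (rootPoly u).coeff n =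
      (-1) ^ (Fintype.card Q - n) * ((univ : Finset Q).val.map u).esymm (Fintype.card Q - n) := by
  have h := Multiset.prod_X_sub_C_coeff ((univ : Finset Q).val.map u) (k := n) (by simpa using hn)
  simp only [Multiset.map_map, Multiset.card_map, card_val, card_univ] at h
  rw [← h]
  rfl

theorem coeff_rootPoly_card (u : Q → R) : (rootPoly u).coeff (Fintype.card Q) = 1 := by
  nontriviality R
  have := rootPoly_monic u
  rw [Monic, leadingCoeff, rootPoly_natDegree] at this
  exact this

/-- **Interpolation identity** (Lagrange/Euler), in terms of elementary symmetric functions. -/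
theorem interpolation {R : Type*} [CommRing R] {Q : Type*} [Fintype Q] [DecidableEq Q]
    (x y : Q → R) (q₁ : Q) :
    y q₁ * ∏ q ∈ Finset.univ.erase q₁, (x q₁ - x q) =
      ∑ m ∈ Finset.range (Fintype.card Q),
        (∑ i ∈ Finset.Icc (m + 1) (Fintype.card Q),
          ((-1) ^ (Fintype.card Q - i) * (Finset.univ.val.map x).esymm (Fintype.card Q - i)) *
            ∑ q, y q * x q ^ (i - (m + 1))) * x q₁ ^ m := by
  rw [interpolation_identity x y q₁]
  apply sum_congr rfl
  intro m _
  congr 1
  apply sum_congr rfl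
  intro i hi
  rw [coeff_rootPoly x (mem_Icc.mp hi).2]

/-- The discriminant-like product `∏_{q ≠ q₁} (x q₁ - x q)` as a polynomial in `x q₁` with
symmetric coefficients (the derivative of the root polynomial). -/
theorem prod_erase_eq_sum_esymm {R : Type*} [CommRing R] {Q : Type*} [Fintype Q] [DecidableEq Q]
    (x : Q → R) (q₁ : Q) :
    ∏ q ∈ Finset.univ.erase q₁, (x q₁ - x q) =
      ∑ n ∈ Finset.range (Fintype.card Q + 1),
        (n : R) * ((-1) ^ (Fintype.card Q - n) *
          (Finset.univ.val.map x).esymm (Fintype.card Q - n)) * x q₁ ^ (n - 1) := by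
  rw [prod_erase_eq_sum x q₁]
  apply sum_congr rfl
  intro n hn
  rw [coeff_rootPoly x (Nat.lt_succ_iff.mp (mem_range.mp hn))]

/-- `x q₁` is a root of the root polynomial, in terms of elementary symmetric functions. -/
theorem sum_esymm_eq_zero {R : Type*} [CommRing R] {Q : Type*} [Fintype Q] [DecidableEq Q]
    (x : Q → R) (q₁ : Q) :
    ∑ n ∈ Finset.range (Fintype.card Q + 1),
        ((-1) ^ (Fintype.card Q - n) *
          (Finset.univ.val.map x).esymm (Fintype.card Q - n)) * x q₁ ^ n = 0 := by
  rw [← sum_coeff_rootPoly_eq_zero x q₁]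
  apply sum_congr rfl
  intro n hn
  rw [coeff_rootPoly x (Nat.lt_succ_iff.mp (mem_range.mp hn))]

end ConjAlg

section NoZeroDivisors

open UpperHalfPlane
open scoped Manifold

/-- Holomorphic functions on the upper half plane have no zero divisors. -/
theorem mdiff_mul_eq_zero {F G : ℍ → ℂ} (hF : MDiff F) (hG : MDiff G) (h : F * G = 0) :
    F = 0 ∨ G = 0 := by
  have hopen : IsOpen {z : ℂ | 0 < z.im} := isOpen_upperHalfPlaneSet
  have hFa := (UpperHalfPlane.mdifferentiable_iff.mp hF).analyticOnNhd hopen
  have hGa := (UpperHalfPlane.mdifferentiable_iff.mp hG).analyticOnNhd hopen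
  have hpre : IsPreconnected {z : ℂ | 0 < z.im} :=
    (Complex.isConnected_of_upperHalfPlane subset_rfl (by grind)).isPreconnected
  have hfg : ∀ z ∈ {z : ℂ | 0 < z.im}, (F ∘ ofComplex) z * (G ∘ ofComplex) z = 0 := by
    intro z _
    have := congrFun h (ofComplex z)
    simpa using this
  rcases AnalyticOnNhd.eq_zero_or_eq_zero_of_mul_eq_zero hFa hGa hfg hpre with h1 | h1
  · left
    ext τ
    have := h1 (τ : ℂ) τ.im_pos
    simpa [ofComplex_apply] using this
  · right
    ext τ
    have := h1 (τ : ℂ) τ.im_pos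
    simpa [ofComplex_apply] using this

/-- A finite product of holomorphic functions on the upper half plane is holomorphic
(any universe for the index type). -/
theorem mdiff_finset_prod {ι : Type*} (s : Finset ι) (F : ι → ℍ → ℂ)
    (hF : ∀ i ∈ s, MDiff (F i)) : MDiff (∏ i ∈ s, F i) := by
  classical
  induction s using Finset.induction_on with
  | empty =>
    rw [Finset.prod_empty]
    exact mdifferentiable_const
  | insert a s ha ih =>
    rw [Finset.prod_insert ha]
    exact (hF a (Finset.mem_insert_self a s)).mul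
      (ih fun i hi => hF i (Finset.mem_insert_of_mem hi))

/-- A finite product of nonzero holomorphic functions on the upper half plane is nonzero. -/
theorem mdiff_prod_ne_zero {ι : Type*} (s : Finset ι) (F : ι → ℍ → ℂ)
    (hF : ∀ i ∈ s, MDiff (F i)) (h0 : ∀ i ∈ s, F i ≠ 0) : ∏ i ∈ s, F i ≠ 0 := by
  classical
  induction s using Finset.induction_on with
  | empty =>
    rw [Finset.prod_empty]
    intro h
    have := congrFun h UpperHalfPlane.I
    simp at this
  | insert a s ha ih =>
    rw [Finset.prod_insert ha]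
    intro h
    have hs : MDiff (∏ i ∈ s, F i) :=
      mdiff_finset_prod s F fun i hi => hF i (Finset.mem_insert_of_mem hi)
    rcases mdiff_mul_eq_zero (hF a (Finset.mem_insert_self a s)) hs h with h1 | h1
    · exact h0 a (Finset.mem_insert_self a s) h1
    · exact ih (fun i hi => hF i (Finset.mem_insert_of_mem hi))
        (fun i hi => h0 i (Finset.mem_insert_of_mem hi)) h1

/-- Cancellation: if `F * D = G * D` with `D ≠ 0`, all holomorphic, then `F = G`. -/
theorem mdiff_mul_right_cancel {F G D : ℍ → ℂ} (hF : MDiff F) (hG : MDiff G) (hD : MDiff D)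
    (hD0 : D ≠ 0) (h : F * D = G * D) : F = G := by
  have h1 : (F - G) * D = 0 := by rw [sub_mul, h, sub_self]
  rcases mdiff_mul_eq_zero (hF.sub hG) hD h1 with h2 | h2
  · exact sub_eq_zero.mp h2
  · exact absurd h2 hD0

end NoZeroDivisors

end Fermat.Agent.S23
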