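import Mathlib
import Fermat.Agent.S23.Basic
import Fermat.Agent.S23.Interp

set_option autoImplicit false

/-!
# S23, glue lemmas for piece Conj

* `IsConj.ne_zero`, `IsConj.of_mul_right`: conjugation preserves nonvanishing and can be cancelled.
* `slash_eq_of_mul_eq`: if `h * D = Nf` with `D ≠ 0` and `D`, `Nf` slash invariant under `γ`
  (weights `w`, `k + w`), then `h` is slash invariant of weight `k` under `γ`.
* `slash_monic_relation`: a monic relation with level one coefficients can be slashed.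
* `exists_cuspForm_of`: build a cusp form from a holomorphic slash invariant function all of whose
  `SL₂(ℤ)`-translates vanish at `i∞`.
-/

namespace Fermat.Agent.S23

open UpperHalfPlane Function CongruenceSubgroup
open scoped MatrixGroups ModularForm Manifold

/-- The conjugate of a nonzero nice function is nonzero. -/
theorem IsConj.ne_zero {σ : ℂ ≃+* ℂ} {D D' : ℍ → ℂ} (hD : IsNice D)
    (hD0 : D ≠ 0) (h : IsConj σ D D') : D' ≠ 0 := by
  intro h0
  unfold IsConj at h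
  rw [h0, qExpansion_zero] at h
  have h1 : (qExpansion 1 D).map (σ : ℂ →+* ℂ) = (0 : PowerSeries ℂ).map (σ : ℂ →+* ℂ) := by
    rw [← h, map_zero]
  have h2 := PowerSeries.map_injective (σ : ℂ →+* ℂ) σ.injective h1
  exact hD0 ((qExpansion_eq_zero_iff one_pos hD.1 hD.2.1 hD.2.2).mp h2)

/-- The q-expansion of a nonzero nice function is nonzero. -/
theorem IsNice.qExpansion_ne_zero {D : ℍ → ℂ} (hD : IsNice D) (hD0 : D ≠ 0) :
    qExpansion 1 D ≠ 0 := fun h =>
  hD0 ((qExpansion_eq_zero_iff one_pos hD.1 hD.2.1 hD.2.2).mp h)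

/-- Cancellation: if `F * D` has conjugate `F' * D'` and `D` has conjugate `D'`, with `D ≠ 0`,
then `F` has conjugate `F'`. -/
theorem IsConj.of_mul_right {σ : ℂ ≃+* ℂ} {F F' D D' : ℍ → ℂ} (hF : IsNice F) (hF' : IsNice F')
    (hD : IsNice D) (hD' : IsNice D') (hD0 : D ≠ 0) (hDc : IsConj σ D D')
    (h : IsConj σ (F * D) (F' * D')) : IsConj σ F F' := by
  have hD'0 : D' ≠ 0 := hDc.ne_zero hD hD0
  have hq : qExpansion 1 D' ≠ 0 := hD'.qExpansion_ne_zero hD'0
  unfold IsConj at *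
  rw [hF'.qExpansion_mul hD', hF.qExpansion_mul hD, map_mul, ← hDc] at h
  exact mul_right_cancel₀ hq h

/-- If `h * D = Nf` with `D ≠ 0`, where `D` and `Nf` are invariant under `γ` in weights `w` and
`k + w`, then `h` is invariant under `γ` in weight `k`. -/
theorem slash_eq_of_mul_eq {k w : ℤ} (γ : SL(2, ℤ)) {h D Nf : ℍ → ℂ} (hh : MDiff h)
    (hD : MDiff D) (hD0 : D ≠ 0) (hmul : h * D = Nf) (hDγ : D ∣[w] γ = D)
    (hNγ : Nf ∣[k + w] γ = Nf) : h ∣[k] γ = h := by
  have hhγ : MDiff (h ∣[k] γ) := by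
    rw [ModularForm.SL_slash]; exact hh.slash k _
  apply mdiff_mul_right_cancel hhγ hh hD hD0
  calc (h ∣[k] γ) * D = (h ∣[k] γ) * (D ∣[w] γ) := by rw [hDγ]
    _ = (h * D) ∣[k + w] γ := (ModularForm.mul_slash_SL2 k w γ h D).symm
    _ = h * D := by rw [hmul, hNγ]

/-- A monic relation `h ^ μ + ∑ c_{i+1} h ^ (μ - (i+1)) = 0` in which `c i` is invariant under
`γ` in weight `k * i` is also satisfied by `h ∣[k] γ`. -/
theorem slash_monic_relation {μ : ℕ} {k : ℤ} (γ : SL(2, ℤ)) (h : ℍ → ℂ) (c : ℕ → ℍ → ℂ)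
    (hc : ∀ i : ℕ, c i ∣[k * (i : ℤ)] γ = c i)
    (hrel : ∀ z, h z ^ μ + ∑ i ∈ Finset.range μ, c (i + 1) z * h z ^ (μ - (i + 1)) = 0) :
    ∀ z, (h ∣[k] γ) z ^ μ +
      ∑ i ∈ Finset.range μ, c (i + 1) z * (h ∣[k] γ) z ^ (μ - (i + 1)) = 0 := by
  intro z
  set d : ℂ := denom γ z with hd
  have hd0 : d ≠ 0 := denom_ne_zero γ z
  have hh : (h ∣[k] γ) z = h (γ • z) * d ^ (-k) := ModularForm.SL_slash_apply h γ z
  have hci : ∀ i : ℕ, c i z = c i (γ • z) * d ^ (-(k * (i : ℤ))) := by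
    intro i
    have := congrFun (hc i) z
    rw [ModularForm.SL_slash_apply] at this
    rw [← this]
  have hpow : ∀ n : ℕ, (h (γ • z) * d ^ (-k)) ^ n = h (γ • z) ^ n * d ^ (-(k * n)) := by
    intro n
    rw [mul_pow, ← zpow_natCast (d ^ (-k)) n, ← zpow_mul, neg_mul]
  have key : (h ∣[k] γ) z ^ μ +
      ∑ i ∈ Finset.range μ, c (i + 1) z * (h ∣[k] γ) z ^ (μ - (i + 1)) =
      d ^ (-(k * μ)) * (h (γ • z) ^ μ +
        ∑ i ∈ Finset.range μ, c (i + 1) (γ • z) * h (γ • z) ^ (μ - (i + 1))) := by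
    rw [hh, hpow, mul_add, Finset.mul_sum]
    congr 1
    · ring
    · apply Finset.sum_congr rfl
      intro i hi
      have hi' : i + 1 ≤ μ := Finset.mem_range.mp hi
      rw [hci (i + 1), hpow]
      have e : d ^ (-(k * (μ : ℤ))) =
          d ^ (-(k * ((i + 1 : ℕ) : ℤ))) * d ^ (-(k * ((μ - (i + 1) : ℕ) : ℤ))) := by
        rw [← zpow_add₀ hd0]
        congr 1
        have : ((μ - (i + 1) : ℕ) : ℤ) = (μ : ℤ) - ((i + 1 : ℕ) : ℤ) := by
          rw [Nat.cast_sub hi']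
        rw [this]; ring
      rw [e]; ring
  rw [key, hrel (γ • z), mul_zero]

section Build

variable {𝒢 : Subgroup (GL (Fin 2) ℝ)} [𝒢.IsArithmetic] {k : ℤ}

/-- Build a cusp form from a holomorphic slash invariant function all of whose
`SL₂(ℤ)`-translates vanish at `i∞`. -/
theorem exists_cuspForm_of (h : ℍ → ℂ) (hh : MDiff h) (hinv : ∀ γ ∈ 𝒢, h ∣[k] γ = h)
    (hzero : ∀ γ : SL(2, ℤ), IsZeroAtImInfty (h ∣[k] γ)) :
    ∃ f' : CuspForm 𝒢 k, (f' : ℍ → ℂ) = h := by
  refine ⟨{ toFun := h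
            slash_action_eq' := hinv
            holo' := hh
            zero_at_cusps' := ?_ }, rfl⟩
  intro c hc
  rw [Subgroup.IsArithmetic.isCusp_iff_isCusp_SL2Z] at hc
  rw [OnePoint.isZeroAt_iff_forall_SL2Z hc]
  intro γ _
  exact hzero γ

/-- Build a modular form from a holomorphic slash invariant function all of whose
`SL₂(ℤ)`-translates are bounded at `i∞`. -/
theorem exists_modularForm_of (h : ℍ → ℂ) (hh : MDiff h) (hinv : ∀ γ ∈ 𝒢, h ∣[k] γ = h)
    (hbdd : ∀ γ : SL(2, ℤ), IsBoundedAtImInfty (h ∣[k] γ)) :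
    ∃ f' : ModularForm 𝒢 k, (f' : ℍ → ℂ) = h := by
  refine ⟨{ toFun := h
            slash_action_eq' := hinv
            holo' := hh
            bdd_at_cusps' := ?_ }, rfl⟩
  intro c hc
  rw [Subgroup.IsArithmetic.isCusp_iff_isCusp_SL2Z] at hc
  rw [OnePoint.isBoundedAt_iff_forall_SL2Z hc]
  intro γ _
  exact hbdd γ

end Build

end Fermat.Agent.S23
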