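import Mathlib
import Fermat.Agent.S23.Basic

set_option autoImplicit false

/-!
# S23, piece LevelOne: level one modular forms have `Aut(ℂ)`-conjugates

Every modular form `g` of level one and weight `k` has, for each ring automorphism `σ` of `ℂ`,
a conjugate `g'` of the same level and weight whose `q`-expansion is obtained from that of `g`
by applying `σ` to every coefficient.

The proof is by strong induction on the weight, using `g = a₀ • E_k + Δ * h` with `h` of weight
`k - 12`, and the fact that `E_k` and `Δ = (E₄ ^ 3 - E₆ ^ 2) / 1728` have rational `q`-expansion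
coefficients.
-/

namespace Fermat.Agent.S23

open UpperHalfPlane Function CongruenceSubgroup
open scoped MatrixGroups ModularForm Manifold

/-- Scalar multiples: the conjugate of `c • F` is `σ c • F'`. -/
theorem IsConj.smul {σ : ℂ ≃+* ℂ} {F F' : ℍ → ℂ} (hF : IsNice F) (hF' : IsNice F')
    (h1 : IsConj σ F F') (c : ℂ) : IsConj σ (c • F) (σ c • F') := by
  unfold IsConj at *
  rw [hF'.qExpansion_smul, hF.qExpansion_smul, h1]
  ext n
  simp

/-- Level one modular forms are nice. -/
theorem isNice_levelOne {k : ℤ} (g : ModularForm 𝒮ℒ k) : IsNice (g : ℍ → ℂ) :=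
  isNice_of_modularForm one_mem_strictPeriods_SL g

/-- Level one cusp forms are nice. -/
theorem isNice_levelOne_cusp {k : ℤ} (g : CuspForm 𝒮ℒ k) : IsNice (g : ℍ → ℂ) :=
  isNice_of_modularForm one_mem_strictPeriods_SL g

/-- The normalised Eisenstein series have rational `q`-expansion coefficients, hence are their
own conjugates. -/
theorem isConj_E (σ : ℂ ≃+* ℂ) {k : ℕ} (hk : 3 ≤ k) (hk2 : Even k) :
    IsConj σ (ModularForm.E hk : ℍ → ℂ) (ModularForm.E hk : ℍ → ℂ) := by
  apply isConj_self_of_fixed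
  intro n
  rw [EisensteinSeries.E_qExpansion_coeff hk hk2 n]
  split_ifs with hn
  · simp
  · have h2 : σ (2 : ℂ) = 2 := map_ofNat σ 2
    simp [map_div₀, h2]

/-- The discriminant has rational `q`-expansion coefficients, hence is its own conjugate. -/
theorem isConj_discriminant (σ : ℂ ≃+* ℂ) :
    IsConj σ ModularForm.discriminant ModularForm.discriminant := by
  have h4 : IsNice (ModularForm.E₄ : ℍ → ℂ) := isNice_levelOne _
  have h6 : IsNice (ModularForm.E₆ : ℍ → ℂ) := isNice_levelOne _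
  have hΔ : ModularForm.discriminant =
      ((1 / 1728 : ℂ)) • ((ModularForm.E₄ : ℍ → ℂ) ^ 3 - (ModularForm.E₆ : ℍ → ℂ) ^ 2) := by
    funext z
    rw [ModularForm.discriminant_eq_E₄_cube_sub_E₆_sq z]
    simp only [Pi.smul_apply, Pi.sub_apply, Pi.pow_apply, smul_eq_mul]
    ring
  have c4 : IsConj σ (ModularForm.E₄ : ℍ → ℂ) (ModularForm.E₄ : ℍ → ℂ) :=
    isConj_E σ _ ⟨2, rfl⟩
  have c6 : IsConj σ (ModularForm.E₆ : ℍ → ℂ) (ModularForm.E₆ : ℍ → ℂ) :=
    isConj_E σ _ ⟨3, rfl⟩
  have hsub : IsNice ((ModularForm.E₄ : ℍ → ℂ) ^ 3 - (ModularForm.E₆ : ℍ → ℂ) ^ 2) :=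
    (h4.pow 3).sub (h6.pow 2)
  have c : IsConj σ ((ModularForm.E₄ : ℍ → ℂ) ^ 3 - (ModularForm.E₆ : ℍ → ℂ) ^ 2)
      ((ModularForm.E₄ : ℍ → ℂ) ^ 3 - (ModularForm.E₆ : ℍ → ℂ) ^ 2) := by
    rw [sub_eq_add_neg]
    exact IsConj.add (h4.pow 3) (h4.pow 3) (h6.pow 2).neg (h6.pow 2).neg
      (c4.pow h4 h4 3) (IsConj.neg (h6.pow 2) (h6.pow 2) (c6.pow h6 h6 2))
  have := IsConj.smul hsub hsub c (1 / 1728 : ℂ)
  have hfix : σ (1 / 1728 : ℂ) = 1 / 1728 := by
    have h2 : σ (1728 : ℂ) = 1728 := map_ofNat σ 1728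
    rw [map_div₀, map_one, h2]
  rw [hfix, ← hΔ] at this
  exact this

private theorem levelOne_conj_aux (σ : ℂ ≃+* ℂ) :
    ∀ (n : ℕ) (k : ℤ), k.toNat = n → ∀ g : ModularForm 𝒮ℒ k,
      ∃ g' : ModularForm 𝒮ℒ k, IsConj σ g g' := by
  intro n
  induction n using Nat.strong_induction_on with
  | _ n ih =>
    intro k hkn g
    -- the zero form is its own conjugate
    have hzero : (g : ℍ → ℂ) = 0 → ∃ g' : ModularForm 𝒮ℒ k, IsConj σ g g' := by
      intro h0
      refine ⟨0, ?_⟩
      rw [h0, FunLike.coe_zero]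
      exact isConj_zero σ
    rcases lt_or_ge k 0 with hneg | hnonneg
    · exact hzero (ModularFormClass.levelOne_neg_weight_eq_zero hneg g)
    rcases Int.even_or_odd k with heven | hodd
    swap
    · exact hzero (by rw [ModularForm.levelOne_odd_weight_eq_zero hodd g]; rfl)
    by_cases hk0 : k = 0
    · subst hk0
      obtain ⟨c, hc⟩ := ModularFormClass.levelOne_weight_zero_const g
      refine ⟨ModularForm.const (σ c), ?_⟩
      rw [hc, ModularForm.coe_const]
      have h1 : (Function.const ℍ c : ℍ → ℂ) = c • (1 : ℍ → ℂ) := by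
        funext z; simp
      have h2 : (Function.const ℍ (σ c) : ℍ → ℂ) = σ c • (1 : ℍ → ℂ) := by
        funext z; simp
      rw [h1, h2]
      exact IsConj.smul isNice_one isNice_one (isConj_one σ) c
    by_cases hk2 : k = 2
    · subst hk2
      apply hzero
      have := rank_zero_iff_forall_zero.mp ModularForm.levelOne_weight_two_rank_zero g
      rw [this]; rfl
    -- now `k ≥ 4` is even
    have hk4 : 4 ≤ k := by
      obtain ⟨m, rfl⟩ := heven
      omega
    lift k to ℕ using hnonneg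
    have hk3 : 3 ≤ k := by omega
    have hkeven : Even k := by exact_mod_cast heven
    set a₀ : ℂ := (qExpansion 1 g).coeff 0 with ha₀
    obtain ⟨c, hc⟩ := ModularForm.sub_smul_isCuspForm g (ModularForm.E hk3)
      (EisensteinSeries.E_qExpansion_coeff_zero hk3 hkeven)
    -- `c` is the cusp form `g - a₀ • E_k`
    set h₁ : ModularForm 𝒮ℒ ((k : ℤ) - 12) := CuspForm.discriminantEquiv c with hh₁
    obtain ⟨h₁', hh₁'⟩ := ih ((k : ℤ) - 12).toNat (by omega) ((k : ℤ) - 12) rfl h₁
    refine ⟨σ a₀ • ModularForm.E hk3 + CuspForm.toModularFormₗ (CuspForm.ofMulDiscriminant h₁'), ?_⟩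
    have hE : IsNice (ModularForm.E hk3 : ℍ → ℂ) := isNice_levelOne _
    have hΔ : IsNice ModularForm.discriminant := by
      rw [← CuspForm.coe_discriminant]; exact isNice_levelOne_cusp _
    have hn1 : IsNice (h₁ : ℍ → ℂ) := isNice_levelOne _
    have hn1' : IsNice (h₁' : ℍ → ℂ) := isNice_levelOne _
    have hg : (g : ℍ → ℂ) = a₀ • (ModularForm.E hk3 : ℍ → ℂ) +
        ModularForm.discriminant * (h₁ : ℍ → ℂ) := by
      funext z
      have h1 : ModularForm.discriminant z * h₁ z = c z :=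
        ModularForm.discriminant_mul_discriminantEquiv_apply c z
      have h2 : c z = g z - a₀ * ModularForm.E hk3 z := by
        have := DFunLike.congr_fun hc z
        simpa [ha₀] using this
      simp only [Pi.add_apply, Pi.smul_apply, Pi.mul_apply, smul_eq_mul]
      rw [h1, h2]; ring
    have hg' : ((σ a₀ • ModularForm.E hk3 +
        CuspForm.toModularFormₗ (CuspForm.ofMulDiscriminant h₁') : ModularForm 𝒮ℒ (k : ℤ)) : ℍ → ℂ)
        = σ a₀ • (ModularForm.E hk3 : ℍ → ℂ) + ModularForm.discriminant * (h₁' : ℍ → ℂ) := by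
      funext z
      simp
    rw [hg, hg']
    exact IsConj.add (hE.smul a₀) (hE.smul (σ a₀)) (hΔ.mul hn1) (hΔ.mul hn1')
      (IsConj.smul hE hE (isConj_E σ hk3 hkeven) a₀)
      (IsConj.mul hΔ hΔ hn1 hn1' (isConj_discriminant σ) hh₁')

/-- **Piece LevelOne.** Every level one modular form has a `σ`-conjugate of the same weight. -/
theorem levelOne_conj (σ : ℂ ≃+* ℂ) (k : ℤ) (g : ModularForm 𝒮ℒ k) :
    ∃ g' : ModularForm 𝒮ℒ k, IsConj σ g g' :=
  levelOne_conj_aux σ k.toNat k rfl g

end Fermat.Agent.S23
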