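import Mathlib
import Fermat.Agent.S23.Basic

set_option autoImplicit false

/-!
# S23, sub-piece of PrimElt: the q-expansion of `z ↦ G (N z)`

If `G` is nice (1-periodic, holomorphic, bounded at `i∞`) then so is `F z = G (N z)`, and
`a_n(F) = a_{n/N}(G)` if `N ∣ n`, `0` otherwise. In particular, if the q-expansion of `G` is fixed
by a ring automorphism of `ℂ`, so is that of `F`.
-/

namespace Fermat.Agent.S23

open UpperHalfPlane Function Filter Topology
open scoped MatrixGroups ModularForm Manifold

namespace PrimEltQExp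

/-- `N z` as a point of the upper half plane. -/
def scaleH (N : ℕ) [NeZero N] (z : ℍ) : ℍ :=
  ⟨(N : ℂ) * z, by
    have hN : (0 : ℝ) < N := Nat.cast_pos.mpr (NeZero.pos N)
    simpa using mul_pos hN z.im_pos⟩

@[simp] theorem coe_scaleH (N : ℕ) [NeZero N] (z : ℍ) : (scaleH N z : ℂ) = (N : ℂ) * z := rfl

theorem ofComplex_mul (N : ℕ) [NeZero N] (z : ℍ) : ofComplex ((N : ℂ) * z) = scaleH N z := by
  have h : 0 < ((N : ℂ) * z).im := (scaleH N z).im_pos
  rw [ofComplex_apply_of_im_pos h]
  rfl

variable (N : ℕ) [NeZero N] {G F : ℍ → ℂ}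

theorem qParam_scaleH (z : ℍ) :
    Function.Periodic.qParam 1 (scaleH N z : ℂ) = Function.Periodic.qParam 1 (z : ℂ) ^ N := by
  simp only [Function.Periodic.qParam, coe_scaleH, ← Complex.exp_nat_mul]
  congr 1
  push_cast
  ring

/-- `G` is invariant under translation by a natural number. -/
theorem periodic_nat (hG : IsNice G) (z : ℍ) (n : ℕ) (w : ℍ) (hw : (w : ℂ) = z + n) :
    G w = G z := by
  induction n generalizing w with
  | zero =>
    have : w = z := by ext1; simpa using hw
    rw [this]
  | succ n ih =>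
    have him : 0 < ((z : ℂ) + n).im := by simpa using z.im_pos
    have h1 := ih ⟨(z : ℂ) + n, him⟩ rfl
    rw [← h1]
    have hper := hG.1 ((z : ℂ) + n)
    simp only [comp_apply] at hper
    rw [ofComplex_apply_of_im_pos him] at hper
    rw [← hper]
    congr 1
    have h2 : 0 < ((z : ℂ) + n + 1).im := by simpa using z.im_pos
    rw [ofComplex_apply_of_im_pos h2]
    ext1
    simp only [hw]
    push_cast
    ring

theorem isNice_scale (hG : IsNice G) (hF : ∀ z : ℍ, F z = G (scaleH N z)) :
    Periodic (F ∘ ofComplex) 1 ∧ MDiff F := by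
  constructor
  · intro w
    simp only [comp_apply]
    by_cases hw : 0 < w.im
    · have hw1 : 0 < (w + 1).im := by simpa using hw
      rw [ofComplex_apply_of_im_pos hw, ofComplex_apply_of_im_pos hw1, hF, hF]
      apply periodic_nat hG _ N
      simp only [coe_scaleH]
      show (N : ℂ) * (w + 1) = (N : ℂ) * w + N
      ring
    · have hw' : w.im ≤ 0 := not_lt.mp hw
      have hw1 : (w + 1).im ≤ 0 := by simpa using hw'
      rw [ofComplex_apply_eq_of_im_nonpos hw1 hw']
  · rw [UpperHalfPlane.mdifferentiable_iff]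
    have hGd := UpperHalfPlane.mdifferentiable_iff.mp hG.2.1
    have hcomp : DifferentiableOn ℂ ((G ∘ ofComplex) ∘ fun w : ℂ => (N : ℂ) * w)
        {z : ℂ | 0 < z.im} := by
      apply hGd.comp
      · exact (differentiable_id.const_mul (N : ℂ)).differentiableOn
      · intro w hw
        have hN : (0 : ℝ) < N := Nat.cast_pos.mpr (NeZero.pos N)
        simpa using mul_pos hN hw
    refine hcomp.congr ?_
    intro w hw
    simp only [comp_apply]
    rw [ofComplex_apply_of_im_pos hw, hF]
    congr 1
    rw [← ofComplex_mul]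

/-- The coefficients of `F z = G (N z)`. -/
noncomputable def scaleCoeff (G : ℍ → ℂ) (n : ℕ) : ℂ :=
  if N ∣ n then (qExpansion 1 G).coeff (n / N) else 0

theorem hasSum_scale (hG : IsNice G) (hF : ∀ z : ℍ, F z = G (scaleH N z)) (z : ℍ) :
    HasSum (fun n : ℕ => scaleCoeff N G n • Function.Periodic.qParam 1 (z : ℂ) ^ n) (F z) := by
  have hN : 0 < N := NeZero.pos N
  have h1 := hasSum_qExpansion one_pos hG.1 hG.2.1 hG.2.2 (scaleH N z)
  rw [← hF, qParam_scaleH] at h1
  have hinj : Function.Injective fun m : ℕ => N * m := fun a b hab =>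
    Nat.eq_of_mul_eq_mul_left hN hab
  rw [← hinj.hasSum_iff]
  · convert h1 using 2 with m
    simp only [comp_apply, scaleCoeff, Nat.dvd_mul_right, if_true, Nat.mul_div_cancel_left _ hN,
      pow_mul]
  · intro n hn
    have : ¬ N ∣ n := by
      rintro ⟨m, rfl⟩
      exact hn ⟨m, rfl⟩
    simp [scaleCoeff, this]

/-- Main statement: `F z = G (N z)` is nice, with the expected q-expansion. -/
theorem isNice_and_coeff (hG : IsNice G) (hF : ∀ z : ℍ, F z = G (scaleH N z)) :
    IsNice F ∧ ∀ n, (qExpansion 1 F).coeff n =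
      if N ∣ n then (qExpansion 1 G).coeff (n / N) else 0 := by
  obtain ⟨hper, hmd⟩ := isNice_scale N hG hF
  have hsum : ∀ τ : ℍ, HasSum (fun m : ℕ => scaleCoeff N G m •
      Function.Periodic.qParam 1 (τ : ℂ) ^ m) (F τ) := hasSum_scale N hG hF
  have hbdd : IsBoundedAtImInfty F :=
    isBoundedAtImInfty_of_hasSum_qExpansion (h := 1) (c := scaleCoeff N G) one_pos hsum
  have hnice : IsNice F := ⟨hper, hmd, hbdd⟩
  refine ⟨hnice, fun n => ?_⟩
  have hcont : Continuous F := hmd.continuous
  have := UpperHalfPlane.qExpansion_coeff_unique (h := 1) (c := scaleCoeff N G)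
    (⟨F, hcont⟩ : C(ℍ, ℂ)) one_pos hnice.analyticAt hsum n
  rw [ContinuousMap.coe_mk] at this
  rw [← this]
  rfl

/-- If the q-expansion of `G` is fixed by `σ`, so is that of `F z = G (N z)`. -/
theorem isConj_scale (σ : ℂ ≃+* ℂ) (hG : IsNice G) (hF : ∀ z : ℍ, F z = G (scaleH N z))
    (hσ : IsConj σ G G) : IsConj σ F F := by
  obtain ⟨_, hcoeff⟩ := isNice_and_coeff N hG hF
  apply isConj_self_of_fixed
  intro n
  rw [hcoeff n]
  split_ifs with h
  · exact (isConj_iff.mp hσ (n / N)).symm
  · exact map_zero σ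

/-- If the q-expansion of `G` is integral, so is that of `F z = G (N z)`. -/
theorem integral_scale (hG : IsNice G) (hF : ∀ z : ℍ, F z = G (scaleH N z))
    (hint : ∀ n, ∃ m : ℤ, (qExpansion 1 G).coeff n = m) :
    ∀ n, ∃ m : ℤ, (qExpansion 1 F).coeff n = m := by
  obtain ⟨_, hcoeff⟩ := isNice_and_coeff N hG hF
  intro n
  rw [hcoeff n]
  split_ifs with h
  · exact hint _
  · exact ⟨0, by simp⟩

end PrimEltQExp

end Fermat.Agent.S23
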