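import Mathlib

/-!
# S23, PrimElt sub-lemma: Hermite normal form of `diag(N, 1) * γ`

For `γ ∈ SL₂(ℤ)` and `N ≥ 1` there are `γ' ∈ SL₂(ℤ)` and integers `a, b, d` with `a, d > 0`,
`a * d = N` and `diag(N, 1) * γ = γ' * [[a, b], [0, d]]`; moreover `d = 1` iff `N ∣ γ₁₀`.
-/

set_option autoImplicit false

namespace Fermat.Agent.S23

open Matrix

theorem exists_hermite (N : ℕ) [NeZero N] (γ : Matrix.SpecialLinearGroup (Fin 2) ℤ) :
    ∃ (γ1 : Matrix.SpecialLinearGroup (Fin 2) ℤ) (a b d : ℤ), 0 < a ∧ 0 < d ∧ a * d = N ∧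
      !![(N : ℤ), 0; 0, 1] * (γ : Matrix (Fin 2) (Fin 2) ℤ)
        = (γ1 : Matrix (Fin 2) (Fin 2) ℤ) * !![a, b; 0, d] ∧
      (d = 1 ↔ (N : ℤ) ∣ γ 1 0) := by
  have hN : (N : ℤ) ≠ 0 := by exact_mod_cast NeZero.ne N
  have hNpos : (0 : ℤ) < N := by exact_mod_cast Nat.pos_of_ne_zero (NeZero.ne N)
  -- entries of γ
  set p : ℤ := γ 0 0 with hp
  set q : ℤ := γ 0 1 with hq
  set r : ℤ := γ 1 0 with hr
  set s : ℤ := γ 1 1 with hs
  have hdet : p * s - q * r = 1 := by
    have := γ.det_coe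
    rw [Matrix.det_fin_two] at this
    exact this
  -- g = gcd(N, r)
  set g : ℤ := (Int.gcd (N : ℤ) r : ℤ) with hg
  have hgpos : 0 < g := by
    have : 0 < Int.gcd (N : ℤ) r := Int.gcd_pos_of_ne_zero_left _ hN
    rw [hg]
    exact_mod_cast this
  obtain ⟨d, hd⟩ : g ∣ (N : ℤ) := Int.gcd_dvd_left _ _
  obtain ⟨r', hr'⟩ : g ∣ r := Int.gcd_dvd_right _ _
  have hdpos : 0 < d := by
    by_contra h
    push Not at h
    have : g * d ≤ 0 := mul_nonpos_of_nonneg_of_nonpos hgpos.le h
    omega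
  -- d and r' are coprime
  have hcop1 : IsCoprime d r' := by
    have h1 : Int.gcd (N : ℤ) r = g.natAbs := by
      rw [hg]; simp
    have h2 : Int.gcd (g * d) (g * r') = g.natAbs * Int.gcd d r' := Int.gcd_mul_left g d r'
    rw [← hd, ← hr', h1] at h2
    have h3 : g.natAbs ≠ 0 := by
      intro h0
      have := Int.natAbs_eq_zero.mp h0
      omega
    have h4 : Int.gcd d r' = 1 := by
      have : g.natAbs * 1 = g.natAbs * Int.gcd d r' := by rw [mul_one]; exact h2
      exact (Nat.eq_of_mul_eq_mul_left (Nat.pos_of_ne_zero h3) this).symm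
    exact Int.isCoprime_iff_gcd_eq_one.mpr h4
  -- p and r' are coprime
  have hcop2 : IsCoprime p r' := by
    refine ⟨s, -(q * g), ?_⟩
    rw [hr'] at hdet
    linear_combination hdet
  have hcop : IsCoprime (d * p) r' := IsCoprime.mul_left hcop1 hcop2
  obtain ⟨w, v, hwv⟩ := hcop
  -- γ' = [[d p, -v], [r', w]]
  have hdet' : (d * p) * w - (-v) * r' = 1 := by linear_combination hwv
  refine ⟨⟨!![d * p, -v; r', w], by rw [Matrix.det_fin_two_of]; exact hdet'⟩, g,
    w * N * q - (-v) * s, d, hgpos, hdpos, hd.symm, ?_, ?_⟩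
  · rw [hr'] at hdet
    have e00 : (N : ℤ) * p = d * p * g := by rw [hd]; ring
    have e01 : (N : ℤ) * q = d * p * (w * N * q - (-v) * s) + (-v) * d := by
      rw [hd]
      linear_combination (-(g * d * q)) * hdet' + ((-v) * d) * hdet
    have e10 : r = r' * g := by rw [hr']; ring
    have e11 : s = r' * (w * N * q - (-v) * s) + w * d := by
      rw [hd]
      linear_combination (-s) * hdet' + (w * d) * hdet
    ext i j
    fin_cases i <;> fin_cases j
    · simpa [Matrix.mul_apply, Fin.sum_univ_two] using e00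
    · simpa [Matrix.mul_apply, Fin.sum_univ_two] using e01
    · simpa [Matrix.mul_apply, Fin.sum_univ_two] using e10
    · simpa [Matrix.mul_apply, Fin.sum_univ_two] using e11
  · constructor
    · intro h1
      rw [h1, mul_one] at hd
      rw [hd]
      exact ⟨r', hr'⟩
    · intro hdiv
      have h1 : (N : ℤ) ∣ g := by
        rw [hg]
        exact Int.dvd_coe_gcd (dvd_refl _) hdiv
      obtain ⟨e, he⟩ := h1
      have h2 : g * (d * e) = g * 1 := by
        rw [mul_one]
        calc g * (d * e) = (g * d) * e := by ring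
          _ = N * e := by rw [← hd]
          _ = g := he.symm
      have h3 : d * e = 1 := mul_left_cancel₀ hgpos.ne' h2
      exact Int.eq_one_of_mul_eq_one_right hdpos.le h3

end Fermat.Agent.S23
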