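import Mathlib
import Fermat.Agent.S23.Basic

set_option autoImplicit false

/-!
# S23, piece Analytic

* `exists_div_of_monic_relation`: if holomorphic functions on `ℍ` satisfy
  `N^μ + ∑ c_i D^i N^(μ-i) = 0` with `D ≠ 0`, then `N = h D` with `h` holomorphic and
  `h^μ + ∑ c_i h^(μ-i) = 0` (Riemann removable singularities).
* `isZeroAtImInfty_of_monic_relation`: a root of a monic polynomial whose lower coefficients
  all tend to zero at `i∞` tends to zero at `i∞`.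
-/

namespace Fermat.Agent.S23

open UpperHalfPlane Function Filter Topology
open scoped MatrixGroups ModularForm Manifold

namespace Analytic

/-- Cauchy-type root bound: a root `x` of `X^μ + ∑ a_i X^(μ-i)` with
`∑ ‖a_i‖ / r^i < 1` has `‖x‖ < r`. -/
theorem norm_lt_of_monic_relation {μ : ℕ} (x : ℂ) (a : ℕ → ℂ) (r : ℝ) (hr : 0 < r)
    (hrel : x ^ μ + ∑ i ∈ Finset.range μ, a (i + 1) * x ^ (μ - (i + 1)) = 0)
    (hsum : ∑ i ∈ Finset.range μ, ‖a (i + 1)‖ / r ^ (i + 1) < 1) : ‖x‖ < r := by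
  by_contra hcon
  rw [not_lt] at hcon
  have hX : 0 < ‖x‖ := lt_of_lt_of_le hr hcon
  have hXμ : 0 < ‖x‖ ^ μ := pow_pos hX μ
  have h1 : x ^ μ = - ∑ i ∈ Finset.range μ, a (i + 1) * x ^ (μ - (i + 1)) :=
    eq_neg_of_add_eq_zero_left hrel
  have h2 : ‖x‖ ^ μ ≤ ∑ i ∈ Finset.range μ, ‖a (i + 1)‖ * ‖x‖ ^ (μ - (i + 1)) := by
    calc ‖x‖ ^ μ = ‖x ^ μ‖ := (norm_pow x μ).symm
      _ = ‖∑ i ∈ Finset.range μ, a (i + 1) * x ^ (μ - (i + 1))‖ := by rw [h1, norm_neg]
      _ ≤ ∑ i ∈ Finset.range μ, ‖a (i + 1) * x ^ (μ - (i + 1))‖ := norm_sum_le _ _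
      _ = ∑ i ∈ Finset.range μ, ‖a (i + 1)‖ * ‖x‖ ^ (μ - (i + 1)) := by
        simp only [norm_mul, norm_pow]
  have h3 : ∑ i ∈ Finset.range μ, ‖a (i + 1)‖ * ‖x‖ ^ (μ - (i + 1)) ≤
      ‖x‖ ^ μ * ∑ i ∈ Finset.range μ, ‖a (i + 1)‖ / r ^ (i + 1) := by
    rw [Finset.mul_sum]
    apply Finset.sum_le_sum
    intro i hi
    have hi' : i + 1 ≤ μ := Finset.mem_range.mp hi
    have e1 : ‖x‖ ^ μ = ‖x‖ ^ (μ - (i + 1)) * ‖x‖ ^ (i + 1) := by
      rw [← pow_add, Nat.sub_add_cancel hi']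
    have hr' : r ^ (i + 1) ≤ ‖x‖ ^ (i + 1) := pow_le_pow_left₀ hr.le hcon _
    have hrp : 0 < r ^ (i + 1) := pow_pos hr _
    have e2 : ‖x‖ ^ μ * (‖a (i + 1)‖ / r ^ (i + 1)) =
        ‖a (i + 1)‖ * ‖x‖ ^ (μ - (i + 1)) * (‖x‖ ^ (i + 1) / r ^ (i + 1)) := by
      rw [e1]; ring
    rw [e2]
    have h1le : 1 ≤ ‖x‖ ^ (i + 1) / r ^ (i + 1) := by
      rw [one_le_div hrp]; exact hr'
    exact le_mul_of_one_le_right
      (mul_nonneg (norm_nonneg _) (pow_nonneg hX.le _)) h1le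
  have h4 : ‖x‖ ^ μ * ∑ i ∈ Finset.range μ, ‖a (i + 1)‖ / r ^ (i + 1) < ‖x‖ ^ μ := by
    calc ‖x‖ ^ μ * ∑ i ∈ Finset.range μ, ‖a (i + 1)‖ / r ^ (i + 1)
        < ‖x‖ ^ μ * 1 := mul_lt_mul_of_pos_left hsum hXμ
      _ = ‖x‖ ^ μ := mul_one _
  exact lt_irrefl _ (lt_of_le_of_lt (h2.trans h3) h4)

end Analytic

namespace Analytic

/-- The open upper half plane as a subset of `ℂ`. -/
abbrev UH : Set ℂ := {z : ℂ | 0 < z.im}

theorem isOpen_UH : IsOpen UH := isOpen_upperHalfPlaneSet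

/-- Zeros of a nonzero holomorphic function on `ℍ` are isolated (formulated on `ℂ`). -/
theorem eventually_ne_zero {D : ℍ → ℂ} (hD : MDiff D) (hD0 : D ≠ 0) {z : ℂ} (hz : z ∈ UH) :
    ∀ᶠ w in 𝓝[≠] z, (D ∘ ofComplex) w ≠ 0 := by
  by_contra hcon
  rw [not_eventually] at hcon
  have hcon' : ∃ᶠ w in 𝓝[≠] z, (D ∘ ofComplex) w = 0 := by
    refine hcon.mono fun w hw => ?_
    simpa using hw
  have hDa := (UpperHalfPlane.mdifferentiable_iff.mp hD).analyticOnNhd isOpen_UH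
  have hpre : IsPreconnected UH :=
    (Complex.isConnected_of_upperHalfPlane subset_rfl (by grind)).isPreconnected
  have key := hDa.eqOn_zero_of_preconnected_of_frequently_eq_zero hpre hz hcon'
  apply hD0
  ext τ
  have := key τ.im_pos
  simpa [ofComplex_apply] using this

/-- The relation divided by `D^μ`. -/
theorem relation_div {μ : ℕ} (n d : ℂ) (a : ℕ → ℂ) (hd : d ≠ 0)
    (hrel : n ^ μ + ∑ i ∈ Finset.range μ, a (i + 1) * d ^ (i + 1) * n ^ (μ - (i + 1)) = 0) :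
    (n / d) ^ μ + ∑ i ∈ Finset.range μ, a (i + 1) * (n / d) ^ (μ - (i + 1)) = 0 := by
  have hdμ : d ^ μ ≠ 0 := pow_ne_zero _ hd
  have key : d ^ μ * ((n / d) ^ μ + ∑ i ∈ Finset.range μ, a (i + 1) * (n / d) ^ (μ - (i + 1))) =
      n ^ μ + ∑ i ∈ Finset.range μ, a (i + 1) * d ^ (i + 1) * n ^ (μ - (i + 1)) := by
    rw [mul_add, Finset.mul_sum]
    congr 1
    · rw [div_pow, mul_div_cancel₀ _ hdμ]
    · apply Finset.sum_congr rfl
      intro i hi
      have hi' : i + 1 ≤ μ := Finset.mem_range.mp hi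
      have e1 : d ^ μ = d ^ (i + 1) * d ^ (μ - (i + 1)) := by
        rw [← pow_add, Nat.add_sub_cancel' hi']
      rw [e1, div_pow]
      have : d ^ (μ - (i + 1)) ≠ 0 := pow_ne_zero _ hd
      field_simp
  rw [hrel] at key
  exact (mul_eq_zero.mp key).resolve_left hdμ

end Analytic

/-- Division lemma. -/
theorem exists_div_of_monic_relation {μ : ℕ} (Nf D : ℍ → ℂ) (c : ℕ → ℍ → ℂ)
    (hN : MDiff Nf) (hD : MDiff D) (hc : ∀ i, MDiff (c i)) (hD0 : D ≠ 0)
    (hrel : ∀ z, Nf z ^ μ +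
      ∑ i ∈ Finset.range μ, c (i + 1) z * D z ^ (i + 1) * Nf z ^ (μ - (i + 1)) = 0) :
    ∃ h : ℍ → ℂ, MDiff h ∧ (∀ z, Nf z = h z * D z) ∧
      ∀ z, h z ^ μ + ∑ i ∈ Finset.range μ, c (i + 1) z * h z ^ (μ - (i + 1)) = 0 := by
  classical
  -- transfer to `ℂ`
  set N' : ℂ → ℂ := Nf ∘ ofComplex with hN'def
  set D' : ℂ → ℂ := D ∘ ofComplex with hD'def
  set c' : ℕ → ℂ → ℂ := fun i => c i ∘ ofComplex with hc'def
  set g : ℂ → ℂ := fun w => N' w / D' w with hgdef
  set h' : ℂ → ℂ := fun w => limUnder (𝓝[≠] w) g with hh'def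
  have hN' : DifferentiableOn ℂ N' Analytic.UH := UpperHalfPlane.mdifferentiable_iff.mp hN
  have hD' : DifferentiableOn ℂ D' Analytic.UH := UpperHalfPlane.mdifferentiable_iff.mp hD
  have hc' : ∀ i, DifferentiableOn ℂ (c' i) Analytic.UH :=
    fun i => UpperHalfPlane.mdifferentiable_iff.mp (hc i)
  have hμ : μ ≠ 0 := by
    rintro rfl
    simpa using hrel I
  -- the relation for `g` off the zeros of `D'`
  have hgrel : ∀ w ∈ Analytic.UH, D' w ≠ 0 →
      g w ^ μ + ∑ i ∈ Finset.range μ, c' (i + 1) w * g w ^ (μ - (i + 1)) = 0 := by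
    intro w _ hw
    exact Analytic.relation_div (N' w) (D' w) (fun i => c' i w) hw (hrel (ofComplex w))
  -- `g` is differentiable off the zeros of `D'`
  have hgdiff : ∀ w ∈ Analytic.UH, D' w ≠ 0 → DifferentiableAt ℂ g w := by
    intro w hwU hw
    have h1 := (hN' w hwU).differentiableAt (Analytic.isOpen_UH.mem_nhds hwU)
    have h2 := (hD' w hwU).differentiableAt (Analytic.isOpen_UH.mem_nhds hwU)
    exact h1.div h2 hw
  -- hence `h' = g` there
  have hh'g : ∀ w ∈ Analytic.UH, D' w ≠ 0 → h' w = g w := by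
    intro w hwU hw
    have hcont : ContinuousAt g w := (hgdiff w hwU hw).continuousAt
    have : Tendsto g (𝓝[≠] w) (𝓝 (g w)) := hcont.tendsto.mono_left nhdsWithin_le_nhds
    exact this.limUnder_eq
  -- local structure near any point of the upper half plane
  have hlocal : ∀ z ∈ Analytic.UH, ∃ s ∈ 𝓝 z, s ⊆ Analytic.UH ∧ (∀ w ∈ s \ {z}, D' w ≠ 0) ∧
      DifferentiableOn ℂ (update g z (h' z)) s := by
    intro z hzU
    have hev1 : ∀ᶠ w in 𝓝 z, w ≠ z → D' w ≠ 0 :=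
      eventually_nhdsWithin_iff.mp (Analytic.eventually_ne_zero hD hD0 hzU)
    have hev2 : ∀ᶠ w in 𝓝 z, w ∈ Analytic.UH := Analytic.isOpen_UH.mem_nhds hzU
    have hev3 : ∀ᶠ w in 𝓝 z, ∀ i ∈ Finset.range μ, ‖c' (i + 1) w‖ < ‖c' (i + 1) z‖ + 1 := by
      rw [Filter.eventually_all_finset]
      intro i _
      have hcont : ContinuousAt (c' (i + 1)) z :=
        ((hc' (i + 1) z hzU).differentiableAt (Analytic.isOpen_UH.mem_nhds hzU)).continuousAt
      exact hcont.norm.eventually (gt_mem_nhds (lt_add_one _))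
    set s : Set ℂ := {w | (w ≠ z → D' w ≠ 0) ∧ w ∈ Analytic.UH ∧
      ∀ i ∈ Finset.range μ, ‖c' (i + 1) w‖ < ‖c' (i + 1) z‖ + 1} with hsdef
    have hs : s ∈ 𝓝 z := by
      filter_upwards [hev1, hev2, hev3] with w h1 h2 h3
      exact ⟨h1, h2, h3⟩
    have hsU : s ⊆ Analytic.UH := fun w hw => hw.2.1
    have hsD : ∀ w ∈ s \ {z}, D' w ≠ 0 := fun w hw => hw.1.1 hw.2
    refine ⟨s, hs, hsU, hsD, ?_⟩
    -- boundedness of `g` on `s \ {z}`
    set R : ℝ := 1 + ∑ i ∈ Finset.range μ, (‖c' (i + 1) z‖ + 1) with hRdef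
    have hR1 : 1 ≤ R := by
      have : 0 ≤ ∑ i ∈ Finset.range μ, (‖c' (i + 1) z‖ + 1) :=
        Finset.sum_nonneg fun i _ => by positivity
      linarith
    have hR0 : 0 < R := lt_of_lt_of_le one_pos hR1
    have hbound : ∀ w ∈ s \ {z}, ‖g w‖ < R := by
      intro w hw
      apply Analytic.norm_lt_of_monic_relation (g w) (fun i => c' i w) R hR0
        (hgrel w (hsU hw.1) (hsD w hw))
      have h1 : ∑ i ∈ Finset.range μ, ‖c' (i + 1) w‖ / R ^ (i + 1) ≤
          ∑ i ∈ Finset.range μ, (‖c' (i + 1) z‖ + 1) / R := by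
        apply Finset.sum_le_sum
        intro i hi
        have hle : ‖c' (i + 1) w‖ ≤ ‖c' (i + 1) z‖ + 1 := (hw.1.2.2 i hi).le
        have hRle : R ≤ R ^ (i + 1) := by
          calc R = R ^ 1 := (pow_one R).symm
            _ ≤ R ^ (i + 1) := pow_le_pow_right₀ hR1 (by omega)
        calc ‖c' (i + 1) w‖ / R ^ (i + 1) ≤ ‖c' (i + 1) w‖ / R :=
              div_le_div_of_nonneg_left (norm_nonneg _) hR0 hRle
          _ ≤ (‖c' (i + 1) z‖ + 1) / R := div_le_div_of_nonneg_right hle hR0.le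
      have h2 : ∑ i ∈ Finset.range μ, (‖c' (i + 1) z‖ + 1) / R = (R - 1) / R := by
        rw [← Finset.sum_div, hRdef]; ring
      have h3 : (R - 1) / R < 1 := by
        rw [div_lt_one hR0]; linarith
      exact lt_of_le_of_lt (h1.trans h2.le) h3
    have hd : DifferentiableOn ℂ g (s \ {z}) := fun w hw =>
      (hgdiff w (hsU hw.1) (hsD w hw)).differentiableWithinAt
    have hb : BddAbove (norm ∘ g '' (s \ {z})) := by
      refine ⟨R, ?_⟩
      rintro _ ⟨w, hw, rfl⟩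
      exact (hbound w hw).le
    exact Complex.differentiableOn_update_limUnder_of_bddAbove hs hd hb
  -- `h'` is differentiable on the upper half plane
  have hh'diffAt : ∀ z ∈ Analytic.UH, DifferentiableAt ℂ h' z := by
    intro z hzU
    obtain ⟨s, hs, hsU, hsD, hdiff⟩ := hlocal z hzU
    have hEq : h' =ᶠ[𝓝 z] update g z (h' z) := by
      filter_upwards [hs] with w hw
      by_cases hwz : w = z
      · subst hwz; simp
      · rw [update_of_ne hwz]
        exact hh'g w (hsU hw) (hsD w ⟨hw, hwz⟩)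
    exact (hdiff.differentiableAt hs).congr_of_eventuallyEq hEq
  -- the limiting relation
  have hh'rel : ∀ z ∈ Analytic.UH,
      h' z ^ μ + ∑ i ∈ Finset.range μ, c' (i + 1) z * h' z ^ (μ - (i + 1)) = 0 := by
    intro z hzU
    set φ : ℂ → ℂ := fun w =>
      h' w ^ μ + ∑ i ∈ Finset.range μ, c' (i + 1) w * h' w ^ (μ - (i + 1)) with hφdef
    have hφcont : ContinuousAt φ z := by
      have hh'c : ContinuousAt h' z := (hh'diffAt z hzU).continuousAt
      refine (hh'c.pow μ).add ?_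
      refine tendsto_finsetSum _ fun i _ => ?_
      have hcont : ContinuousAt (c' (i + 1)) z :=
        ((hc' (i + 1) z hzU).differentiableAt (Analytic.isOpen_UH.mem_nhds hzU)).continuousAt
      exact hcont.mul (hh'c.pow _)
    have hφ0 : ∀ᶠ w in 𝓝[≠] z, φ w = 0 := by
      have hev2 : ∀ᶠ w in 𝓝[≠] z, w ∈ Analytic.UH :=
        nhdsWithin_le_nhds (Analytic.isOpen_UH.mem_nhds hzU)
      filter_upwards [Analytic.eventually_ne_zero hD hD0 hzU, hev2] with w hw hwU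
      simp only [hφdef]
      rw [hh'g w hwU hw]
      exact hgrel w hwU hw
    have ht1 : Tendsto φ (𝓝[≠] z) (𝓝 (φ z)) := hφcont.tendsto.mono_left nhdsWithin_le_nhds
    have ht2 : Tendsto φ (𝓝[≠] z) (𝓝 0) :=
      (tendsto_congr' hφ0).mpr tendsto_const_nhds
    exact tendsto_nhds_unique ht1 ht2
  -- the function on `ℍ`
  refine ⟨fun τ => h' (τ : ℂ), ?_, ?_, ?_⟩
  · rw [UpperHalfPlane.mdifferentiable_iff]
    have hcongr : ∀ w ∈ Analytic.UH, ((fun τ : ℍ => h' (τ : ℂ)) ∘ ofComplex) w = h' w := by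
      intro w hw
      simp only [comp_apply]
      rw [ofComplex_apply_of_im_pos hw]
    exact DifferentiableOn.congr
      (fun w hw => (hh'diffAt w hw).differentiableWithinAt) hcongr
  · intro τ
    have hτU : (τ : ℂ) ∈ Analytic.UH := τ.im_pos
    have hNτ : N' τ = Nf τ := by simp [hN'def, ofComplex_apply]
    have hDτ : D' τ = D τ := by simp [hD'def, ofComplex_apply]
    by_cases hDz : D τ = 0
    · have h0 := hrel τ
      have hsum0 : ∑ i ∈ Finset.range μ, c (i + 1) τ * D τ ^ (i + 1) * Nf τ ^ (μ - (i + 1)) = 0 := by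
        apply Finset.sum_eq_zero
        intro i _
        rw [hDz, zero_pow (Nat.succ_ne_zero i)]; ring
      rw [hsum0, add_zero] at h0
      rw [hDz, mul_zero]
      exact pow_eq_zero_iff hμ |>.mp h0
    · have hD'z : D' τ ≠ 0 := by rw [hDτ]; exact hDz
      show Nf τ = h' τ * D τ
      rw [hh'g τ hτU hD'z]
      simp only [hgdef]
      rw [hNτ, hDτ, div_mul_cancel₀ _ hDz]
  · intro τ
    have hτU : (τ : ℂ) ∈ Analytic.UH := τ.im_pos
    have := hh'rel τ hτU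
    simpa [hc'def, ofComplex_apply] using this

/-- Root bound at `i∞`. -/
theorem isZeroAtImInfty_of_monic_relation {μ : ℕ} (_hμ : 0 < μ) (h : ℍ → ℂ) (c : ℕ → ℍ → ℂ)
    (hc : ∀ i, IsZeroAtImInfty (c (i + 1)))
    (hrel : ∀ z, h z ^ μ + ∑ i ∈ Finset.range μ, c (i + 1) z * h z ^ (μ - (i + 1)) = 0) :
    IsZeroAtImInfty h := by
  unfold IsZeroAtImInfty ZeroAtFilter
  rw [NormedAddGroup.tendsto_nhds_zero]
  intro ε hε
  set r : ℝ := min ε 1 with hrdef
  have hr : 0 < r := lt_min hε one_pos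
  have hsum : Tendsto (fun z => ∑ i ∈ Finset.range μ, ‖c (i + 1) z‖ / r ^ (i + 1))
      atImInfty (𝓝 0) := by
    have hi : ∀ i ∈ Finset.range μ,
        Tendsto (fun z => ‖c (i + 1) z‖ / r ^ (i + 1)) atImInfty (𝓝 0) := fun i _ => by
      have h1 : Tendsto (fun z => ‖c (i + 1) z‖) atImInfty (𝓝 0) := by
        simpa using (hc i).norm
      simpa using h1.div_const (r ^ (i + 1))
    simpa using tendsto_finsetSum _ hi
  filter_upwards [hsum.eventually (gt_mem_nhds one_pos)] with z hz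
  exact lt_of_lt_of_le
    (Analytic.norm_lt_of_monic_relation (h z) (fun i => c i z) r hr (hrel z) hz)
    (min_le_left _ _)

end Fermat.Agent.S23
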