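import Mathlib
import Fermat.Agent.S23.Basic

set_option autoImplicit false
set_option linter.unusedSectionVars false

/-!
# S23, piece Esymm: elementary symmetric functions of the `SL₂(ℤ)`-conjugates of a modular form
-/

namespace Fermat.Agent.S23

open UpperHalfPlane Function
open scoped MatrixGroups ModularForm Manifold

section Esymm

variable {𝒢 : Subgroup (GL (Fin 2) ℝ)} [𝒢.IsArithmetic] {k : ℤ}

/-- The finite set of cosets. -/
noncomputable instance instFintypeQuot : Fintype (𝒮ℒ ⧸ 𝒢.subgroupOf 𝒮ℒ) := Fintype.ofFinite _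

/-- The family of conjugates `f ∣[k] h⁻¹`, indexed by cosets. -/
noncomputable def conjFam (f : ModularForm 𝒢 k) (q : 𝒮ℒ ⧸ 𝒢.subgroupOf 𝒮ℒ) : ℍ → ℂ :=
  SlashInvariantForm.quotientFunc f q

/-- `i`-th elementary symmetric function of the conjugates. -/
noncomputable def esymmFun (f : ModularForm 𝒢 k) (i : ℕ) : ℍ → ℂ := fun z =>
  ((Finset.univ : Finset (𝒮ℒ ⧸ 𝒢.subgroupOf 𝒮ℒ)).val.map fun q => conjFam f q z).esymm i

theorem conjFam_mk (f : ModularForm 𝒢 k) (h : 𝒮ℒ) :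
    conjFam f (QuotientGroup.mk h) = (f : ℍ → ℂ) ∣[k] (h : GL (Fin 2) ℝ)⁻¹ := rfl

theorem conjFam_one (f : ModularForm 𝒢 k) : conjFam f (QuotientGroup.mk 1) = ⇑f := by
  rw [conjFam_mk]; simp

theorem conjFam_slash (f : ModularForm 𝒢 k) {h : GL (Fin 2) ℝ} (hh : h ∈ 𝒮ℒ)
    (q : 𝒮ℒ ⧸ 𝒢.subgroupOf 𝒮ℒ) :
    conjFam f q ∣[k] h = conjFam f ((⟨h, hh⟩ : 𝒮ℒ)⁻¹ • q) :=
  SlashInvariantForm.quotientFunc_smul f hh q

theorem conjFam_mdiff (f : ModularForm 𝒢 k) (q : 𝒮ℒ ⧸ 𝒢.subgroupOf 𝒮ℒ) : MDiff (conjFam f q) := by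
  induction q using Quotient.inductionOn with
  | h r => exact (ModularForm.translate f (r : GL (Fin 2) ℝ)⁻¹).holo'

/-- Every conjugate is `f ∣[k] γ` for some `γ : SL(2, ℤ)`. -/
theorem conjFam_eq_SL_slash (f : ModularForm 𝒢 k) (q : 𝒮ℒ ⧸ 𝒢.subgroupOf 𝒮ℒ) :
    ∃ γ : SL(2, ℤ), conjFam f q = (f : ℍ → ℂ) ∣[k] γ := by
  induction q using Quotient.inductionOn with
  | h r =>
    obtain ⟨r, g, rfl⟩ := r
    refine ⟨g⁻¹, ?_⟩
    show (f : ℍ → ℂ) ∣[k] (Matrix.SpecialLinearGroup.mapGL ℝ g)⁻¹ = _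
    rw [ModularForm.SL_slash, ← map_inv]
    rfl

theorem conjFam_bdd (f : ModularForm 𝒢 k) (q : 𝒮ℒ ⧸ 𝒢.subgroupOf 𝒮ℒ) :
    IsBoundedAtImInfty (conjFam f q) := by
  obtain ⟨γ, hγ⟩ := conjFam_eq_SL_slash f q
  rw [hγ]
  exact ModularFormClass.bdd_at_infty_slash f γ

theorem esymmFun_eq_sum (f : ModularForm 𝒢 k) (i : ℕ) :
    esymmFun f i = ∑ t ∈ (Finset.univ : Finset (𝒮ℒ ⧸ 𝒢.subgroupOf 𝒮ℒ)).powersetCard i,
      ∏ q ∈ t, conjFam f q := by
  funext z
  simp only [esymmFun, Finset.esymm_map_val, Finset.sum_apply, Finset.prod_apply]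


theorem esymmFun_slash (f : ModularForm 𝒢 k) (i : ℕ) {h : GL (Fin 2) ℝ} (hh : h ∈ 𝒮ℒ) :
    esymmFun f i ∣[k * i] h = esymmFun f i := by
  classical
  rw [esymmFun_eq_sum, SlashAction.sum_slash]
  have hdet : |h.det.val| = 1 := Subgroup.HasDetPlusMinusOne.abs_det hh
  set e : (𝒮ℒ ⧸ 𝒢.subgroupOf 𝒮ℒ) ≃ (𝒮ℒ ⧸ 𝒢.subgroupOf 𝒮ℒ) :=
    MulAction.toPerm ((⟨h, hh⟩ : 𝒮ℒ)⁻¹) with he
  have key : ∀ t ∈ (Finset.univ : Finset (𝒮ℒ ⧸ 𝒢.subgroupOf 𝒮ℒ)).powersetCard i,
      (∏ q ∈ t, conjFam f q) ∣[k * i] h = ∏ q ∈ t.map e.toEmbedding, conjFam f q := by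
    intro t ht
    have hcard : t.card = i := (Finset.mem_powersetCard.mp ht).2
    rw [← hcard, ModularForm.prod_slash, hdet, one_zpow, one_smul, Finset.prod_map]
    refine Finset.prod_congr rfl fun q _ => ?_
    rw [conjFam_slash f hh q]
    rfl
  rw [Finset.sum_congr rfl key]
  refine Finset.sum_bij (fun t _ => t.map e.toEmbedding) ?_ ?_ ?_ ?_
  · intro t ht
    rw [Finset.mem_powersetCard] at ht ⊢
    exact ⟨Finset.subset_univ _, by rw [Finset.card_map]; exact ht.2⟩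
  · intro t₁ _ t₂ _ h12
    exact Finset.map_injective _ h12
  · intro t ht
    refine ⟨t.map e.symm.toEmbedding, ?_, ?_⟩
    · rw [Finset.mem_powersetCard] at ht ⊢
      exact ⟨Finset.subset_univ _, by rw [Finset.card_map]; exact ht.2⟩
    · rw [Finset.map_map]
      convert Finset.map_refl
      ext q
      simp
  · intro t _
    rfl


theorem esymmFun_mdiff (f : ModularForm 𝒢 k) (i : ℕ) : MDiff (esymmFun f i) := by
  rw [esymmFun_eq_sum]
  exact MDifferentiable.sum fun t _ => MDifferentiable.prod fun q _ => conjFam_mdiff f q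

theorem esymmFun_bdd (f : ModularForm 𝒢 k) (i : ℕ) : IsBoundedAtImInfty (esymmFun f i) := by
  rw [esymmFun_eq_sum]
  have hprod : ∀ t : Finset (𝒮ℒ ⧸ 𝒢.subgroupOf 𝒮ℒ),
      IsBoundedAtImInfty (∏ q ∈ t, conjFam f q) := by
    intro t
    classical
    induction t using Finset.induction_on with
    | empty =>
      simp only [Finset.prod_empty]
      exact Filter.const_boundedAtFilter _ (1 : ℂ)
    | insert a t ha ih =>
      rw [Finset.prod_insert ha]
      exact (conjFam_bdd f a).mul ih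
  classical
  generalize (Finset.univ : Finset (𝒮ℒ ⧸ 𝒢.subgroupOf 𝒮ℒ)).powersetCard i = S
  induction S using Finset.induction_on with
  | empty =>
    simp only [Finset.sum_empty]
    exact Filter.const_boundedAtFilter _ (0 : ℂ)
  | insert a S ha ih =>
    rw [Finset.sum_insert ha]
    exact (hprod a).add ih

theorem esymmFun_isMF (f : ModularForm 𝒢 k) (i : ℕ) :
    ∃ G : ModularForm 𝒮ℒ (k * i), ⇑G = esymmFun f i := by
  refine ⟨{ toFun := esymmFun f i
            slash_action_eq' := fun h hh => esymmFun_slash f i hh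
            holo' := esymmFun_mdiff f i
            bdd_at_cusps' := ?_ }, rfl⟩
  intro c hc
  rw [OnePoint.isBoundedAt_iff_forall_SL2Z hc]
  intro γ _
  rw [ModularForm.SL_slash]
  have := esymmFun_slash f i (h := Matrix.SpecialLinearGroup.mapGL ℝ γ) ⟨γ, rfl⟩
  rw [show Matrix.SpecialLinearGroup.toGL ((Matrix.SpecialLinearGroup.map (Int.castRingHom ℝ)) γ)
    = Matrix.SpecialLinearGroup.mapGL ℝ γ from rfl, this]
  exact esymmFun_bdd f i

theorem esymmFun_isZeroAtImInfty (f : ModularForm 𝒢 k)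
    (hf : ∀ γ : SL(2, ℤ), IsZeroAtImInfty ((f : ℍ → ℂ) ∣[k] γ)) (i : ℕ) (hi : 0 < i) :
    IsZeroAtImInfty (esymmFun f i) := by
  classical
  rw [esymmFun_eq_sum]
  have hconj : ∀ q : 𝒮ℒ ⧸ 𝒢.subgroupOf 𝒮ℒ, IsZeroAtImInfty (conjFam f q) := by
    intro q
    obtain ⟨γ, hγ⟩ := conjFam_eq_SL_slash f q
    rw [hγ]
    exact hf γ
  have hprod : ∀ t : Finset (𝒮ℒ ⧸ 𝒢.subgroupOf 𝒮ℒ), t.Nonempty →
      IsZeroAtImInfty (∏ q ∈ t, conjFam f q) := by
    intro t ht
    obtain ⟨a, ha⟩ := ht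
    rw [← Finset.mul_prod_erase t _ ha]
    have hb : IsBoundedAtImInfty (∏ q ∈ t.erase a, conjFam f q) := by
      generalize t.erase a = s
      induction s using Finset.induction_on with
      | empty =>
        simp only [Finset.prod_empty]
        exact Filter.const_boundedAtFilter _ (1 : ℂ)
      | insert b s hb ih =>
        rw [Finset.prod_insert hb]
        exact (conjFam_bdd f b).mul ih
    exact Filter.ZeroAtFilter.mul_boundedAtFilter (hconj a) hb
  have hall : ∀ t ∈ (Finset.univ : Finset (𝒮ℒ ⧸ 𝒢.subgroupOf 𝒮ℒ)).powersetCard i,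
      IsZeroAtImInfty (∏ q ∈ t, conjFam f q) := by
    intro t ht
    apply hprod
    rw [← Finset.card_pos, (Finset.mem_powersetCard.mp ht).2]
    exact hi
  revert hall
  generalize (Finset.univ : Finset (𝒮ℒ ⧸ 𝒢.subgroupOf 𝒮ℒ)).powersetCard i = S
  intro hall
  induction S using Finset.induction_on with
  | empty =>
    simp only [Finset.sum_empty]
    exact Filter.zero_zeroAtFilter _
  | insert a S ha ih =>
    rw [Finset.sum_insert ha]
    exact (hall a (Finset.mem_insert_self _ _)).add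
      (ih fun t ht => hall t (Finset.mem_insert_of_mem ht))

/-- Vieta. -/
theorem prod_sub_conjFam (f : ModularForm 𝒢 k) (z : ℍ) (x : ℂ) :
    ∏ q, (x - conjFam f q z) =
      ∑ i ∈ Finset.range (Nat.card (𝒮ℒ ⧸ 𝒢.subgroupOf 𝒮ℒ) + 1),
        (-1) ^ i * esymmFun f i z * x ^ (Nat.card (𝒮ℒ ⧸ 𝒢.subgroupOf 𝒮ℒ) - i) := by
  have h := Multiset.prod_X_sub_X_eq_sum_esymm
    ((Finset.univ : Finset (𝒮ℒ ⧸ 𝒢.subgroupOf 𝒮ℒ)).val.map fun q => conjFam f q z)
  have h2 := congrArg (Polynomial.eval x) h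
  rw [Multiset.map_map, Polynomial.eval_multiset_prod, Multiset.map_map] at h2
  simp only [Function.comp_def, Polynomial.eval_sub, Polynomial.eval_X, Polynomial.eval_C,
    Multiset.card_map, Finset.card_val, Finset.card_univ, Polynomial.eval_finsetSum,
    Polynomial.eval_mul, Polynomial.eval_pow, Polynomial.eval_neg, Polynomial.eval_one] at h2
  rw [Nat.card_eq_fintype_card]
  rw [Finset.prod, h2]
  refine Finset.sum_congr rfl fun i _ => ?_
  simp only [esymmFun]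
  ring

end Esymm

end Fermat.Agent.S23
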