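import Mathlib
import Fermat.Agent.S23.Basic

set_option autoImplicit false

/-!
# S23, piece Conj (part 1): algebra of slash-invariant functions, the interpolation expression
-/

namespace Fermat.Agent.S23

open UpperHalfPlane Function
open scoped MatrixGroups ModularForm Manifold

/-- Slash of a power (for elements of `SL(2, ℤ)`). -/
theorem pow_slash_SL2 (w : ℤ) (n : ℕ) (γ : SL(2, ℤ)) (F : ℍ → ℂ) :
    (F ^ n) ∣[w * n] γ = (F ∣[w] γ) ^ n := by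
  induction n with
  | zero =>
    simp only [Nat.cast_zero, mul_zero, pow_zero]
    exact ModularForm.is_invariant_one γ
  | succ n ih =>
    rw [pow_succ, pow_succ, ← ih, ← ModularForm.mul_slash_SL2]
    congr 1
    push_cast
    ring

/-- `F` is invariant of weight `w` under `γ`. -/
def SlInv (γ : SL(2, ℤ)) (w : ℤ) (F : ℍ → ℂ) : Prop := F ∣[w] γ = F

theorem SlInv.of_eq {γ : SL(2, ℤ)} {w w' : ℤ} {F : ℍ → ℂ} (h : SlInv γ w F) (hw : w = w') :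
    SlInv γ w' F := hw ▸ h

theorem SlInv.mul {γ : SL(2, ℤ)} {w₁ w₂ : ℤ} {F G : ℍ → ℂ} (hF : SlInv γ w₁ F)
    (hG : SlInv γ w₂ G) : SlInv γ (w₁ + w₂) (F * G) := by
  unfold SlInv at *
  rw [ModularForm.mul_slash_SL2, hF, hG]

theorem SlInv.pow {γ : SL(2, ℤ)} {w : ℤ} {F : ℍ → ℂ} (hF : SlInv γ w F) (n : ℕ) :
    SlInv γ (w * n) (F ^ n) := by
  unfold SlInv at *
  rw [pow_slash_SL2, hF]

theorem SlInv.sum {γ : SL(2, ℤ)} {w : ℤ} {ι : Type*} (s : Finset ι) (F : ι → ℍ → ℂ)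
    (hF : ∀ i ∈ s, SlInv γ w (F i)) : SlInv γ w (∑ i ∈ s, F i) := by
  unfold SlInv at *
  rw [SlashAction.sum_slash]
  exact Finset.sum_congr rfl hF

theorem slInv_neg_one_pow (γ : SL(2, ℤ)) (n : ℕ) : SlInv γ 0 ((-1 : ℍ → ℂ) ^ n) := by
  have : ((-1 : ℍ → ℂ) ^ n) = Function.const ℍ ((-1 : ℂ) ^ n) := by
    funext z
    simp
  unfold SlInv
  rw [this]
  exact ModularForm.is_invariant_const γ _

/-- The interpolation expression
`∑_{m<μ} (∑_{i=m+1}^{μ} (-1)^{μ-i} A_{μ-i} T_{i-m-1}) U^m`. -/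
def interpFun (μ : ℕ) (A T : ℕ → ℍ → ℂ) (U : ℍ → ℂ) : ℍ → ℂ :=
  ∑ m ∈ Finset.range μ,
    (∑ i ∈ Finset.Icc (m + 1) μ, ((-1 : ℍ → ℂ) ^ (μ - i) * A (μ - i)) * T (i - (m + 1))) * U ^ m

theorem interpFun_apply (μ : ℕ) (A T : ℕ → ℍ → ℂ) (U : ℍ → ℂ) (z : ℍ) :
    interpFun μ A T U z = ∑ m ∈ Finset.range μ,
      (∑ i ∈ Finset.Icc (m + 1) μ, ((-1) ^ (μ - i) * A (μ - i) z) * T (i - (m + 1)) z) *
        U z ^ m := by
  simp [interpFun, Finset.sum_apply]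

theorem SlInv.interpFun {γ : SL(2, ℤ)} {k l : ℤ} {μ : ℕ} {A T : ℕ → ℍ → ℂ} {U : ℍ → ℂ}
    (hA : ∀ i : ℕ, SlInv γ (l * i) (A i)) (hT : ∀ j : ℕ, SlInv γ (k + l * j) (T j))
    (hU : SlInv γ l U) : SlInv γ (k + l * ((μ : ℤ) - 1)) (interpFun μ A T U) := by
  unfold Fermat.Agent.S23.interpFun
  apply SlInv.sum
  intro m hm
  have hmμ : m < μ := Finset.mem_range.mp hm
  have hinner : SlInv γ (k + l * ((μ : ℤ) - 1 - m))
      (∑ i ∈ Finset.Icc (m + 1) μ,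
        ((-1 : ℍ → ℂ) ^ (μ - i) * A (μ - i)) * T (i - (m + 1))) := by
    apply SlInv.sum
    intro i hi
    obtain ⟨hi1, hi2⟩ := Finset.mem_Icc.mp hi
    refine (((slInv_neg_one_pow γ (μ - i)).mul (hA (μ - i))).mul (hT (i - (m + 1)))).of_eq ?_
    rw [Nat.cast_sub hi2, Nat.cast_sub hi1]
    push_cast
    ring
  refine (hinner.mul (hU.pow m)).of_eq ?_
  ring

theorem isNice_neg_one_pow (n : ℕ) : IsNice ((-1 : ℍ → ℂ) ^ n) := (isNice_one.neg).pow n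

theorem isNice_interpFun {μ : ℕ} {A T : ℕ → ℍ → ℂ} {U : ℍ → ℂ}
    (hA : ∀ i, IsNice (A i)) (hT : ∀ j, IsNice (T j)) (hU : IsNice U) :
    IsNice (interpFun μ A T U) := by
  unfold interpFun
  refine isNice_sum _ _ fun m _ => ?_
  refine (isNice_sum _ _ fun i _ => ?_).mul (hU.pow m)
  exact ((isNice_neg_one_pow _).mul (hA _)).mul (hT _)

theorem isConj_neg_one_pow (σ : ℂ ≃+* ℂ) (n : ℕ) :
    IsConj σ ((-1 : ℍ → ℂ) ^ n) ((-1 : ℍ → ℂ) ^ n) :=
  ((isConj_one σ).neg isNice_one isNice_one).pow isNice_one.neg isNice_one.neg n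

theorem isConj_interpFun {σ : ℂ ≃+* ℂ} {μ : ℕ} {A A' T T' : ℕ → ℍ → ℂ} {U U' : ℍ → ℂ}
    (hA : ∀ i, IsNice (A i)) (hA' : ∀ i, IsNice (A' i))
    (hT : ∀ j, IsNice (T j)) (hT' : ∀ j, IsNice (T' j)) (hU : IsNice U) (hU' : IsNice U')
    (cA : ∀ i, IsConj σ (A i) (A' i)) (cT : ∀ j, IsConj σ (T j) (T' j)) (cU : IsConj σ U U') :
    IsConj σ (interpFun μ A T U) (interpFun μ A' T' U') := by
  unfold interpFun
  refine isConj_sum _ _ _ (fun m _ => ?_) (fun m _ => ?_) fun m _ => ?_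
  · refine (isNice_sum _ _ fun i _ => ?_).mul (hU.pow m)
    exact ((isNice_neg_one_pow _).mul (hA _)).mul (hT _)
  · refine (isNice_sum _ _ fun i _ => ?_).mul (hU'.pow m)
    exact ((isNice_neg_one_pow _).mul (hA' _)).mul (hT' _)
  · refine IsConj.mul (isNice_sum _ _ fun i _ => ?_) (isNice_sum _ _ fun i _ => ?_)
      (hU.pow m) (hU'.pow m) ?_ (cU.pow hU hU' m)
    · exact ((isNice_neg_one_pow _).mul (hA _)).mul (hT _)
    · exact ((isNice_neg_one_pow _).mul (hA' _)).mul (hT' _)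
    · refine isConj_sum _ _ _ (fun i _ => ?_) (fun i _ => ?_) fun i _ => ?_
      · exact ((isNice_neg_one_pow _).mul (hA _)).mul (hT _)
      · exact ((isNice_neg_one_pow _).mul (hA' _)).mul (hT' _)
      · exact IsConj.mul ((isNice_neg_one_pow _).mul (hA _)) ((isNice_neg_one_pow _).mul (hA' _))
          (hT _) (hT' _)
          (IsConj.mul (isNice_neg_one_pow _) (isNice_neg_one_pow _) (hA _) (hA' _)
            (isConj_neg_one_pow σ _) (cA _)) (cT _)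

end Fermat.Agent.S23
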