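import Mathlib
import Fermat.Agent.S23.Esymm

set_option autoImplicit false
set_option linter.unusedSectionVars false

/-!
# S23, sub-piece of Conj: traces `∑_q f_q u_q^j` and power sums `∑_q u_q^j` of conjugates
are level-one modular forms.
-/

namespace Fermat.Agent.S23

open UpperHalfPlane Function
open scoped MatrixGroups ModularForm Manifold

namespace Trace

/-- A holomorphic function, bounded at `i∞` and invariant under `SL₂(ℤ)` is a level one
modular form. -/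
theorem exists_modularForm_of_invariant (w : ℤ) (F : ℍ → ℂ)
    (hinv : ∀ h : GL (Fin 2) ℝ, h ∈ 𝒮ℒ → F ∣[w] h = F) (hF : MDiff F)
    (hb : IsBoundedAtImInfty F) :
    ∃ G : ModularForm 𝒮ℒ w, ⇑G = F := by
  refine ⟨{ toFun := F
            slash_action_eq' := fun h hh => hinv h hh
            holo' := hF
            bdd_at_cusps' := ?_ }, rfl⟩
  intro c hc
  rw [OnePoint.isBoundedAt_iff_forall_SL2Z hc]
  intro γ _
  rw [ModularForm.SL_slash]
  have := hinv (Matrix.SpecialLinearGroup.mapGL ℝ γ) ⟨γ, rfl⟩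
  rw [show Matrix.SpecialLinearGroup.toGL ((Matrix.SpecialLinearGroup.map (Int.castRingHom ℝ)) γ)
    = Matrix.SpecialLinearGroup.mapGL ℝ γ from rfl, this]
  exact hb

/-- Slash of a power, for a matrix of determinant `±1`. -/
theorem pow_slash_of_abs_det (F : ℍ → ℂ) (l : ℤ) (j : ℕ) (h : GL (Fin 2) ℝ)
    (hdet : |h.det.val| = 1) : (F ^ j) ∣[l * j] h = (F ∣[l] h) ^ j := by
  have := ModularForm.prod_slash (k := l) (g := h) (f := fun _ : ℕ => F) (s := Finset.range j)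
  rw [hdet, one_zpow, one_smul] at this
  simpa [Finset.prod_const, Finset.card_range] using this

/-- Slash of a product, for a matrix of determinant `±1`. -/
theorem mul_slash_of_abs_det (F G : ℍ → ℂ) (k1 k2 : ℤ) (h : GL (Fin 2) ℝ)
    (hdet : |h.det.val| = 1) : (F * G) ∣[k1 + k2] h = (F ∣[k1] h) * (G ∣[k2] h) := by
  rw [ModularForm.mul_slash, hdet, one_smul]

theorem isBoundedAtImInfty_pow {F : ℍ → ℂ} (hF : IsBoundedAtImInfty F) (j : ℕ) :
    IsBoundedAtImInfty (F ^ j) := by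
  induction j with
  | zero =>
    simp only [pow_zero]
    exact Filter.const_boundedAtFilter _ (1 : ℂ)
  | succ j ih =>
    rw [pow_succ]
    exact ih.mul hF

theorem isBoundedAtImInfty_sum {ι : Type*} (s : Finset ι) (F : ι → ℍ → ℂ)
    (hF : ∀ i ∈ s, IsBoundedAtImInfty (F i)) : IsBoundedAtImInfty (∑ i ∈ s, F i) := by
  classical
  induction s using Finset.induction_on with
  | empty =>
    simp only [Finset.sum_empty]
    exact Filter.const_boundedAtFilter _ (0 : ℂ)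
  | insert a s ha ih =>
    rw [Finset.sum_insert ha]
    exact (hF a (Finset.mem_insert_self _ _)).add
      (ih fun i hi => hF i (Finset.mem_insert_of_mem hi))

end Trace

section

variable {𝒢 : Subgroup (GL (Fin 2) ℝ)} [𝒢.IsArithmetic] {k l : ℤ}

/-- `∑_q f_q · u_q ^ j` (trace of `f·u^j` from `𝒢` to `SL₂(ℤ)`). -/
noncomputable def traceFun (f : ModularForm 𝒢 k) (u : ModularForm 𝒢 l) (j : ℕ) : ℍ → ℂ :=
  ∑ q : 𝒮ℒ ⧸ 𝒢.subgroupOf 𝒮ℒ, conjFam f q * conjFam u q ^ j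

/-- power sums of the conjugates -/
noncomputable def powerSumFun (u : ModularForm 𝒢 l) (j : ℕ) : ℍ → ℂ :=
  ∑ q : 𝒮ℒ ⧸ 𝒢.subgroupOf 𝒮ℒ, conjFam u q ^ j

theorem traceFun_slash (f : ModularForm 𝒢 k) (u : ModularForm 𝒢 l) (j : ℕ)
    {h : GL (Fin 2) ℝ} (hh : h ∈ 𝒮ℒ) : traceFun f u j ∣[k + l * j] h = traceFun f u j := by
  have hdet : |h.det.val| = 1 := Subgroup.HasDetPlusMinusOne.abs_det hh
  unfold traceFun
  rw [SlashAction.sum_slash]
  have key : ∀ q : 𝒮ℒ ⧸ 𝒢.subgroupOf 𝒮ℒ,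
      (conjFam f q * conjFam u q ^ j) ∣[k + l * j] h =
        conjFam f ((⟨h, hh⟩ : 𝒮ℒ)⁻¹ • q) * conjFam u ((⟨h, hh⟩ : 𝒮ℒ)⁻¹ • q) ^ j := by
    intro q
    rw [Trace.mul_slash_of_abs_det _ _ _ _ _ hdet, Trace.pow_slash_of_abs_det _ _ _ _ hdet,
      conjFam_slash f hh q, conjFam_slash u hh q]
  rw [Finset.sum_congr rfl fun q _ => key q]
  exact Equiv.sum_comp (MulAction.toPerm ((⟨h, hh⟩ : 𝒮ℒ)⁻¹))
    (fun q => conjFam f q * conjFam u q ^ j)

theorem traceFun_mdiff (f : ModularForm 𝒢 k) (u : ModularForm 𝒢 l) (j : ℕ) :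
    MDiff (traceFun f u j) := by
  unfold traceFun
  exact MDifferentiable.sum fun q _ => (conjFam_mdiff f q).mul ((conjFam_mdiff u q).pow j)

theorem traceFun_bdd (f : ModularForm 𝒢 k) (u : ModularForm 𝒢 l) (j : ℕ) :
    IsBoundedAtImInfty (traceFun f u j) := by
  unfold traceFun
  exact Trace.isBoundedAtImInfty_sum _ _ fun q _ =>
    (conjFam_bdd f q).mul (Trace.isBoundedAtImInfty_pow (conjFam_bdd u q) j)

theorem traceFun_isMF (f : ModularForm 𝒢 k) (u : ModularForm 𝒢 l) (j : ℕ) :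
    ∃ G : ModularForm 𝒮ℒ (k + l * j), ⇑G = traceFun f u j :=
  Trace.exists_modularForm_of_invariant _ _ (fun _ hh => traceFun_slash f u j hh)
    (traceFun_mdiff f u j) (traceFun_bdd f u j)

theorem powerSumFun_slash (u : ModularForm 𝒢 l) (j : ℕ)
    {h : GL (Fin 2) ℝ} (hh : h ∈ 𝒮ℒ) : powerSumFun u j ∣[l * j] h = powerSumFun u j := by
  have hdet : |h.det.val| = 1 := Subgroup.HasDetPlusMinusOne.abs_det hh
  unfold powerSumFun
  rw [SlashAction.sum_slash]
  have key : ∀ q : 𝒮ℒ ⧸ 𝒢.subgroupOf 𝒮ℒ,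
      (conjFam u q ^ j) ∣[l * j] h = conjFam u ((⟨h, hh⟩ : 𝒮ℒ)⁻¹ • q) ^ j := by
    intro q
    rw [Trace.pow_slash_of_abs_det _ _ _ _ hdet, conjFam_slash u hh q]
  rw [Finset.sum_congr rfl fun q _ => key q]
  exact Equiv.sum_comp (MulAction.toPerm ((⟨h, hh⟩ : 𝒮ℒ)⁻¹)) (fun q => conjFam u q ^ j)

theorem powerSumFun_mdiff (u : ModularForm 𝒢 l) (j : ℕ) : MDiff (powerSumFun u j) := by
  unfold powerSumFun
  exact MDifferentiable.sum fun q _ => (conjFam_mdiff u q).pow j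

theorem powerSumFun_bdd (u : ModularForm 𝒢 l) (j : ℕ) :
    IsBoundedAtImInfty (powerSumFun u j) := by
  unfold powerSumFun
  exact Trace.isBoundedAtImInfty_sum _ _ fun q _ =>
    Trace.isBoundedAtImInfty_pow (conjFam_bdd u q) j

theorem powerSumFun_isMF (u : ModularForm 𝒢 l) (j : ℕ) :
    ∃ G : ModularForm 𝒮ℒ (l * j), ⇑G = powerSumFun u j :=
  Trace.exists_modularForm_of_invariant _ _ (fun _ hh => powerSumFun_slash u j hh)
    (powerSumFun_mdiff u j) (powerSumFun_bdd u j)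

end

end Fermat.Agent.S23
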