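import Mathlib
import Fermat.Agent.S23.Basic
import Fermat.Agent.S23.Esymm
import Fermat.Agent.S23.LevelOne
import Fermat.Agent.S23.Analytic
import Fermat.Agent.S23.SlashAlg
import Fermat.Agent.S23.Interp
import Fermat.Agent.S23.Trace

set_option autoImplicit false

/-!
# S23, piece Conj: `Aut(ℂ)`-conjugates of cusp forms
-/

namespace Fermat.Agent.S23

open UpperHalfPlane Function
open scoped MatrixGroups ModularForm Manifold

/-! ### Level one functions -/

/-- `F` is (the function of) a level one modular form of weight `w`. -/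
def IsLevelOne (w : ℤ) (F : ℍ → ℂ) : Prop := ∃ G : ModularForm 𝒮ℒ w, ⇑G = F

theorem IsLevelOne.isNice {w : ℤ} {F : ℍ → ℂ} (h : IsLevelOne w F) : IsNice F := by
  obtain ⟨G, rfl⟩ := h
  exact isNice_levelOne G

theorem IsLevelOne.mdiff {w : ℤ} {F : ℍ → ℂ} (h : IsLevelOne w F) : MDiff F := h.isNice.2.1

theorem IsLevelOne.slInv {w : ℤ} {F : ℍ → ℂ} (h : IsLevelOne w F) (γ : SL(2, ℤ)) :
    SlInv γ w F := by
  obtain ⟨G, rfl⟩ := h
  unfold SlInv
  rw [ModularForm.SL_slash]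
  exact SlashInvariantFormClass.slash_action_eq G _ ⟨γ, rfl⟩

theorem IsLevelOne.exists_conj {w : ℤ} {F : ℍ → ℂ} (h : IsLevelOne w F) (σ : ℂ ≃+* ℂ) :
    ∃ F' : ℍ → ℂ, IsLevelOne w F' ∧ IsConj σ F F' := by
  obtain ⟨G, rfl⟩ := h
  obtain ⟨G', hG'⟩ := levelOne_conj σ w G
  exact ⟨G', ⟨G', rfl⟩, hG'⟩

/-! ### Pointwise identities -/

section Pointwise

variable {𝒢 : Subgroup (GL (Fin 2) ℝ)} [𝒢.IsArithmetic] {k l : ℤ}

theorem mul_prodDiff_eq_interpFun [DecidableEq (𝒮ℒ ⧸ 𝒢.subgroupOf 𝒮ℒ)]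
    (f : ModularForm 𝒢 k) (u : ModularForm 𝒢 l) (z : ℍ) :
    f z * ∏ q ∈ (Finset.univ : Finset (𝒮ℒ ⧸ 𝒢.subgroupOf 𝒮ℒ)).erase (QuotientGroup.mk 1),
        (u z - conjFam u q z) =
      interpFun (Fintype.card (𝒮ℒ ⧸ 𝒢.subgroupOf 𝒮ℒ)) (esymmFun u) (traceFun f u) u z := by
  have h := interpolation (fun q : 𝒮ℒ ⧸ 𝒢.subgroupOf 𝒮ℒ => conjFam u q z)
    (fun q => conjFam f q z) (QuotientGroup.mk 1)
  simp only [conjFam_one] at h
  rw [h, interpFun_apply]
  refine Finset.sum_congr rfl fun m _ => ?_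
  congr 1
  refine Finset.sum_congr rfl fun i _ => ?_
  simp [esymmFun, traceFun, Finset.sum_apply]

theorem prodDiff_eq_interpFun [DecidableEq (𝒮ℒ ⧸ 𝒢.subgroupOf 𝒮ℒ)]
    (u : ModularForm 𝒢 l) (z : ℍ) :
    ∏ q ∈ (Finset.univ : Finset (𝒮ℒ ⧸ 𝒢.subgroupOf 𝒮ℒ)).erase (QuotientGroup.mk 1),
        (u z - conjFam u q z) =
      interpFun (Fintype.card (𝒮ℒ ⧸ 𝒢.subgroupOf 𝒮ℒ)) (esymmFun u) (powerSumFun u) u z := by
  have h := interpolation (fun q : 𝒮ℒ ⧸ 𝒢.subgroupOf 𝒮ℒ => conjFam u q z)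
    (fun _ => (1 : ℂ)) (QuotientGroup.mk 1)
  simp only [conjFam_one, one_mul] at h
  rw [h, interpFun_apply]
  refine Finset.sum_congr rfl fun m _ => ?_
  congr 1
  refine Finset.sum_congr rfl fun i _ => ?_
  simp [esymmFun, powerSumFun, Finset.sum_apply]

theorem vieta_relation (f : ModularForm 𝒢 k) (z : ℍ) :
    f z ^ (Fintype.card (𝒮ℒ ⧸ 𝒢.subgroupOf 𝒮ℒ)) +
      ∑ i ∈ Finset.range (Fintype.card (𝒮ℒ ⧸ 𝒢.subgroupOf 𝒮ℒ)),
        ((-1) ^ (i + 1) * esymmFun f (i + 1) z) *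
          f z ^ (Fintype.card (𝒮ℒ ⧸ 𝒢.subgroupOf 𝒮ℒ) - (i + 1)) = 0 := by
  have h := prod_sub_conjFam f z (f z)
  rw [Nat.card_eq_fintype_card] at h
  have h0 : ∏ q : 𝒮ℒ ⧸ 𝒢.subgroupOf 𝒮ℒ, (f z - conjFam f q z) = 0 := by
    apply Finset.prod_eq_zero (Finset.mem_univ (QuotientGroup.mk 1))
    rw [conjFam_one, sub_self]
  rw [h0, Finset.sum_range_succ'] at h
  have he0 : esymmFun f 0 z = 1 := by
    simp [esymmFun, Multiset.esymm, Multiset.powersetCard_zero_left]
  rw [he0] at h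
  simp only [pow_zero, one_mul, Nat.sub_zero] at h
  rw [add_comm]
  exact h.symm

end Pointwise


/-! ### Non-vanishing of products -/

theorem finset_prod_ne_zero_of_mdiff {ι : Type} (s : Finset ι) (g : ι → ℍ → ℂ)
    (hg : ∀ i ∈ s, MDiff (g i)) (h0 : ∀ i ∈ s, g i ≠ 0) : ∏ i ∈ s, g i ≠ 0 := by
  classical
  induction s using Finset.induction_on with
  | empty =>
    simp only [Finset.prod_empty]
    intro h
    have := congrFun h UpperHalfPlane.I
    simp at this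
  | insert a s ha ih =>
    rw [Finset.prod_insert ha]
    intro h
    have hs : MDiff (∏ i ∈ s, g i) :=
      MDifferentiable.prod fun i hi => hg i (Finset.mem_insert_of_mem hi)
    rcases mdiff_mul_eq_zero (hg a (Finset.mem_insert_self _ _)) hs h with h1 | h1
    · exact h0 a (Finset.mem_insert_self _ _) h1
    · exact ih (fun i hi => hg i (Finset.mem_insert_of_mem hi))
        (fun i hi => h0 i (Finset.mem_insert_of_mem hi)) h1

/-! ### The main theorem -/

section Main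

variable {𝒢 : Subgroup (GL (Fin 2) ℝ)} [𝒢.IsArithmetic] {k l : ℤ}

theorem cuspForm_conj_of_primitive (h𝒢 : 𝒢 ≤ 𝒮ℒ) (h1 : (1 : ℝ) ∈ 𝒢.strictPeriods)
    (u : ModularForm 𝒢 l)
    (hu : ∀ q : 𝒮ℒ ⧸ 𝒢.subgroupOf 𝒮ℒ, q ≠ QuotientGroup.mk 1 → conjFam u q ≠ ⇑u)
    (σ : ℂ ≃+* ℂ) (huσ : IsConj σ u u) (f : CuspForm 𝒢 k) :
    ∃ f' : CuspForm 𝒢 k, IsConj σ f f' := by
  classical
  have hμ : 0 < Fintype.card (𝒮ℒ ⧸ 𝒢.subgroupOf 𝒮ℒ) :=
    Fintype.card_pos_iff.mpr ⟨QuotientGroup.mk 1⟩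
  generalize hμdef : Fintype.card (𝒮ℒ ⧸ 𝒢.subgroupOf 𝒮ℒ) = μ at hμ
  let fM : ModularForm 𝒢 k := ModularFormClass.modularForm f
  have hfM : (fM : ℍ → ℂ) = f := rfl
  have hfnice : IsNice (f : ℍ → ℂ) := isNice_of_modularForm h1 f
  have hunice : IsNice (u : ℍ → ℂ) := isNice_of_modularForm h1 u
  -- level-one data
  have hA : ∀ i : ℕ, IsLevelOne (l * i) (esymmFun u i) := fun i => esymmFun_isMF u i
  have hT : ∀ j : ℕ, IsLevelOne (k + l * j) (traceFun fM u j) := fun j => traceFun_isMF fM u j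
  have hP : ∀ j : ℕ, IsLevelOne (l * j) (powerSumFun u j) := fun j => powerSumFun_isMF u j
  have hC : ∀ i : ℕ, IsLevelOne (k * i) (esymmFun fM i) := fun i => esymmFun_isMF fM i
  choose A' hA' cA using fun i => (hA i).exists_conj σ
  choose T' hT' cT using fun j => (hT j).exists_conj σ
  choose P' hP' cP using fun j => (hP j).exists_conj σ
  choose C' hC' cC using fun i => (hC i).exists_conj σ
  -- the functions
  set Nf := interpFun μ (esymmFun u) (traceFun fM u) u with hNf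
  set D := interpFun μ (esymmFun u) (powerSumFun u) u with hD
  set Nf' := interpFun μ A' T' u with hNf'
  set D' := interpFun μ A' P' u with hD'
  have hNfnice : IsNice Nf :=
    isNice_interpFun (fun i => (hA i).isNice) (fun j => (hT j).isNice) hunice
  have hDnice : IsNice D :=
    isNice_interpFun (fun i => (hA i).isNice) (fun j => (hP j).isNice) hunice
  have hNf'nice : IsNice Nf' :=
    isNice_interpFun (fun i => (hA' i).isNice) (fun j => (hT' j).isNice) hunice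
  have hD'nice : IsNice D' :=
    isNice_interpFun (fun i => (hA' i).isNice) (fun j => (hP' j).isNice) hunice
  have cN : IsConj σ Nf Nf' :=
    isConj_interpFun (fun i => (hA i).isNice) (fun i => (hA' i).isNice)
      (fun j => (hT j).isNice) (fun j => (hT' j).isNice) hunice hunice cA cT huσ
  have cD : IsConj σ D D' :=
    isConj_interpFun (fun i => (hA i).isNice) (fun i => (hA' i).isNice)
      (fun j => (hP j).isNice) (fun j => (hP' j).isNice) hunice hunice cA cP huσ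
  -- `f * D = Nf`
  have hDprod : ∀ z, ∏ q ∈ (Finset.univ : Finset (𝒮ℒ ⧸ 𝒢.subgroupOf 𝒮ℒ)).erase
      (QuotientGroup.mk 1), (u z - conjFam u q z) = D z := by
    intro z
    rw [hD, ← hμdef]
    exact prodDiff_eq_interpFun u z
  have hfD : (f : ℍ → ℂ) * D = Nf := by
    funext z
    rw [Pi.mul_apply, ← hDprod z, hNf, ← hμdef]
    exact mul_prodDiff_eq_interpFun fM u z
  -- `D ≠ 0`
  have hD0 : D ≠ 0 := by
    have hne := finset_prod_ne_zero_of_mdiff
      ((Finset.univ : Finset (𝒮ℒ ⧸ 𝒢.subgroupOf 𝒮ℒ)).erase (QuotientGroup.mk 1))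
      (fun q => (u : ℍ → ℂ) - conjFam u q)
      (fun q _ => hunice.2.1.sub (conjFam_mdiff u q))
      (fun q hq h0 => hu q (Finset.ne_of_mem_erase hq) (sub_eq_zero.mp h0).symm)
    intro h0
    apply hne
    funext z
    rw [Finset.prod_apply]
    simp only [Pi.sub_apply, Pi.zero_apply]
    rw [hDprod z, h0]
    rfl
  have hD'0 : D' ≠ 0 := by
    intro h0
    apply hD0
    have hq : qExpansion 1 D' = 0 := by rw [h0]; exact qExpansion_zero 1
    have hcD := cD
    unfold IsConj at hcD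
    rw [hq] at hcD
    have hq0 : qExpansion 1 D = 0 := by
      ext n
      have := congrArg (fun p => PowerSeries.coeff n p) hcD
      simp only [PowerSeries.coeff_map, map_zero] at this
      have h2 : σ ((qExpansion 1 D).coeff n) = 0 := this.symm
      simpa using h2
    exact (qExpansion_eq_zero_iff one_pos hDnice.1 hDnice.2.1 hDnice.2.2).mp hq0
  -- the relation satisfied by `Nf`
  have hrel : Nf ^ μ + ∑ i ∈ Finset.range μ,
      ((-1 : ℍ → ℂ) ^ (i + 1) * esymmFun fM (i + 1)) * D ^ (i + 1) * Nf ^ (μ - (i + 1)) = 0 := by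
    funext z
    simp only [Pi.add_apply, Finset.sum_apply, Pi.mul_apply, Pi.pow_apply, Pi.zero_apply,
      Pi.neg_apply, Pi.one_apply]
    rw [← hfD]
    simp only [Pi.mul_apply]
    have hv := vieta_relation fM z
    rw [hμdef, hfM] at hv
    have key : ∀ i ∈ Finset.range μ,
        ((-1) ^ (i + 1) * esymmFun fM (i + 1) z) * D z ^ (i + 1) * (f z * D z) ^ (μ - (i + 1)) =
          D z ^ μ * (((-1) ^ (i + 1) * esymmFun fM (i + 1) z) * f z ^ (μ - (i + 1))) := by
      intro i hi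
      have hi' := Finset.mem_range.mp hi
      have e : D z ^ μ = D z ^ (i + 1) * D z ^ (μ - (i + 1)) := by
        rw [← pow_add]
        congr 1
        omega
      rw [e, mul_pow]
      ring
    rw [Finset.sum_congr rfl key, ← Finset.mul_sum, mul_pow, mul_comm (f z ^ μ), ← mul_add, hv,
      mul_zero]
  -- the conjugate relation
  have hrel' : Nf' ^ μ + ∑ i ∈ Finset.range μ,
      ((-1 : ℍ → ℂ) ^ (i + 1) * C' (i + 1)) * D' ^ (i + 1) * Nf' ^ (μ - (i + 1)) = 0 := by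
    have hterm : ∀ i, IsNice (((-1 : ℍ → ℂ) ^ (i + 1) * esymmFun fM (i + 1)) * D ^ (i + 1) *
        Nf ^ (μ - (i + 1))) := fun i =>
      (((isNice_neg_one_pow _).mul (hC _).isNice).mul (hDnice.pow _)).mul (hNfnice.pow _)
    have hterm' : ∀ i, IsNice (((-1 : ℍ → ℂ) ^ (i + 1) * C' (i + 1)) * D' ^ (i + 1) *
        Nf' ^ (μ - (i + 1))) := fun i =>
      (((isNice_neg_one_pow _).mul (hC' _).isNice).mul (hD'nice.pow _)).mul (hNf'nice.pow _)
    have hcterm : ∀ i, IsConj σ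
        (((-1 : ℍ → ℂ) ^ (i + 1) * esymmFun fM (i + 1)) * D ^ (i + 1) * Nf ^ (μ - (i + 1)))
        (((-1 : ℍ → ℂ) ^ (i + 1) * C' (i + 1)) * D' ^ (i + 1) * Nf' ^ (μ - (i + 1))) := fun i =>
      IsConj.mul (((isNice_neg_one_pow _).mul (hC _).isNice).mul (hDnice.pow _))
        (((isNice_neg_one_pow _).mul (hC' _).isNice).mul (hD'nice.pow _))
        (hNfnice.pow _) (hNf'nice.pow _)
        (IsConj.mul ((isNice_neg_one_pow _).mul (hC _).isNice)
          ((isNice_neg_one_pow _).mul (hC' _).isNice) (hDnice.pow _) (hD'nice.pow _)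
          (IsConj.mul (isNice_neg_one_pow _) (isNice_neg_one_pow _) (hC _).isNice (hC' _).isNice
            (isConj_neg_one_pow σ _) (cC _))
          (cD.pow hDnice hD'nice _))
        (cN.pow hNfnice hNf'nice _)
    have hall : IsConj σ
        (Nf ^ μ + ∑ i ∈ Finset.range μ,
          ((-1 : ℍ → ℂ) ^ (i + 1) * esymmFun fM (i + 1)) * D ^ (i + 1) * Nf ^ (μ - (i + 1)))
        (Nf' ^ μ + ∑ i ∈ Finset.range μ,
          ((-1 : ℍ → ℂ) ^ (i + 1) * C' (i + 1)) * D' ^ (i + 1) * Nf' ^ (μ - (i + 1))) :=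
      IsConj.add (hNfnice.pow _) (hNf'nice.pow _)
        (isNice_sum _ _ fun i _ => hterm i) (isNice_sum _ _ fun i _ => hterm' i)
        (cN.pow hNfnice hNf'nice _)
        (isConj_sum _ _ _ (fun i _ => hterm i) (fun i _ => hterm' i) fun i _ => hcterm i)
    rw [hrel] at hall
    exact IsConj.eq_zero ((hNf'nice.pow _).add (isNice_sum _ _ fun i _ => hterm' i)) hall
  -- division
  obtain ⟨h, hmd, hND, hhrel⟩ := exists_div_of_monic_relation (μ := μ) Nf' D'
    (fun i => (-1 : ℍ → ℂ) ^ i * C' i) hNf'nice.2.1 hD'nice.2.1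
    (fun i => (isNice_neg_one_pow i).2.1.mul (hC' i).mdiff) hD'0
    (fun z => by
      have := congrFun hrel' z
      simpa only [Pi.add_apply, Finset.sum_apply, Pi.mul_apply, Pi.pow_apply, Pi.zero_apply]
        using this)
  have hNDfun : Nf' = h * D' := funext hND
  -- invariance of `h` under `𝒢`
  have hinv : ∀ γ ∈ 𝒢, h ∣[k] γ = h := by
    intro γ hγ
    obtain ⟨γ₀, rfl⟩ := h𝒢 hγ
    have huinv : SlInv γ₀ l u := by
      unfold SlInv
      rw [ModularForm.SL_slash]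
      exact SlashInvariantFormClass.slash_action_eq u _ hγ
    have hNinv : SlInv γ₀ (k + l * ((μ : ℤ) - 1)) Nf' :=
      SlInv.interpFun (fun i => (hA' i).slInv γ₀) (fun j => (hT' j).slInv γ₀) huinv
    have hDinv : SlInv γ₀ (0 + l * ((μ : ℤ) - 1)) D' :=
      SlInv.interpFun (fun i => (hA' i).slInv γ₀)
        (fun j => ((hP' j).slInv γ₀).of_eq (zero_add _).symm) huinv
    have h2 : (h ∣[k] γ₀) * D' = h * D' := by
      have h3 : (h * D') ∣[k + (0 + l * ((μ : ℤ) - 1))] γ₀ = (h ∣[k] γ₀) * D' := by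
        rw [ModularForm.mul_slash_SL2, hDinv]
      rw [← h3, ← hNDfun]
      have := hNinv
      unfold SlInv at this
      rw [zero_add]
      exact this
    have h4 : (h ∣[k] γ₀ - h) * D' = 0 := by rw [sub_mul, h2, sub_self]
    rcases mdiff_mul_eq_zero ((hmd.slash k _).sub hmd) hD'nice.2.1 h4 with h5 | h5
    · exact sub_eq_zero.mp h5
    · exact absurd h5 hD'0
  -- vanishing at the cusps
  have hf0 : ∀ γ : SL(2, ℤ), IsZeroAtImInfty ((fM : ℍ → ℂ) ∣[k] γ) :=
    fun γ => CuspFormClass.zero_at_infty_slash f γ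
  have hczero : ∀ i, IsZeroAtImInfty ((-1 : ℍ → ℂ) ^ (i + 1) * C' (i + 1)) := by
    intro i
    have hz : IsZeroAtImInfty (esymmFun fM (i + 1)) :=
      esymmFun_isZeroAtImInfty fM hf0 (i + 1) (Nat.succ_pos i)
    rw [(hC (i + 1)).isNice.isZeroAtImInfty_iff] at hz
    have hz' : IsZeroAtImInfty (C' (i + 1)) := by
      rw [(hC' (i + 1)).isNice.isZeroAtImInfty_iff, isConj_iff.mp (cC (i + 1)) 0, hz, map_zero]
    exact (isNice_neg_one_pow (i + 1)).2.2.mul_zeroAtFilter hz'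
  have hcusp : ∀ γ : SL(2, ℤ), IsZeroAtImInfty (h ∣[k] γ) := by
    intro γ
    apply isZeroAtImInfty_of_monic_relation hμ (h ∣[k] γ) (fun i => (-1 : ℍ → ℂ) ^ i * C' i) hczero
    have hfun : h ^ μ + ∑ i ∈ Finset.range μ,
        ((-1 : ℍ → ℂ) ^ (i + 1) * C' (i + 1)) * h ^ (μ - (i + 1)) = 0 := by
      funext z
      simpa only [Pi.add_apply, Finset.sum_apply, Pi.mul_apply, Pi.pow_apply, Pi.zero_apply]
        using hhrel z
    have hsl : (h ^ μ + ∑ i ∈ Finset.range μ,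
        ((-1 : ℍ → ℂ) ^ (i + 1) * C' (i + 1)) * h ^ (μ - (i + 1))) ∣[k * μ] γ =
        (h ∣[k] γ) ^ μ + ∑ i ∈ Finset.range μ,
          ((-1 : ℍ → ℂ) ^ (i + 1) * C' (i + 1)) * (h ∣[k] γ) ^ (μ - (i + 1)) := by
      rw [SlashAction.add_slash, SlashAction.sum_slash, pow_slash_SL2]
      congr 1
      refine Finset.sum_congr rfl fun i hi => ?_
      have hi' := Finset.mem_range.mp hi
      have hc1 : SlInv γ (0 + k * ((i + 1 : ℕ) : ℤ)) ((-1 : ℍ → ℂ) ^ (i + 1) * C' (i + 1)) :=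
        (slInv_neg_one_pow γ (i + 1)).mul ((hC' (i + 1)).slInv γ)
      have hw : k * (μ : ℤ) = (0 + k * ((i + 1 : ℕ) : ℤ)) + k * ((μ - (i + 1) : ℕ) : ℤ) := by
        rw [Nat.cast_sub (by omega)]
        push_cast
        ring
      rw [hw, ModularForm.mul_slash_SL2, pow_slash_SL2, hc1]
    rw [hfun, SlashAction.zero_slash] at hsl
    intro z
    have := congrFun hsl.symm z
    simpa only [Pi.add_apply, Finset.sum_apply, Pi.mul_apply, Pi.pow_apply, Pi.zero_apply]
      using this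
  -- the cusp form
  let f' : CuspForm 𝒢 k :=
    { toFun := h
      slash_action_eq' := hinv
      holo' := hmd
      zero_at_cusps' := by
        intro c hc
        rw [Subgroup.IsArithmetic.isCusp_iff_isCusp_SL2Z] at hc
        rw [OnePoint.isZeroAt_iff_forall_SL2Z hc]
        intro γ _
        exact hcusp γ }
  refine ⟨f', ?_⟩
  have hf'h : (f' : ℍ → ℂ) = h := rfl
  have hhnice : IsNice h := hf'h ▸ isNice_of_modularForm h1 f'
  rw [hf'h]
  unfold IsConj at cN cD ⊢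
  have e1 : qExpansion 1 h * qExpansion 1 D' = qExpansion 1 Nf' := by
    rw [← hhnice.qExpansion_mul hD'nice, ← hNDfun]
  have e2 : qExpansion 1 (f : ℍ → ℂ) * qExpansion 1 D = qExpansion 1 Nf := by
    rw [← hfnice.qExpansion_mul hDnice, hfD]
  have hD'q : qExpansion 1 D' ≠ 0 := by
    intro h0
    exact hD'0 ((qExpansion_eq_zero_iff one_pos hD'nice.1 hD'nice.2.1 hD'nice.2.2).mp h0)
  apply mul_right_cancel₀ hD'q
  rw [e1, cN, ← e2, map_mul, cD]

end Main

end Fermat.Agent.S23
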