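import Mathlib

set_option autoImplicit false

/-!
# S23, piece AutC

Every complex number which is not rational is moved by some ring automorphism of `ℂ`.
-/

namespace Fermat.Agent.S23

open MvPolynomial

section Extend

variable {R K : Type*} [CommRing R] [Field K] [IsAlgClosed K] [Algebra R K]
variable {ι : Type*} {v : ι → K}

/-- Given a transcendence basis `v` of an algebraically closed field `K` over `R`, every ring
automorphism of the polynomial ring `R[X_i]` extends to a ring automorphism of `K`. -/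
theorem exists_ringEquiv_of_mvPolynomial_ringEquiv (hv : IsTranscendenceBasis R v)
    (θ : MvPolynomial ι R ≃+* MvPolynomial ι R) :
    ∃ σ : K ≃+* K, ∀ p : MvPolynomial ι R, σ (aeval v p) = aeval v (θ p) := by
  let _ := IsAlgClosed.isAlgClosure_of_transcendence_basis v hv
  let e : Algebra.adjoin R (Set.range v) ≃+* Algebra.adjoin R (Set.range v) :=
    hv.1.aevalEquiv.symm.toRingEquiv.trans (θ.trans hv.1.aevalEquiv.toRingEquiv)
  refine ⟨IsAlgClosure.equivOfEquiv K K e, fun p => ?_⟩
  rw [← hv.1.algebraMap_aevalEquiv, IsAlgClosure.equivOfEquiv_algebraMap,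
    ← hv.1.algebraMap_aevalEquiv]
  congr 1
  simp [e]

end Extend

/-- The automorphism `X_i ↦ X_i + 1` of a polynomial ring. -/
noncomputable def shiftEquiv (R : Type*) [CommRing R] {ι : Type*} [DecidableEq ι] (i₀ : ι) :
    MvPolynomial ι R ≃ₐ[R] MvPolynomial ι R :=
  AlgEquiv.ofAlgHom
    (aeval fun i => if i = i₀ then X i + 1 else X i)
    (aeval fun i => if i = i₀ then X i - 1 else X i)
    (by
      ext i
      by_cases h : i = i₀
      · simp [h]
      · simp [h])
    (by
      ext i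
      by_cases h : i = i₀
      · simp [h]
      · simp [h])

theorem shiftEquiv_X (R : Type*) [CommRing R] {ι : Type*} [DecidableEq ι] (i₀ : ι) :
    shiftEquiv R i₀ (X i₀) = X i₀ + 1 := by
  simp [shiftEquiv]

/-- A transcendental complex number is moved by an automorphism of `ℂ`. -/
theorem exists_ringEquiv_ne_of_transcendental {z : ℂ} (hz : Transcendental ℚ z) :
    ∃ σ : ℂ ≃+* ℂ, σ z ≠ z := by
  classical
  have hs : AlgebraicIndepOn ℚ id ({z} : Set ℂ) := by
    have : AlgebraicIndependent ℚ (fun x : ({z} : Set ℂ) => (x : ℂ)) := by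
      rw [algebraicIndependent_singleton_iff (⟨z, rfl⟩ : ({z} : Set ℂ))]
      exact hz
    exact this
  obtain ⟨t, hzt, ht⟩ := exists_isTranscendenceBasis_superset hs
  let i₀ : t := ⟨z, hzt rfl⟩
  obtain ⟨σ, hσ⟩ := exists_ringEquiv_of_mvPolynomial_ringEquiv ht (shiftEquiv ℚ i₀).toRingEquiv
  refine ⟨σ, ?_⟩
  have h1 := hσ (X i₀)
  rw [aeval_X] at h1
  have h2 : (shiftEquiv ℚ i₀).toRingEquiv (X i₀) = X i₀ + 1 := shiftEquiv_X ℚ i₀
  rw [h2, map_add, aeval_X, map_one] at h1
  have h3 : ((i₀ : t) : ℂ) = z := rfl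
  rw [h3] at h1
  rw [h1]
  intro h
  have : (1 : ℂ) = 0 := by linear_combination h
  exact one_ne_zero this

/-- An algebraic, irrational complex number is moved by an automorphism of `ℂ`. -/
theorem exists_ringEquiv_ne_of_isAlgebraic {z : ℂ} (hz : IsAlgebraic ℚ z)
    (hzQ : z ∉ Set.range ((↑) : ℚ → ℂ)) : ∃ σ : ℂ ≃+* ℂ, σ z ≠ z := by
  classical
  let F : IntermediateField ℚ ℂ := algebraicClosure ℚ ℂ
  have hGal : IsGalois ℚ F := by
    have key : ∀ a : Algebra ℚ F, a = (algebraicClosure ℚ ℂ).algebra' →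
        @IsGalois ℚ _ F _ a := by
      intro a ha
      subst ha
      have : IsAlgClosure ℚ (algebraicClosure ℚ ℂ) := algebraicClosure.isAlgClosure ℚ ℂ
      exact IsAlgClosure.isGalois ℚ (algebraicClosure ℚ ℂ)
    exact key _ (Subsingleton.elim _ _)
  have hzF : z ∈ F := (mem_algebraicClosure_iff).mpr hz
  let z' : F := ⟨z, hzF⟩
  have hz' : z' ∉ (⊥ : IntermediateField ℚ F) := by
    intro h
    obtain ⟨q, hq⟩ := IntermediateField.mem_bot.mp h
    apply hzQ
    refine ⟨q, ?_⟩
    have := congrArg (fun x : F => (x : ℂ)) hq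
    simpa using this
  rw [InfiniteGalois.mem_bot_iff_fixed] at hz'
  push Not at hz'
  obtain ⟨τ, hτ⟩ := hz'
  obtain ⟨ι, v, hv⟩ := exists_isTranscendenceBasis' F ℂ
  obtain ⟨σ, hσ⟩ := exists_ringEquiv_of_mvPolynomial_ringEquiv hv
    (MvPolynomial.mapEquiv ι τ.toRingEquiv)
  refine ⟨σ, ?_⟩
  have h1 := hσ (C z')
  rw [aeval_C] at h1
  have h2 : (MvPolynomial.mapEquiv ι τ.toRingEquiv) (C z') = C (τ z') := by
    simp
  rw [h2, aeval_C] at h1
  have h3 : algebraMap F ℂ z' = z := rfl
  rw [h3] at h1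
  rw [h1]
  intro h
  apply hτ
  apply Subtype.ext
  exact h

/-- **Piece AutC**: every irrational complex number is moved by a ring automorphism of `ℂ`. -/
theorem exists_ringEquiv_ne (z : ℂ) (hz : z ∉ Set.range ((↑) : ℚ → ℂ)) :
    ∃ σ : ℂ ≃+* ℂ, σ z ≠ z := by
  by_cases h : IsAlgebraic ℚ z
  · exact exists_ringEquiv_ne_of_isAlgebraic h hz
  · exact exists_ringEquiv_ne_of_transcendental h

end Fermat.Agent.S23
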