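import Mathlib
import Fermat.Prelude.Def_CuspForm_IntegralStructure
import Fermat.Prelude.Def_CuspForm_HeckeAlgebra
import Fermat.Prelude.Thm_CongruenceSubgroup_one_mem_strictPeriods_Gamma0
import Fermat.Prelude.Thm_ModularFormClass_qCoeff_heckeT
import Fermat.Prelude.Thm_ModularFormClass_qCoeff_heckeU

/-!
# S23, piece Denominators

If the Hecke algebra `𝕋 = heckeAlgebra N 2 ∅` is a finitely generated `ℤ`-module, then every cusp
form of weight `2` and level `Γ₀(N)` with rational `q`-expansion has bounded denominators.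

Proof: for every `n ≥ 1` there is `t_n ∈ 𝕋` with `a_n(g) = a_1(t_n g)` for all `g` (strong
induction on `n` using the prelude formulas for the `q`-coefficients of `T_p g`, `U_p g`).  Hence
all `a_n(f)` lie in the finitely generated `ℤ`-module `{a_1(t f) : t ∈ 𝕋} ⊆ ℂ`, and also in `ℚ`;
the intersection is a finitely generated `ℤ`-submodule of `ℚ`, so has a common denominator.
-/

set_option autoImplicit false

namespace Fermat.Agent.S23

open UpperHalfPlane Function CongruenceSubgroup ModularFormClass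
open scoped MatrixGroups ModularForm Manifold

section Denominators

variable {N : ℕ} {k : ℤ}

theorem den_hΓ (N : ℕ) :
    (1 : ℝ) ∈ (Subgroup.map (Matrix.SpecialLinearGroup.mapGL ℝ) (Gamma0 N)).strictPeriods :=
  CongruenceSubgroup.one_mem_strictPeriods_Gamma0 N

theorem den_qCoeff_add (f g : CuspForm (Gamma0 N) k) (n : ℕ) :
    qCoeff ⇑(f + g) n = qCoeff ⇑f n + qCoeff ⇑g n := by
  simp only [qCoeff, CuspForm.coe_add]
  rw [ModularForm.qExpansion_add one_pos (den_hΓ N) f g, map_add]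

theorem den_qCoeff_zero_fun (n : ℕ) : qCoeff ⇑(0 : CuspForm (Gamma0 N) k) n = 0 := by
  simp only [qCoeff, CuspForm.coe_zero]
  rw [UpperHalfPlane.qExpansion_zero, map_zero]

theorem den_qCoeff_zsmul (c : ℤ) (f : CuspForm (Gamma0 N) k) (n : ℕ) :
    qCoeff ⇑(c • f) n = c * qCoeff ⇑f n := by
  have h1 : ⇑(c • f) = (c : ℂ) • ⇑f := by
    ext z
    simp
  simp only [qCoeff, h1]
  rw [ModularForm.qExpansion_smul one_pos (den_hΓ N) (c : ℂ) f]
  simp

theorem den_qCoeff_sub (f g : CuspForm (Gamma0 N) k) (n : ℕ) :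
    qCoeff ⇑(f - g) n = qCoeff ⇑f n - qCoeff ⇑g n := by
  simp only [qCoeff, CuspForm.coe_sub]
  rw [ModularForm.qExpansion_sub one_pos (den_hΓ N) f g, map_sub]

/-- The constant term of a cusp form vanishes. -/
theorem den_qCoeff_zero (f : CuspForm (Gamma0 N) k) : qCoeff ⇑f 0 = 0 :=
  CuspFormClass.qExpansion_coeff_zero f one_pos (den_hΓ N)

theorem den_qCoeff_heckeTLin {p : ℕ} (hp : p.Prime) (hpN : ¬ p ∣ N)
    (f : CuspForm (Gamma0 N) k) (n : ℕ) :
    qCoeff ⇑(CuspForm.heckeTLin k hp hpN f) n = ModularForm.coeffHeckeT k p (qCoeff ⇑f) n := by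
  rw [CuspForm.coe_heckeTLin_apply]
  exact ModularFormClass.qCoeff_heckeT f (den_hΓ N) hp.ne_zero n

theorem den_qCoeff_heckeULin [NeZero N] {p : ℕ} (hp : p.Prime) (hpN : p ∣ N)
    (f : CuspForm (Gamma0 N) k) (n : ℕ) :
    qCoeff ⇑(CuspForm.heckeULin k hpN f) n = ModularForm.coeffHeckeU p (qCoeff ⇑f) n := by
  rw [CuspForm.coe_heckeULin_apply]
  exact ModularFormClass.qCoeff_heckeU f (den_hΓ N) hp.ne_zero n

/-- Every `q`-coefficient functional `a_n` (`n ≥ 1`) is `a_1 ∘ t` for some Hecke operator `t`. -/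
theorem den_exists_hecke [NeZero N] (n : ℕ) (hn : 0 < n) :
    ∃ t ∈ CuspForm.heckeAlgebra N 2 ∅, ∀ g : CuspForm (Gamma0 N) 2,
      qCoeff ⇑g n = qCoeff ⇑(t g) 1 := by
  induction n using Nat.strong_induction_on with
  | _ n ih =>
    rcases Nat.lt_or_ge 1 n with h1 | h1
    swap
    · obtain rfl : n = 1 := le_antisymm h1 hn
      exact ⟨1, Subalgebra.one_mem _, fun g => rfl⟩
    obtain ⟨p, hp, hpn⟩ := Nat.exists_prime_and_dvd (show n ≠ 1 by omega)
    obtain ⟨m, rfl⟩ := hpn
    have hm : 0 < m := Nat.pos_of_ne_zero (by rintro rfl; simp at hn)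
    have hmlt : m < p * m := by
      have := hp.two_le
      nlinarith
    obtain ⟨tm, htm, htm'⟩ := ih m hmlt hm
    by_cases hpN : p ∣ N
    · -- `U_p`
      refine ⟨tm * CuspForm.heckeULin 2 hpN, Subalgebra.mul_mem _ htm
        (CuspForm.heckeULin_mem_heckeAlgebra hp hpN (Set.notMem_empty p)), fun g => ?_⟩
      rw [Module.End.mul_apply, ← htm', den_qCoeff_heckeULin hp hpN,
        ModularForm.coeffHeckeU_apply, mul_comm]
    · -- `T_p`
      by_cases hpm : p ∣ m
      · obtain ⟨r, rfl⟩ := hpm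
        have hr : 0 < r := Nat.pos_of_ne_zero (by rintro rfl; simp at hm)
        have hrlt : r < p * (p * r) := by
          have := hp.two_le
          nlinarith
        obtain ⟨tr, htr, htr'⟩ := ih r hrlt hr
        refine ⟨tm * CuspForm.heckeTLin 2 hp hpN - (p : ℤ) • tr,
          Subalgebra.sub_mem _ (Subalgebra.mul_mem _ htm
            (CuspForm.heckeTLin_mem_heckeAlgebra hp hpN (Set.notMem_empty p)))
            (Subalgebra.zsmul_mem _ htr _), fun g => ?_⟩
        rw [LinearMap.sub_apply, den_qCoeff_sub, Module.End.mul_apply, ← htm',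
          den_qCoeff_heckeTLin hp hpN,
          ModularForm.coeffHeckeT_of_dvd 2 (Dvd.intro r rfl), LinearMap.smul_apply,
          den_qCoeff_zsmul, ← htr', Nat.mul_div_cancel_left r hp.pos,
          mul_comm (p * r) p]
        norm_num
      · refine ⟨tm * CuspForm.heckeTLin 2 hp hpN, Subalgebra.mul_mem _ htm
          (CuspForm.heckeTLin_mem_heckeAlgebra hp hpN (Set.notMem_empty p)), fun g => ?_⟩
        rw [Module.End.mul_apply, ← htm', den_qCoeff_heckeTLin hp hpN,
          ModularForm.coeffHeckeT_of_not_dvd 2 hpm, mul_comm]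

/-- A finite set of rational numbers (inside `ℂ`) has a common denominator. -/
theorem den_common_denominator (S : Finset ℂ)
    (hS : ∀ s ∈ S, s ∈ Set.range ((↑) : ℚ → ℂ)) :
    ∃ c : ℤ, c ≠ 0 ∧ ∀ s ∈ S, ∃ m : ℤ, (c : ℂ) * s = m := by
  classical
  induction S using Finset.induction_on with
  | empty => exact ⟨1, one_ne_zero, by simp⟩
  | insert a S ha ih =>
    obtain ⟨c, hc0, hc⟩ := ih fun s hs => hS s (Finset.mem_insert_of_mem hs)
    obtain ⟨q, rfl⟩ := hS a (Finset.mem_insert_self a S)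
    refine ⟨c * q.den, mul_ne_zero hc0 (by exact_mod_cast q.den_nz), fun s hs => ?_⟩
    rcases Finset.mem_insert.mp hs with rfl | hs
    · refine ⟨c * q.num, ?_⟩
      have hq : ((q.den : ℂ)) * (q : ℂ) = (q.num : ℂ) := by
        have := Rat.den_mul_eq_num q
        exact_mod_cast congrArg ((↑) : ℚ → ℂ) this
      push_cast
      rw [mul_assoc, hq]
    · obtain ⟨m, hm⟩ := hc s hs
      refine ⟨q.den * m, ?_⟩
      push_cast
      rw [← hm]
      ring

/-- A finitely generated `ℤ`-submodule of `ℂ` consisting of rationals has a common denominator. -/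
theorem den_common_denominator_of_fg (P : Submodule ℤ ℂ) (hP : P.FG)
    (hPQ : ∀ x ∈ P, x ∈ Set.range ((↑) : ℚ → ℂ)) :
    ∃ c : ℤ, c ≠ 0 ∧ ∀ x ∈ P, ∃ m : ℤ, (c : ℂ) * x = m := by
  obtain ⟨S, rfl⟩ := hP
  obtain ⟨c, hc0, hc⟩ := den_common_denominator S fun s hs => hPQ s (Submodule.subset_span hs)
  refine ⟨c, hc0, fun x hx => ?_⟩
  induction hx using Submodule.span_induction with
  | mem x hx => exact hc x hx
  | zero => exact ⟨0, by simp⟩
  | add x y _ _ hx hy =>
    obtain ⟨a, ha⟩ := hx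
    obtain ⟨b, hb⟩ := hy
    exact ⟨a + b, by rw [mul_add, ha, hb]; push_cast; ring⟩
  | smul r x _ hx =>
    obtain ⟨a, ha⟩ := hx
    exact ⟨r * a, by rw [zsmul_eq_mul, mul_left_comm, ha]; push_cast; ring⟩

end Denominators

/-! ## Piece Denominators -/

theorem bounded_denominators (N : ℕ) [NeZero N]
    (hfin : Module.Finite ℤ (CuspForm.heckeAlgebra N 2 ∅))
    (f : CuspForm (Gamma0 N) 2)
    (hf : ∀ n, (qExpansion 1 f).coeff n ∈ Set.range ((↑) : ℚ → ℂ)) :
    ∃ c : ℤ, c ≠ 0 ∧ ∀ n, ∃ m : ℤ, (c : ℂ) * (qExpansion 1 f).coeff n = m := by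
  -- the additive map `t ↦ a_1(t f)`
  let φ : CuspForm.heckeAlgebra N 2 ∅ →+ ℂ :=
    { toFun := fun t => qCoeff ⇑((t : Module.End ℂ (CuspForm (Gamma0 N) 2)) f) 1
      map_zero' := by
        show qCoeff ⇑((0 : Module.End ℂ (CuspForm (Gamma0 N) 2)) f) 1 = 0
        rw [LinearMap.zero_apply, den_qCoeff_zero_fun]
      map_add' := fun s t => by
        show qCoeff ⇑(((s : Module.End ℂ (CuspForm (Gamma0 N) 2)) + t) f) 1 = _
        rw [LinearMap.add_apply, den_qCoeff_add] }
  let M : Submodule ℤ ℂ := LinearMap.range φ.toIntLinearMap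
  have hM : M.FG := by
    have : Module.Finite ℤ M := Module.Finite.range φ.toIntLinearMap
    exact Module.Finite.iff_fg.mp this
  let Q : Submodule ℤ ℂ := LinearMap.range ((algebraMap ℚ ℂ).toAddMonoidHom.toIntLinearMap)
  have hMQ : (M ⊓ Q).FG := by
    have hnoeth : IsNoetherian ℤ M := isNoetherian_of_fg_of_noetherian M hM
    exact isNoetherian_submodule.mp hnoeth (M ⊓ Q) inf_le_left
  obtain ⟨c, hc0, hc⟩ := den_common_denominator_of_fg (M ⊓ Q) hMQ (by
    rintro x ⟨-, q, rfl⟩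
    exact ⟨q, rfl⟩)
  refine ⟨c, hc0, fun n => hc _ ⟨?_, ?_⟩⟩
  · rcases Nat.eq_zero_or_pos n with rfl | hn
    · have : (qExpansion 1 f).coeff 0 = 0 := den_qCoeff_zero f
      rw [this]
      exact M.zero_mem
    · obtain ⟨t, ht, ht'⟩ := den_exists_hecke (N := N) n hn
      exact ⟨⟨t, ht⟩, (ht' f).symm⟩
  · obtain ⟨q, hq⟩ := hf n
    exact ⟨q, hq⟩

end Fermat.Agent.S23
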