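import Mathlib
import Fermat.Agent.S23.Basic
import Fermat.Agent.S23.Esymm
import Fermat.Prelude.Thm_CongruenceSubgroup_one_mem_strictPeriods_Gamma0

set_option autoImplicit false
set_option linter.unusedSectionVars false

/-!
# S23, piece PrimElt: a primitive element for `Γ₀(N)` over `SL₂(ℤ)`

`u := E₄³ ∣[12] diag(N,1)`, i.e. `u(z) = N¹¹ E₄(Nz)³`: a weight-12 modular form on `Γ₀(N)` with
integer q-expansion whose stabiliser in `SL₂(ℤ)` (for the weight-12 slash action) is exactly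
`Γ₀(N)`.
-/

namespace Fermat.Agent.S23

open UpperHalfPlane Function CongruenceSubgroup Filter
open scoped MatrixGroups ModularForm Manifold Topology

/-! ### The level-one form `G = E₄ ^ 3` -/

/-- `E₄ ^ 3` as a level-one form of weight `12`. -/
noncomputable def primG : ModularForm 𝒮ℒ 12 :=
  ModularForm.mcast (by decide) (ModularForm.E₄.pow 3)

theorem primG_qExpansion : qExpansion 1 primG = qExpansion 1 ModularForm.E₄ ^ 3 := by
  simp only [primG, ModularForm.coe_mcast,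
    ModularForm.qExpansion_pow one_pos one_mem_strictPeriods_SL]

theorem primElt_E₄_qExpansion_int :
    ∃ P : PowerSeries ℤ, qExpansion 1 ModularForm.E₄ = P.map (Int.castRingHom ℂ) ∧
      P.coeff 0 = 1 := by
  refine ⟨PowerSeries.mk fun m => if m = 0 then 1 else 240 * (ArithmeticFunction.sigma 3 m : ℤ),
    ?_, by simp⟩
  ext m
  have hb : bernoulli 4 = -1/30 := by norm_num [bernoulli, bernoulli'_four]
  have := EisensteinSeries.E_qExpansion_coeff (k := 4) (by norm_num) ⟨2, rfl⟩ m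
  rw [PowerSeries.coeff_map, PowerSeries.coeff_mk]
  rw [show ModularForm.E₄ = ModularForm.E (k := 4) (by norm_num) from rfl, this]
  split_ifs with h
  · simp
  · rw [hb]; simp only [eq_intCast]; push_cast; ring

theorem primG_qExpansion_int :
    ∃ P : PowerSeries ℤ, qExpansion 1 primG = P.map (Int.castRingHom ℂ) ∧ P.coeff 0 = 1 := by
  obtain ⟨P, hP, hP0⟩ := primElt_E₄_qExpansion_int
  refine ⟨P ^ 3, ?_, ?_⟩
  · rw [primG_qExpansion, hP, map_pow]
  · have : (P ^ 3).coeff 0 = (P.coeff 0) ^ 3 := by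
      simp [PowerSeries.coeff_zero_eq_constantCoeff]
    rw [this, hP0]; norm_num

theorem primG_isNice : IsNice (primG : ℍ → ℂ) :=
  isNice_of_modularForm one_mem_strictPeriods_SL primG

/-- A nice function tends to its constant q-coefficient at `i∞`. -/
theorem primElt_isNice_tendsto {F : ℍ → ℂ} (hF : IsNice F) :
    Tendsto F atImInfty (𝓝 ((qExpansion 1 F).coeff 0)) := by
  have hcoeff : (qExpansion 1 F).coeff 0 = cuspFunction 1 F 0 := by
    simp [qExpansion_coeff]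
  have h1 : (cuspFunction 1 F ∘ fun τ : ℍ ↦ Function.Periodic.qParam 1 τ) = F := by
    funext τ
    simpa using eq_cuspFunction τ one_ne_zero hF.1
  have := hF.analyticAt.continuousAt.tendsto.comp (qParam_tendsto_atImInfty one_pos)
  rwa [h1, ← hcoeff] at this

theorem primG_tendsto : Tendsto (primG : ℍ → ℂ) atImInfty (𝓝 1) := by
  have h := primElt_isNice_tendsto primG_isNice
  obtain ⟨P, hP, hP0⟩ := primG_qExpansion_int
  rw [hP, PowerSeries.coeff_map, hP0] at h
  simpa using h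

/-- Limit at `i∞` of a slash by an upper triangular matrix of positive determinant. -/
theorem primElt_tendsto_slash {F : ℍ → ℂ} {ℓ : ℂ} (hF : Tendsto F atImInfty (𝓝 ℓ)) (k : ℤ)
    {T : GL (Fin 2) ℝ} (hT : T 1 0 = 0) (hdet : 0 < T.det.val) :
    Tendsto (F ∣[k] T) atImInfty
      (𝓝 (ℓ * ((T.det.val : ℝ) : ℂ) ^ (k - 1) * ((T 1 1 : ℝ) : ℂ) ^ (-k))) := by
  have h1 : ∀ τ : ℍ, (F ∣[k] T) τ =
      F (T • τ) * ((T.det.val : ℝ) : ℂ) ^ (k - 1) * ((T 1 1 : ℝ) : ℂ) ^ (-k) := by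
    intro τ
    rw [ModularForm.slash_apply, σ, if_pos hdet, abs_of_pos hdet]
    simp [denom, hT]
  rw [funext h1]
  exact ((hF.comp (tendsto_smul_atImInfty hT)).mul_const _).mul_const _

/-! ### Restriction to a subgroup -/

/-- Restriction of a modular form to a smaller group. -/
noncomputable def primRestrict {Γ Γ' : Subgroup (GL (Fin 2) ℝ)} (h : Γ' ≤ Γ) {k : ℤ}
    (f : ModularForm Γ k) : ModularForm Γ' k where
  toFun := f
  holo' := f.holo'
  bdd_at_cusps' hc := f.bdd_at_cusps' (hc.mono h)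
  slash_action_eq' γ hγ := f.slash_action_eq' γ (h hγ)

@[simp] theorem coe_primRestrict {Γ Γ' : Subgroup (GL (Fin 2) ℝ)} (h : Γ' ≤ Γ) {k : ℤ}
    (f : ModularForm Γ k) : ⇑(primRestrict h f) = ⇑f := rfl

/-! ### Hermite normal form -/

/-- Hermite normal form of `diag(N,1) * γ`. -/
theorem primElt_hermite (N : ℕ) [NeZero N] (γ : SL(2, ℤ)) :
    ∃ (γ' : SL(2, ℤ)) (t b d : ℤ), t * d = N ∧
      (!![(N : ℤ), 0; 0, 1] * (γ : Matrix (Fin 2) (Fin 2) ℤ)) =
        (γ' : Matrix (Fin 2) (Fin 2) ℤ) * !![t, b; 0, d] := by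
  have hN : (N : ℤ) ≠ 0 := by exact_mod_cast NeZero.ne N
  have hdet : γ 0 0 * γ 1 1 - γ 0 1 * γ 1 0 = 1 := by
    have := γ.det_coe
    rwa [Matrix.det_fin_two] at this
  set x : ℤ := N * γ 0 0 with hx
  set y : ℤ := γ 1 0 with hy
  set g : ℤ := (Int.gcd x y : ℤ) with hg
  have hg0 : g ≠ 0 := by
    intro h0
    have h0' : Int.gcd x y = 0 := by
      rw [hg] at h0
      exact_mod_cast h0
    rw [Int.gcd_eq_zero_iff] at h0'
    obtain ⟨h1, h2⟩ := h0'
    have h3 : γ 0 0 = 0 := by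
      rcases mul_eq_zero.mp h1 with h | h
      · exact absurd h hN
      · exact h
    rw [h3, h2] at hdet
    simp at hdet
  obtain ⟨p, hp⟩ : g ∣ x := Int.gcd_dvd_left x y
  obtain ⟨r, hr⟩ : g ∣ y := Int.gcd_dvd_right x y
  have hbez : g = x * Int.gcdA x y + y * Int.gcdB x y := Int.gcd_eq_gcd_ab x y
  set X := Int.gcdA x y
  set Y := Int.gcdB x y
  have h1 : p * X + r * Y = 1 := by
    apply mul_left_cancel₀ hg0
    rw [mul_one]
    conv_rhs => rw [hbez]
    rw [hp, hr]; ring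
  have hdet' : (!![p, -Y; r, X] : Matrix (Fin 2) (Fin 2) ℤ).det = 1 := by
    rw [Matrix.det_fin_two_of]
    linear_combination h1
  let γ' : SL(2, ℤ) := ⟨!![p, -Y; r, X], hdet'⟩
  have hγ' : (γ' : Matrix (Fin 2) (Fin 2) ℤ) = !![p, -Y; r, X] := rfl
  refine ⟨γ', g, X * (N * γ 0 1) + Y * γ 1 1, p * γ 1 1 - r * (N * γ 0 1), ?_, ?_⟩
  · have e1 : g * p = N * γ 0 0 := hp.symm
    have e2 : g * r = γ 1 0 := hr.symm
    linear_combination (γ 1 1) * e1 - (N * γ 0 1) * e2 + (N : ℤ) * hdet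
  · rw [hγ']
    have e1 : g * p = N * γ 0 0 := hp.symm
    have e2 : g * r = γ 1 0 := hr.symm
    ext i j
    fin_cases i <;> fin_cases j
    · simp [Matrix.mul_apply, Fin.sum_univ_two]; linear_combination -e1
    · simp [Matrix.mul_apply, Fin.sum_univ_two]
      linear_combination (-(N : ℤ) * γ 0 1) * h1
    · simp [Matrix.mul_apply, Fin.sum_univ_two]; linear_combination -e2
    · simp [Matrix.mul_apply, Fin.sum_univ_two]
      linear_combination (-γ 1 1) * h1

section PrimElt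

variable (N : ℕ) [NeZero N]

/-- `1` is a strict period of `Γ₀(N)`. -/
theorem one_mem_strictPeriods_Gamma0 :
    (1 : ℝ) ∈ ((Gamma0 N : Subgroup SL(2, ℤ)) : Subgroup (GL (Fin 2) ℝ)).strictPeriods :=
  CongruenceSubgroup.one_mem_strictPeriods_Gamma0 N

/-- `diag(N, 1)` in `GL₂(ℝ)`. -/
noncomputable def primDiag : GL (Fin 2) ℝ :=
  Matrix.GeneralLinearGroup.mkOfDetNeZero !![(N : ℝ), 0; 0, 1] (by
    simp [Matrix.det_fin_two, NeZero.ne N])

theorem primDiag_val : (primDiag N : Matrix (Fin 2) (Fin 2) ℝ) = !![(N : ℝ), 0; 0, 1] := rfl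

theorem primDiag_det : (primDiag N).det.val = N := by
  simp [primDiag, Matrix.det_fin_two]

theorem primDiag_det_pos : 0 < (primDiag N).det.val := by
  rw [primDiag_det]; exact_mod_cast Nat.pos_of_ne_zero (NeZero.ne N)

theorem primDiag_coe_smul (τ : ℍ) : ((primDiag N • τ : ℍ) : ℂ) = N * τ := by
  rw [coe_smul_of_det_pos (primDiag_det_pos N)]
  simp [num, denom, primDiag_val]

theorem primDiag_denom (τ : ℍ) : denom (primDiag N) τ = 1 := by
  simp [denom, primDiag_val]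

theorem primDiag_slash_apply (f : ℍ → ℂ) (k : ℤ) (τ : ℍ) :
    (f ∣[k] primDiag N) τ = f (primDiag N • τ) * (N : ℂ) ^ (k - 1) := by
  rw [ModularForm.slash_apply, primDiag_denom, primDiag_det, σ, if_pos (primDiag_det_pos N)]
  simp

theorem primDiag_qParam (τ : ℍ) :
    Periodic.qParam 1 (primDiag N • τ : ℍ) = Periodic.qParam 1 τ ^ N := by
  rw [primDiag_coe_smul, Periodic.qParam, Periodic.qParam, ← Complex.exp_nat_mul]
  congr 1
  simp only [Complex.ofReal_one, div_one]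
  ring

/-- q-expansion of `F ∣[k] diag(N,1)`, i.e. of `N^(k-1) F(Nτ)`: the series converges to it. -/
theorem primDiag_hasSum {F : ℍ → ℂ} (hF : IsNice F) (k : ℤ) (τ : ℍ) :
    HasSum (fun m ↦ (if N ∣ m then (N : ℂ) ^ (k - 1) * (qExpansion 1 F).coeff (m / N) else 0) •
      Periodic.qParam 1 τ ^ m) ((F ∣[k] primDiag N) τ) := by
  have hN : 0 < N := Nat.pos_of_ne_zero (NeZero.ne N)
  set c : ℕ → ℂ := fun n =>
    if N ∣ n then (N : ℂ) ^ (k - 1) * (qExpansion 1 F).coeff (n / N) else 0 with hc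
  have h1 := hasSum_qExpansion one_pos hF.1 hF.2.1 hF.2.2 (primDiag N • τ)
  rw [primDiag_qParam] at h1
  have h2 := h1.mul_right ((N : ℂ) ^ (k - 1))
  rw [primDiag_slash_apply N F k τ]
  have hinj : Function.Injective (fun m : ℕ => N * m) := fun a b hab =>
    Nat.eq_of_mul_eq_mul_left hN hab
  have h3 : ∀ x ∉ Set.range (fun m : ℕ => N * m), c x • Periodic.qParam 1 τ ^ x = 0 := by
    intro x hx
    have : ¬ N ∣ x := fun ⟨m, hm⟩ => hx ⟨m, hm.symm⟩
    simp [hc, this]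
  refine (hinj.hasSum_iff h3).mp ?_
  refine h2.congr_fun ?_
  intro m
  simp only [comp_apply, hc, dvd_mul_right, if_true, Nat.mul_div_cancel_left _ hN, smul_eq_mul,
    pow_mul]
  ring

open ConjAct Pointwise in
theorem primElt_Gamma0_le :
    ((Gamma0 N : Subgroup SL(2, ℤ)) : Subgroup (GL (Fin 2) ℝ)) ≤
      toConjAct (primDiag N)⁻¹ • 𝒮ℒ := by
  rintro _ ⟨γ, hγ, rfl⟩
  rw [Subgroup.mem_pointwise_smul_iff_inv_smul_mem, map_inv, inv_inv, toConjAct_smul]
  rw [SetLike.mem_coe, Gamma0_mem] at hγ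
  obtain ⟨c', hc'⟩ : (N : ℤ) ∣ γ 1 0 := (ZMod.intCast_zmod_eq_zero_iff_dvd _ _).mp hγ
  have hdet : γ 0 0 * γ 1 1 - γ 0 1 * γ 1 0 = 1 := by
    have := γ.det_coe
    rwa [Matrix.det_fin_two] at this
  have hdet' : (!![γ 0 0, N * γ 0 1; c', γ 1 1] : Matrix (Fin 2) (Fin 2) ℤ).det = 1 := by
    rw [Matrix.det_fin_two_of]
    rw [hc'] at hdet
    linear_combination hdet
  let γ' : SL(2, ℤ) := ⟨!![γ 0 0, N * γ 0 1; c', γ 1 1], hdet'⟩
  have hγ' : (γ' : Matrix (Fin 2) (Fin 2) ℤ) = !![γ 0 0, N * γ 0 1; c', γ 1 1] := rfl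
  refine ⟨γ', ?_⟩
  rw [eq_mul_inv_iff_mul_eq]
  apply Units.ext
  ext i j
  rw [Units.val_mul, Units.val_mul, Matrix.SpecialLinearGroup.mapGL_coe_matrix,
    Matrix.SpecialLinearGroup.mapGL_coe_matrix, primDiag_val,
    Matrix.SpecialLinearGroup.map_apply_coe, Matrix.SpecialLinearGroup.map_apply_coe, hγ']
  fin_cases i <;> fin_cases j <;>
    simp [Matrix.mul_apply, Fin.sum_univ_two, hc', mul_comm]

/-- The primitive element `u(z) = N¹¹ E₄(Nz)³`. -/
noncomputable def primU : ModularForm (Gamma0 N) 12 :=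
  primRestrict (primElt_Gamma0_le N) (ModularForm.translate primG (primDiag N))

theorem coe_primU : ⇑(primU N) = (primG : ℍ → ℂ) ∣[(12 : ℤ)] primDiag N := rfl

theorem primU_qExpansion_coeff (n : ℕ) :
    (qExpansion 1 (primU N)).coeff n =
      if N ∣ n then (N : ℂ) ^ (11 : ℕ) * (qExpansion 1 primG).coeff (n / N) else 0 := by
  have h : ∀ τ : ℍ, HasSum (fun m ↦
      (if N ∣ m then (N : ℂ) ^ (11 : ℕ) * (qExpansion 1 primG).coeff (m / N) else 0) •
        Periodic.qParam 1 τ ^ m) (primU N τ) := by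
    intro τ
    have := primDiag_hasSum N primG_isNice 12 τ
    rw [coe_primU]
    have e : ((12 : ℤ) - 1) = ((11 : ℕ) : ℤ) := by norm_num
    simp only [e, zpow_natCast] at this
    exact this
  exact (ModularFormClass.qExpansion_coeff_unique one_pos (one_mem_strictPeriods_Gamma0 N)
    (f := primU N) h n).symm

theorem primU_qExpansion_int (n : ℕ) : ∃ m : ℤ, (qExpansion 1 (primU N)).coeff n = m := by
  obtain ⟨P, hP, -⟩ := primG_qExpansion_int
  rw [primU_qExpansion_coeff, hP]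
  split_ifs with h
  · refine ⟨(N : ℤ) ^ 11 * P.coeff (n / N), ?_⟩
    simp
  · exact ⟨0, by simp⟩

/-- The stabiliser of `u` in `SL₂(ℤ)` is contained in `Γ₀(N)`. -/
theorem primU_stabiliser (γ : SL(2, ℤ))
    (h : (primU N : ℍ → ℂ) ∣[(12 : ℤ)] γ = primU N) : γ ∈ Gamma0 N := by
  have hNpos : (0 : ℝ) < N := by exact_mod_cast Nat.pos_of_ne_zero (NeZero.ne N)
  obtain ⟨γ', t, b, d, htd, hmat⟩ := primElt_hermite N γ
  have htdR : (t : ℝ) * d = N := by exact_mod_cast htd
  have hdetT : (!![(t : ℝ), b; 0, d] : Matrix (Fin 2) (Fin 2) ℝ).det ≠ 0 := by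
    rw [Matrix.det_fin_two_of]
    simp [htdR, hNpos.ne']
  set T : GL (Fin 2) ℝ := Matrix.GeneralLinearGroup.mkOfDetNeZero _ hdetT with hT
  have hTval : (T : Matrix (Fin 2) (Fin 2) ℝ) = !![(t : ℝ), b; 0, d] := rfl
  have hTdet : T.det.val = N := by
    rw [Matrix.GeneralLinearGroup.val_det_apply, hTval, Matrix.det_fin_two_of]
    simp [htdR]
  have hT10 : T 1 0 = 0 := by simp [hTval]
  have hT11 : T 1 1 = d := by simp [hTval]
  -- the matrix identity in `GL₂(ℝ)`
  have hGL : primDiag N * Matrix.SpecialLinearGroup.mapGL ℝ γ =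
      Matrix.SpecialLinearGroup.mapGL ℝ γ' * T := by
    apply Units.ext
    rw [Units.val_mul, Units.val_mul, Matrix.SpecialLinearGroup.mapGL_coe_matrix,
      Matrix.SpecialLinearGroup.mapGL_coe_matrix, primDiag_val,
      Matrix.SpecialLinearGroup.map_apply_coe, Matrix.SpecialLinearGroup.map_apply_coe, hTval]
    have := congrArg (fun M : Matrix (Fin 2) (Fin 2) ℤ => M.map (Int.cast : ℤ → ℝ)) hmat
    simp only [Matrix.map_mul_intCast] at this
    convert this using 2 <;> ext i j <;> fin_cases i <;> fin_cases j <;> simp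
  -- `G ∣ T = G ∣ diag(N,1)`
  have hG : (primG : ℍ → ℂ) ∣[(12 : ℤ)] T = (primG : ℍ → ℂ) ∣[(12 : ℤ)] primDiag N := by
    have h1 : (primG : ℍ → ℂ) ∣[(12 : ℤ)] (Matrix.SpecialLinearGroup.mapGL ℝ γ') = primG :=
      SlashInvariantFormClass.slash_action_eq primG _ ⟨γ', rfl⟩
    rw [coe_primU, ModularForm.SL_slash, ← SlashAction.slash_mul] at h
    rw [← h]
    rw [show ((γ : GL (Fin 2) ℝ)) = Matrix.SpecialLinearGroup.mapGL ℝ γ from rfl, hGL,
      SlashAction.slash_mul, h1]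
  have hTpos : 0 < T.det.val := by rw [hTdet]; exact hNpos
  have l1 := primElt_tendsto_slash primG_tendsto 12 hT10 hTpos
  have l2 := primElt_tendsto_slash primG_tendsto 12 (T := primDiag N) (by simp [primDiag_val])
    (primDiag_det_pos N)
  rw [hG] at l1
  have huniq := tendsto_nhds_unique l1 l2
  rw [hTdet, hT11, primDiag_det] at huniq
  have h11 : (primDiag N) 1 1 = 1 := by simp [primDiag_val]
  rw [h11] at huniq
  have hNC : ((N : ℝ) : ℂ) ^ ((12 : ℤ) - 1) ≠ 0 :=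
    zpow_ne_zero _ (by exact_mod_cast hNpos.ne')
  have hd12 : (((d : ℝ) : ℂ)) ^ (-(12 : ℤ)) = 1 := by
    have : ((N : ℝ) : ℂ) ^ ((12 : ℤ) - 1) * (((d : ℝ) : ℂ)) ^ (-(12 : ℤ)) =
        ((N : ℝ) : ℂ) ^ ((12 : ℤ) - 1) * 1 := by
      simpa using huniq
    exact mul_left_cancel₀ hNC this
  have hdZ : d ^ 12 = 1 := by
    have h1 : (((d : ℝ) : ℂ)) ^ (12 : ℕ) = 1 := by
      rw [zpow_neg, inv_eq_one] at hd12
      exact_mod_cast hd12
    exact_mod_cast h1
  have hdu : IsUnit d := IsUnit.of_pow_eq_one hdZ (by norm_num)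
  have hdvd : (N : ℤ) ∣ γ 1 0 := by
    have e10 := congrFun (congrFun hmat 1) 0
    simp [Matrix.mul_apply, Fin.sum_univ_two] at e10
    rcases Int.isUnit_iff.mp hdu with hd | hd
    · rw [hd, mul_one] at htd
      rw [e10, htd]
      exact Dvd.intro_left _ rfl
    · rw [hd] at htd
      have : t = -N := by linarith
      rw [e10, this]
      exact ⟨-(γ' 1 0), by ring⟩
  exact Gamma0_mem.mpr ((ZMod.intCast_zmod_eq_zero_iff_dvd _ _).mpr hdvd)

/-- A weight-12 form on `Γ₀(N)` with integer q-expansion, all of whose nontrivial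
`SL₂(ℤ)`-conjugates are different from it. -/
theorem exists_primitive :
    ∃ u : ModularForm (Gamma0 N) 12,
      (∀ n, ∃ m : ℤ, (qExpansion 1 u).coeff n = m) ∧
      ∀ q : 𝒮ℒ ⧸ ((Gamma0 N : Subgroup SL(2, ℤ)) : Subgroup (GL (Fin 2) ℝ)).subgroupOf 𝒮ℒ,
        q ≠ QuotientGroup.mk 1 → conjFam u q ≠ ⇑u := by
  refine ⟨primU N, primU_qExpansion_int N, ?_⟩
  intro q hq hconj
  apply hq
  induction q using Quotient.inductionOn with
  | h r =>
    obtain ⟨r, γ, rfl⟩ := r
    have hslash : (primU N : ℍ → ℂ) ∣[(12 : ℤ)] (γ⁻¹ : SL(2, ℤ)) = primU N := by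
      rw [ModularForm.SL_slash]
      have := hconj
      change (primU N : ℍ → ℂ) ∣[(12 : ℤ)] (Matrix.SpecialLinearGroup.mapGL ℝ γ)⁻¹ = _ at this
      rw [← map_inv] at this
      exact this
    have hmem := primU_stabiliser N γ⁻¹ hslash
    change (QuotientGroup.mk _ : 𝒮ℒ ⧸ _) = QuotientGroup.mk 1
    rw [QuotientGroup.eq, Subgroup.mem_subgroupOf]
    refine ⟨γ⁻¹, hmem, ?_⟩
    simp

end PrimElt

end Fermat.Agent.S23
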