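import Mathlib

set_option autoImplicit false

/-!
# S23, piece Descent: Galois descent for finite-dimensional spaces of "q-expansions"

Let `V` be a finite-dimensional complex vector space together with a separating family of
coefficient functionals `c n : V →ₗ[ℂ] ℂ`.  If `V` is stable under coefficientwise application
of all ring automorphisms of `ℂ`, then `V` is spanned by the vectors all of whose coefficients
are rational.

The only field-theoretic input is the statement (piece AutC) that every complex number fixed by
all ring automorphisms of `ℂ` is rational; here it is taken as a hypothesis `hAut`.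
-/

namespace Fermat.Agent.S23

open Module

/-- Descent, with the `AutC` statement as a hypothesis. -/
theorem span_rational_of_stable_of_autC
    (hAut : ∀ z : ℂ, z ∉ Set.range ((↑) : ℚ → ℂ) → ∃ σ : ℂ ≃+* ℂ, σ z ≠ z)
    {V : Type*} [AddCommGroup V] [Module ℂ V] [FiniteDimensional ℂ V]
    (c : ℕ → V →ₗ[ℂ] ℂ) (hc : ∀ v, (∀ n, c n v = 0) → v = 0)
    (hσ : ∀ (σ : ℂ ≃+* ℂ) (v : V), ∃ v' : V, ∀ n, c n v' = σ (c n v)) :
    Submodule.span ℂ {v : V | ∀ n, c n v ∈ Set.range ((↑) : ℚ → ℂ)} = ⊤ := by
  classical
  -- Step 1: the coefficient functionals span the dual space.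
  have hspan : Submodule.span ℂ (Set.range c) = ⊤ := by
    have h1 : (Submodule.span ℂ (Set.range c)).dualCoannihilator = ⊥ := by
      rw [eq_bot_iff]
      intro v hv
      rw [Submodule.mem_dualCoannihilator] at hv
      exact hc v fun n => hv (c n) (Submodule.subset_span ⟨n, rfl⟩)
    have h2 := Subspace.dualCoannihilator_dualAnnihilator_eq
      (W := Submodule.span ℂ (Set.range c))
    rw [h1, Submodule.dualAnnihilator_bot] at h2
    exact h2.symm
  -- Step 2: a basis of the dual space consisting of coefficient functionals.
  let b := Basis.ofSpan hspan.ge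
  have : Finite ((linearIndepOn_empty ℂ (id : Dual ℂ V → Dual ℂ V)).extend
      (Set.empty_subset (Set.range c))) := Module.Finite.finite_basis b
  have : Fintype ((linearIndepOn_empty ℂ (id : Dual ℂ V → Dual ℂ V)).extend
      (Set.empty_subset (Set.range c))) := Fintype.ofFinite _
  have hbc : ∀ i, ∃ n, c n = b i := fun i => Basis.ofSpan_subset hspan.ge ⟨i, rfl⟩
  choose nn hnn using hbc
  -- Step 3: the dual basis of `V`.
  have he : ∀ i j, b i ((Module.evalEquiv ℂ V).symm (b.dualBasis j)) = if i = j then 1 else 0 := by
    intro i j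
    rw [Module.apply_evalEquiv_symm_apply, Basis.dualBasis_apply_self]
  -- the basis functionals separate points
  have hsep : ∀ v : V, (∀ i, b i v = 0) → v = 0 := by
    intro v hv
    have h0 : Module.evalEquiv ℂ V v = 0 := by
      apply b.ext
      intro i
      simpa using hv i
    exact (Module.evalEquiv ℂ V).map_eq_zero_iff.mp h0
  -- Step 4: the dual basis vectors are fixed by conjugation, hence rational.
  have hfix : ∀ (σ : ℂ ≃+* ℂ) j (n : ℕ),
      σ (c n ((Module.evalEquiv ℂ V).symm (b.dualBasis j))) =
        c n ((Module.evalEquiv ℂ V).symm (b.dualBasis j)) := by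
    intro σ j n
    obtain ⟨v', hv'⟩ := hσ σ ((Module.evalEquiv ℂ V).symm (b.dualBasis j))
    have hv'e : v' = (Module.evalEquiv ℂ V).symm (b.dualBasis j) := by
      rw [← sub_eq_zero]
      apply hsep
      intro i
      rw [map_sub, ← hnn i, hv' (nn i), hnn i, he]
      split_ifs <;> simp
    rw [← hv' n, hv'e]
  have hrat : ∀ j, (Module.evalEquiv ℂ V).symm (b.dualBasis j) ∈
      {v : V | ∀ n, c n v ∈ Set.range ((↑) : ℚ → ℂ)} := by
    intro j n
    by_contra h
    obtain ⟨σ, hσ'⟩ := hAut _ h
    exact hσ' (hfix σ j n)
  -- Step 5: the dual basis vectors span `V`.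
  rw [eq_top_iff]
  intro v _
  have hv : v = ∑ j, b j v • (Module.evalEquiv ℂ V).symm (b.dualBasis j) := by
    rw [← sub_eq_zero]
    apply hsep
    intro i
    rw [map_sub, map_sum]
    simp only [map_smul, he, smul_eq_mul, mul_ite, mul_one, mul_zero, Finset.sum_ite_eq,
      Finset.mem_univ, if_true, sub_self]
  rw [hv]
  exact Submodule.sum_mem _ fun j _ =>
    Submodule.smul_mem _ _ (Submodule.subset_span (hrat j))

end Fermat.Agent.S23
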