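import Mathlib
import Fermat.Agent.S23.Basic
import Fermat.Agent.S23.Descent
import Fermat.Prelude.Thm_ModularForm_sturm_bound_Gamma0
import Fermat.Prelude.Thm_CongruenceSubgroup_one_mem_strictPeriods_Gamma0

set_option autoImplicit false

/-!
# S23, piece Rational: finite dimensionality and the rational structure of `S_k(Γ₀(N))`

* `finiteDimensional_cuspForm`: `S_k(Γ₀(N))` is finite dimensional (Sturm bound from the prelude).
* `span_rational_of`: if `S_k(Γ₀(N))` is stable under `Aut(ℂ)`-conjugation of q-expansions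
  (piece Conj) and every non-rational complex number is moved by an automorphism (piece AutC),
  then `S_k(Γ₀(N))` is spanned by forms with rational q-expansion.
-/

namespace Fermat.Agent.S23

open UpperHalfPlane Function CongruenceSubgroup
open scoped MatrixGroups ModularForm Manifold

/-- Cusp forms on `Γ₀(N)` are nice. -/
theorem isNice_cuspForm_Gamma0 {N : ℕ} [NeZero N] {k : ℤ} (f : CuspForm (Gamma0 N) k) :
    IsNice (f : ℍ → ℂ) :=
  isNice_of_modularForm (CongruenceSubgroup.one_mem_strictPeriods_Gamma0 N) f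

/-- The `n`-th q-expansion coefficient as a linear functional on `S_k(Γ₀(N))`. -/
noncomputable def coeffLin (N : ℕ) [NeZero N] (k : ℤ) (n : ℕ) : CuspForm (Gamma0 N) k →ₗ[ℂ] ℂ where
  toFun f := (qExpansion 1 f).coeff n
  map_add' f g := by
    have h := (isNice_cuspForm_Gamma0 f).qExpansion_add (isNice_cuspForm_Gamma0 g)
    have hc : (⇑(f + g) : ℍ → ℂ) = ⇑f + ⇑g := rfl
    rw [hc, h, map_add]
  map_smul' a f := by
    have h := (isNice_cuspForm_Gamma0 f).qExpansion_smul a
    have hc : (⇑(a • f) : ℍ → ℂ) = a • ⇑f := rfl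
    rw [hc, h]
    simp

@[simp] theorem coeffLin_apply (N : ℕ) [NeZero N] (k : ℤ) (n : ℕ) (f : CuspForm (Gamma0 N) k) :
    coeffLin N k n f = (qExpansion 1 f).coeff n := rfl

/-- A cusp form on `Γ₀(N)` with vanishing q-expansion coefficients is zero. -/
theorem cuspForm_eq_zero_of_coeff {N : ℕ} [NeZero N] {k : ℤ} (f : CuspForm (Gamma0 N) k)
    (h : ∀ n, (qExpansion 1 f).coeff n = 0) : f = 0 := by
  have hq : qExpansion 1 (f : ℍ → ℂ) = 0 := by
    ext n
    simpa using h n
  have hn := isNice_cuspForm_Gamma0 f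
  have h0 := (qExpansion_eq_zero_iff one_pos hn.1 hn.2.1 hn.2.2).mp hq
  exact DFunLike.coe_injective h0

theorem finiteDimensional_cuspForm (N : ℕ) [NeZero N] (k : ℤ) :
    FiniteDimensional ℂ (CuspForm (Gamma0 N) k) := by
  have hL : Function.Injective
      (LinearMap.pi fun i : Fin ((k * (Gamma0 N).index).toNat / 12 + 1) =>
        coeffLin N k (i : ℕ)) := by
    rw [injective_iff_map_eq_zero]
    intro f hf
    have h0 : (ModularFormClass.modularForm f : ModularForm (Gamma0 N) k) = 0 := by
      apply ModularForm.sturm_bound_Gamma0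
      intro n hn
      have := congrFun hf ⟨n, Nat.lt_succ_of_le hn⟩
      simpa using this
    apply DFunLike.coe_injective
    have := congrArg (fun g : ModularForm (Gamma0 N) k => (g : ℍ → ℂ)) h0
    simpa using this
  exact FiniteDimensional.of_injective _ hL

/-- Rational structure, with the pieces AutC and Conj as hypotheses. -/
theorem span_rational_of
    (hAut : ∀ z : ℂ, z ∉ Set.range ((↑) : ℚ → ℂ) → ∃ σ : ℂ ≃+* ℂ, σ z ≠ z)
    (N : ℕ) [NeZero N] (k : ℤ)
    (hconj : ∀ (σ : ℂ ≃+* ℂ) (f : CuspForm (Gamma0 N) k),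
      ∃ f' : CuspForm (Gamma0 N) k, IsConj σ f f') :
    Submodule.span ℂ {f : CuspForm (Gamma0 N) k |
      ∀ n, (qExpansion 1 f).coeff n ∈ Set.range ((↑) : ℚ → ℂ)} = ⊤ := by
  have := finiteDimensional_cuspForm N k
  have h := span_rational_of_stable_of_autC hAut (V := CuspForm (Gamma0 N) k)
    (coeffLin N k) (fun f hf => cuspForm_eq_zero_of_coeff f hf)
    (fun σ f => by
      obtain ⟨f', hf'⟩ := hconj σ f
      exact ⟨f', fun n => isConj_iff.mp hf' n⟩)
  exact h

end Fermat.Agent.S23
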