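import Mathlib
import Fermat.Agent.S23.Basic
import Fermat.Agent.S23.Esymm

set_option autoImplicit false
set_option linter.unusedSectionVars false

/-!
# S23, sub-piece of Conj: uniqueness of the monic relation satisfied by a primitive element

If `u` is a modular form all of whose nontrivial `SL₂(ℤ)`-conjugates differ from `u`, then a
polynomial relation of degree `< μ` (`μ` = number of cosets) with level-one coefficients
satisfied by `u` is trivial.
-/

namespace Fermat.Agent.S23

open UpperHalfPlane Function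
open scoped MatrixGroups ModularForm Manifold

namespace ConjUnique

/-- Pure complex analysis: a polynomial relation of degree `< card ι` with holomorphic
coefficients that is satisfied by `card ι` pairwise different holomorphic functions is trivial. -/
theorem coeff_eq_zero_of_distinct_roots {ι : Type} [Fintype ι] (v : ι → ℍ → ℂ)
    (hv : ∀ a, MDiff (v a)) (hne : ∀ a b, a ≠ b → v a ≠ v b)
    (d : ℕ → ℍ → ℂ) (hd : ∀ i, MDiff (d i))
    (hrel : ∀ z a, ∑ i ∈ Finset.range (Fintype.card ι),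
      d (i + 1) z * v a z ^ (Fintype.card ι - (i + 1)) = 0) :
    ∀ i ∈ Finset.range (Fintype.card ι), d (i + 1) = 0 := by
  classical
  set μ := Fintype.card ι with hμ
  -- the discriminant
  set Disc : ℍ → ℂ := ∏ p ∈ (Finset.univ : Finset (ι × ι)).filter (fun p => p.1 ≠ p.2),
    (v p.1 - v p.2) with hDisc
  have hDisc_mdiff : MDiff Disc := by
    rw [hDisc]
    refine MDifferentiable.prod ?_
    intro p _
    exact (hv p.1).sub (hv p.2)
  have hDisc_ne : Disc ≠ 0 := by
    intro h0
    rw [hDisc, UpperHalfPlane.prod_eq_zero_iff (f := fun (p : ι × ι) => v p.1 - v p.2)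
      (fun (p : ι × ι) _ => (hv p.1).sub (hv p.2))] at h0
    obtain ⟨p, hp, hp0⟩ := h0
    exact hne p.1 p.2 (Finset.mem_filter.mp hp).2 (sub_eq_zero.mp hp0)
  intro i hi
  have hmul : d (i + 1) * Disc = 0 := by
    funext z
    simp only [Pi.mul_apply, Pi.zero_apply]
    by_cases hz : Disc z = 0
    · rw [hz, mul_zero]
    · -- the values `v a z` are pairwise distinct
      have hinj : Function.Injective fun a => v a z := by
        intro a b hab
        by_contra hne'
        apply hz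
        simp only [hDisc, Finset.prod_apply]
        apply Finset.prod_eq_zero (i := (a, b))
        · exact Finset.mem_filter.mpr ⟨Finset.mem_univ _, hne'⟩
        · simpa [sub_eq_zero] using hab
      -- the polynomial
      set R : Polynomial ℂ := ∑ j ∈ Finset.range μ,
        Polynomial.C (d (j + 1) z) * Polynomial.X ^ (μ - (j + 1)) with hR
      have hdeg : R.natDegree < Fintype.card ι := by
        rcases Nat.eq_zero_or_pos μ with h0 | hpos
        · -- no indices: impossible to have `i ∈ range 0`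
          rw [h0] at hi; simp at hi
        · have : R.natDegree ≤ μ - 1 := by
            apply Polynomial.natDegree_sum_le_of_forall_le
            intro j _
            refine (Polynomial.natDegree_C_mul_X_pow_le _ _).trans ?_
            omega
          omega
      have heval : ∀ a, R.eval (v a z) = 0 := by
        intro a
        have := hrel z a
        simpa [hR, Polynomial.eval_finsetSum] using this
      have hR0 : R = 0 :=
        Polynomial.eq_zero_of_natDegree_lt_card_of_eval_eq_zero R hinj heval hdeg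
      -- read off the coefficient
      have hcoeff : R.coeff (μ - (i + 1)) = d (i + 1) z := by
        rw [hR, Polynomial.finsetSum_coeff]
        rw [Finset.sum_eq_single i]
        · simp
        · intro j hj hji
          rw [Polynomial.coeff_C_mul, Polynomial.coeff_X_pow, if_neg, mul_zero]
          have hj' := Finset.mem_range.mp hj
          have hi' := Finset.mem_range.mp hi
          omega
        · intro h; exact absurd hi h
      rw [← hcoeff, hR0, Polynomial.coeff_zero, zero_mul]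
  rcases (UpperHalfPlane.mul_eq_zero_iff (hd (i + 1)) hDisc_mdiff).mp hmul with h | h
  · exact h
  · exact absurd h hDisc_ne

section Conjugates

variable {𝒢 : Subgroup (GL (Fin 2) ℝ)} [𝒢.IsArithmetic] {k : ℤ}

/-- If the nontrivial conjugates of `u` differ from `u`, all conjugates are pairwise different. -/
theorem conjFam_ne_of_ne (u : ModularForm 𝒢 k)
    (hdist : ∀ q : 𝒮ℒ ⧸ 𝒢.subgroupOf 𝒮ℒ, q ≠ QuotientGroup.mk 1 → conjFam u q ≠ ⇑u)
    (a b : 𝒮ℒ ⧸ 𝒢.subgroupOf 𝒮ℒ) (hab : a ≠ b) : conjFam u a ≠ conjFam u b := by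
  intro heq
  obtain ⟨h, rfl⟩ := QuotientGroup.mk_surjective a
  have h1 : conjFam u (QuotientGroup.mk h) ∣[k] (h : GL (Fin 2) ℝ) =
      conjFam u b ∣[k] (h : GL (Fin 2) ℝ) := by rw [heq]
  rw [conjFam_slash u h.2, conjFam_slash u h.2] at h1
  have e0 : (⟨(h : GL (Fin 2) ℝ), h.2⟩ : 𝒮ℒ) = h := rfl
  rw [e0] at h1
  have e1 : (h⁻¹ • (QuotientGroup.mk h : 𝒮ℒ ⧸ 𝒢.subgroupOf 𝒮ℒ)) = QuotientGroup.mk 1 := by
    rw [MulAction.Quotient.smul_mk, smul_eq_mul, inv_mul_cancel]
  rw [e1, conjFam_one] at h1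
  have h2 : (h⁻¹ • b) = QuotientGroup.mk 1 := by
    by_contra hne
    exact hdist _ hne h1.symm
  apply hab
  have h3 : b = h • (QuotientGroup.mk 1 : 𝒮ℒ ⧸ 𝒢.subgroupOf 𝒮ℒ) := by
    rw [← h2, smul_inv_smul]
  rw [h3, MulAction.Quotient.smul_mk, smul_eq_mul, mul_one]

/-- A relation with level-one coefficients satisfied by `u` is satisfied by all conjugates. -/
theorem relation_conjFam (u : ModularForm 𝒢 k) (μ : ℕ) (d : ℕ → ℍ → ℂ)
    (hslash : ∀ (i : ℕ) (γ : SL(2, ℤ)), d i ∣[k * (i : ℤ)] γ = d i)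
    (hrel : ∀ z, ∑ i ∈ Finset.range μ, d (i + 1) z * u z ^ (μ - (i + 1)) = 0)
    (q : 𝒮ℒ ⧸ 𝒢.subgroupOf 𝒮ℒ) (z : ℍ) :
    ∑ i ∈ Finset.range μ, d (i + 1) z * conjFam u q z ^ (μ - (i + 1)) = 0 := by
  obtain ⟨γ, hγ⟩ := conjFam_eq_SL_slash u q
  rw [hγ]
  have h0 := hrel (γ • z)
  set j : ℂ := denom γ z with hj
  have hj0 : j ≠ 0 := denom_ne_zero γ z
  have hd : ∀ i : ℕ, d i (γ • z) = d i z * j ^ (k * i) := by
    intro i
    have := congrFun (hslash i γ) z
    rw [ModularForm.SL_slash_apply] at this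
    rw [← this, mul_assoc, ← zpow_add₀ hj0, neg_add_cancel, zpow_zero, mul_one]
  have hu : u (γ • z) = ((u : ℍ → ℂ) ∣[k] γ) z * j ^ k := by
    rw [ModularForm.SL_slash_apply, mul_assoc, ← zpow_add₀ hj0, neg_add_cancel, zpow_zero,
      mul_one]
  have key : ∑ i ∈ Finset.range μ, d (i + 1) (γ • z) * u (γ • z) ^ (μ - (i + 1)) =
      j ^ (k * μ) * ∑ i ∈ Finset.range μ,
        d (i + 1) z * ((u : ℍ → ℂ) ∣[k] γ) z ^ (μ - (i + 1)) := by
    rw [Finset.mul_sum]
    apply Finset.sum_congr rfl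
    intro i hi
    have hi' : i + 1 ≤ μ := Finset.mem_range.mp hi
    have e : k * ((i + 1 : ℕ) : ℤ) + k * ((μ - (i + 1) : ℕ) : ℤ) = k * (μ : ℤ) := by
      rw [← mul_add, ← Nat.cast_add, Nat.add_sub_cancel' hi']
    rw [hd, hu, mul_pow, ← zpow_natCast (j ^ k), ← zpow_mul, ← e, zpow_add₀ hj0]
    ring
  rw [key] at h0
  exact (mul_eq_zero.mp h0).resolve_left (zpow_ne_zero _ hj0)

/-- **Uniqueness of the relation**: a polynomial relation of degree `< μ` with level-one
coefficients satisfied by a primitive element `u` is trivial. -/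
theorem eq_zero_of_relation (u : ModularForm 𝒢 k)
    (hdist : ∀ q : 𝒮ℒ ⧸ 𝒢.subgroupOf 𝒮ℒ, q ≠ QuotientGroup.mk 1 → conjFam u q ≠ ⇑u)
    (d : ℕ → ℍ → ℂ) (hd : ∀ i, MDiff (d i))
    (hslash : ∀ (i : ℕ) (γ : SL(2, ℤ)), d i ∣[k * (i : ℤ)] γ = d i)
    (hrel : ∀ z, ∑ i ∈ Finset.range (Nat.card (𝒮ℒ ⧸ 𝒢.subgroupOf 𝒮ℒ)),
      d (i + 1) z * u z ^ (Nat.card (𝒮ℒ ⧸ 𝒢.subgroupOf 𝒮ℒ) - (i + 1)) = 0) :
    ∀ i ∈ Finset.range (Nat.card (𝒮ℒ ⧸ 𝒢.subgroupOf 𝒮ℒ)), d (i + 1) = 0 := by
  rw [Nat.card_eq_fintype_card] at hrel ⊢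
  exact coeff_eq_zero_of_distinct_roots (fun q => conjFam u q) (fun q => conjFam_mdiff u q)
    (conjFam_ne_of_ne u hdist) d hd
    (fun z q => relation_conjFam u _ d hslash hrel q z)

end Conjugates

end ConjUnique

end Fermat.Agent.S23
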