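import Mathlib

set_option autoImplicit false

/-!
# S23, helper for piece Conj: Euler–Lagrange interpolation identity (pure algebra)

For a polynomial `Φ = ∑ a_n X^n` of degree `≤ μ` put `b_m(Y) = ∑_{j < μ - m} a_{m+1+j} Y^j`.
Then `(∑_{m<μ} b_m(y) x^m) * (x - y) = Φ(x) - Φ(y)` (`interp_diffQuot`).

If `Φ = ∏_q (X - u_q)` then for every family `f_q` and every index `q₀`:
`∑_{m<μ} (∑_q f_q b_m(u_q)) u_{q₀}^m = f_{q₀} ∏_{q ≠ q₀} (u_{q₀} - u_q)` (`interp_identity`).
-/

namespace Fermat.Agent.S23.Interp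

open Polynomial Finset

variable {R : Type*} [CommRing R]

/-- `b_m(y) = ∑_{j < μ - m} a_{m+1+j} y^j`. -/
def bcoef (a : ℕ → R) (μ m : ℕ) (y : R) : R :=
  ∑ j ∈ range (μ - m), a (m + 1 + j) * y ^ j

/-- The two-variable difference quotient `B(x,y) = ∑_{m<μ} b_m(y) x^m`. -/
def diffQuot (a : ℕ → R) (μ : ℕ) (x y : R) : R :=
  ∑ m ∈ range μ, bcoef a μ m y * x ^ m

/-- `B(x,y) (x - y) = Φ(x) - Φ(y)` where `Φ(x) = ∑_{n ≤ μ} a_n x^n`. -/
theorem interp_diffQuot (a : ℕ → R) (μ : ℕ) (x y : R) :
    diffQuot a μ x y * (x - y) =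
      (∑ n ∈ range (μ + 1), a n * x ^ n) - ∑ n ∈ range (μ + 1), a n * y ^ n := by
  induction μ with
  | zero => simp [diffQuot]
  | succ μ ih =>
    rw [sum_range_succ _ (μ + 1), sum_range_succ (fun n => a n * y ^ n) (μ + 1)]
    have hgeom : (∑ i ∈ range (μ + 1), x ^ i * y ^ (μ - i)) * (x - y) = x ^ (μ + 1) - y ^ (μ + 1) :=
      (Commute.all x y).geom_sum₂_mul (μ + 1)
    have hstep : diffQuot a (μ + 1) x y =
        diffQuot a μ x y + a (μ + 1) * ∑ i ∈ range (μ + 1), x ^ i * y ^ (μ - i) := by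
      unfold diffQuot bcoef
      rw [sum_range_succ _ μ]
      have h1 : ∀ m ∈ range μ,
          (∑ j ∈ range (μ + 1 - m), a (m + 1 + j) * y ^ j) * x ^ m =
            (∑ j ∈ range (μ - m), a (m + 1 + j) * y ^ j) * x ^ m +
              a (μ + 1) * (x ^ m * y ^ (μ - m)) := by
        intro m hm
        have hm' : m < μ := mem_range.mp hm
        have e1 : μ + 1 - m = (μ - m) + 1 := by omega
        have e2 : m + 1 + (μ - m) = μ + 1 := by omega
        rw [e1, sum_range_succ, e2]
        ring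
      rw [sum_congr rfl h1, sum_add_distrib]
      have e3 : μ + 1 - μ = 1 := by omega
      rw [e3, sum_range_one, sum_range_succ _ μ, mul_add, mul_sum]
      simp only [Nat.sub_self, pow_zero, mul_one, add_zero]
      ring
    rw [hstep, add_mul, ih, mul_assoc, hgeom]
    ring

variable {Q : Type*} [Fintype Q] [DecidableEq Q]

omit [DecidableEq Q] in
/-- Coefficientwise description of a monic split polynomial: pointwise form. -/
theorem eval_prod_eq_sum_coeff (u : Q → R) (x : R) :
    ∏ q, (x - u q) =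
      ∑ n ∈ range (Fintype.card Q + 1), (∏ q, (X - C (u q))).coeff n * x ^ n := by
  have hdeg : (∏ q, (X - C (u q))).natDegree < Fintype.card Q + 1 := by
    have h1 : (∏ q, (X - C (u q))).natDegree ≤ ∑ q : Q, (X - C (u q)).natDegree :=
      natDegree_prod_le _ _
    have h2 : ∑ q : Q, (X - C (u q)).natDegree ≤ ∑ _q : Q, 1 :=
      sum_le_sum fun q _ => natDegree_X_sub_C_le (u q)
    have h3 : ∑ _q : Q, 1 = Fintype.card Q := by simp
    omega
  have h := eval_eq_sum_range' hdeg x
  rw [← h, eval_prod]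
  simp

/-- For a root `u q` the difference quotient is the complementary product. -/
theorem diffQuot_root [IsDomain R] (u : Q → R) (q : Q) (x : R) :
    diffQuot (fun n => (∏ q', (X - C (u q'))).coeff n) (Fintype.card Q) x (u q) =
      ∏ q' ∈ univ.erase q, (x - u q') := by
  -- polynomial version of the identity, then cancel the monic factor `X - C (u q)`
  set a : ℕ → R := fun n => (∏ q', (X - C (u q'))).coeff n with ha
  set μ := Fintype.card Q with hμ
  -- the polynomial `P = ∑_m C (b_m (u q)) X^m`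
  let P : R[X] := ∑ m ∈ range μ, C (bcoef a μ m (u q)) * X ^ m
  have hPeval : ∀ x : R, P.eval x = diffQuot a μ x (u q) := by
    intro x
    simp [P, diffQuot, eval_finsetSum]
  have hΦroot : ∑ n ∈ range (μ + 1), a n * (u q) ^ n = 0 := by
    rw [← eval_prod_eq_sum_coeff u (u q)]
    exact prod_eq_zero (mem_univ q) (sub_self _)
  have hpoly : P * (X - C (u q)) = (∏ q' ∈ univ.erase q, (X - C (u q'))) * (X - C (u q)) := by
    rw [prod_erase_mul _ _ (mem_univ q)]
    -- compare as polynomials: both sides have the same coefficients; use the `R[X]`-valued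
    -- instance of `interp_diffQuot`
    have h := interp_diffQuot (fun n => C (a n)) μ (X : R[X]) (C (u q))
    have hP : diffQuot (fun n => C (a n)) μ (X : R[X]) (C (u q)) = P := by
      simp only [diffQuot, bcoef, P]
      refine sum_congr rfl fun m _ => ?_
      congr 1
      rw [map_sum]
      refine sum_congr rfl fun j _ => ?_
      rw [map_mul, map_pow]
    rw [hP] at h
    rw [h]
    have h1 : ∑ n ∈ range (μ + 1), C (a n) * C (u q) ^ n = 0 := by
      have : ∑ n ∈ range (μ + 1), C (a n) * C (u q) ^ n =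
          C (∑ n ∈ range (μ + 1), a n * (u q) ^ n) := by
        rw [map_sum]
        refine sum_congr rfl fun n _ => ?_
        rw [map_mul, map_pow]
      rw [this, hΦroot, map_zero]
    rw [h1, sub_zero]
    have hdeg : (∏ q', (X - C (u q'))).natDegree < μ + 1 := by
      have h1 : (∏ q', (X - C (u q'))).natDegree ≤ ∑ q' : Q, (X - C (u q')).natDegree :=
        natDegree_prod_le _ _
      have h2 : ∑ q' : Q, (X - C (u q')).natDegree ≤ ∑ _q : Q, 1 :=
        sum_le_sum fun q' _ => natDegree_X_sub_C_le (u q')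
      have h3 : ∑ _q : Q, 1 = Fintype.card Q := by simp
      omega
    exact (as_sum_range_C_mul_X_pow' _ hdeg).symm
  have hcancel : P = ∏ q' ∈ univ.erase q, (X - C (u q')) :=
    mul_right_cancel₀ (X_sub_C_ne_zero (u q)) hpoly
  rw [← hPeval, hcancel, eval_prod]
  simp

/-- **Euler–Lagrange interpolation**: with `Φ = ∏_q (X - u_q) = ∑ a_n X^n` and
`b_m(Y) = ∑_j a_{m+1+j} Y^j`, one has
`∑_{m<μ} (∑_q f_q b_m(u_q)) u_{q₀}^m = f_{q₀} ∏_{q ≠ q₀} (u_{q₀} - u_q)`. -/
theorem interp_identity [IsDomain R] (u f : Q → R) (q₀ : Q) :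
    ∑ m ∈ range (Fintype.card Q),
        (∑ q, f q * bcoef (fun n => (∏ q', (X - C (u q'))).coeff n) (Fintype.card Q) m (u q)) *
          u q₀ ^ m =
      f q₀ * ∏ q ∈ univ.erase q₀, (u q₀ - u q) := by
  set a : ℕ → R := fun n => (∏ q', (X - C (u q'))).coeff n with ha
  set μ := Fintype.card Q with hμ
  have h1 : ∑ m ∈ range μ, (∑ q, f q * bcoef a μ m (u q)) * u q₀ ^ m =
      ∑ q, f q * diffQuot a μ (u q₀) (u q) := by
    simp only [diffQuot, sum_mul, mul_sum]
    rw [sum_comm]
    refine sum_congr rfl fun q _ => sum_congr rfl fun m _ => ?_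
    ring
  rw [h1]
  have h2 : ∀ q, f q * diffQuot a μ (u q₀) (u q) =
      if q = q₀ then f q₀ * ∏ q' ∈ univ.erase q₀, (u q₀ - u q') else 0 := by
    intro q
    rw [diffQuot_root u q (u q₀)]
    split_ifs with h
    · subst h; rfl
    · rw [prod_eq_zero (mem_erase.mpr ⟨Ne.symm h, mem_univ q₀⟩) (sub_self _), mul_zero]
  simp only [h2, sum_ite_eq', mem_univ, if_true]

end Fermat.Agent.S23.Interp
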