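import Mathlib

set_option autoImplicit false

/-!
# S23, piece PrimElt: definitions (upper triangular matrices and the function `Δ ∣[12] diag(N, 1)`)
-/

namespace Fermat.Agent.S23

open UpperHalfPlane Function
open scoped MatrixGroups ModularForm Manifold

/-- The matrix `(a b; 0 d)` (with `a * d ≠ 0`) as an element of `GL (Fin 2) ℝ`. -/
noncomputable def upperTri (a b d : ℝ) (h : a * d ≠ 0) : GL (Fin 2) ℝ :=
  Matrix.GeneralLinearGroup.mkOfDetNeZero !![a, b; 0, d]
    (by simpa [Matrix.det_fin_two_of] using h)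

theorem upperTri_val (a b d : ℝ) (h : a * d ≠ 0) :
    (upperTri a b d h : Matrix (Fin 2) (Fin 2) ℝ) = !![a, b; 0, d] := rfl

theorem upperTri_det (a b d : ℝ) (h : a * d ≠ 0) : (upperTri a b d h).det.val = a * d := by
  simp [upperTri, Matrix.GeneralLinearGroup.mkOfDetNeZero, Matrix.det_fin_two_of]

theorem denom_upperTri (a b d : ℝ) (h : a * d ≠ 0) (z : ℂ) : denom (upperTri a b d h) z = d := by
  simp [denom, upperTri, Matrix.GeneralLinearGroup.mkOfDetNeZero]

theorem num_upperTri (a b d : ℝ) (h : a * d ≠ 0) (z : ℂ) :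
    num (upperTri a b d h) z = a * z + b := by
  simp [num, upperTri, Matrix.GeneralLinearGroup.mkOfDetNeZero]

theorem coe_upperTri_smul (a b d : ℝ) (h : a * d ≠ 0) (hpos : 0 < a * d) (z : ℍ) :
    ((upperTri a b d h • z : ℍ) : ℂ) = (a * z + b) / d := by
  rw [coe_smul_of_det_pos (by rw [upperTri_det]; exact hpos), num_upperTri, denom_upperTri]

theorem im_upperTri_smul (a b d : ℝ) (h : a * d ≠ 0) (hpos : 0 < a * d) (z : ℍ) :
    (upperTri a b d h • z).im = a / d * z.im := by
  have hd : d ≠ 0 := right_ne_zero_of_mul h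
  rw [im_smul_eq_div_normSq, upperTri_det, denom_upperTri, abs_of_pos hpos, Complex.normSq_ofReal]
  field_simp

theorem slash_upperTri_apply (F : ℍ → ℂ) (k : ℤ) (a b d : ℝ) (h : a * d ≠ 0) (hpos : 0 < a * d)
    (z : ℍ) :
    (F ∣[k] upperTri a b d h) z =
      F (upperTri a b d h • z) * ((a * d : ℝ) : ℂ) ^ (k - 1) * ((d : ℝ) : ℂ) ^ (-k) := by
  rw [ModularForm.slash_apply, upperTri_det, denom_upperTri, abs_of_pos hpos]
  congr 2
  have hdet : 0 < (upperTri a b d h).det.val := by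
    rw [upperTri_det]; exact hpos
  simp only [UpperHalfPlane.σ]
  rw [if_pos hdet]
  rfl

/-- `diag(N, 1)`. -/
noncomputable def diagN (N : ℕ) [NeZero N] : GL (Fin 2) ℝ :=
  upperTri N 0 1 (by simpa using NeZero.ne N)

/-- The function `Δ ∣[12] diag(N, 1)`, i.e. `z ↦ N ^ 11 * Δ(N z)`. -/
noncomputable def primFun (N : ℕ) [NeZero N] : ℍ → ℂ :=
  (ModularForm.discriminant : ℍ → ℂ) ∣[(12 : ℤ)] diagN N

theorem coe_diagN_smul (N : ℕ) [NeZero N] (z : ℍ) : ((diagN N • z : ℍ) : ℂ) = N * z := by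
  unfold diagN
  rw [coe_upperTri_smul _ _ _ _ (by simpa using Nat.pos_of_ne_zero (NeZero.ne N))]
  simp

theorem primFun_apply (N : ℕ) [NeZero N] (z : ℍ) :
    primFun N z = (N : ℂ) ^ 11 * ModularForm.discriminant (diagN N • z) := by
  unfold primFun diagN
  rw [slash_upperTri_apply _ _ _ _ _ _ (by simpa using Nat.pos_of_ne_zero (NeZero.ne N))]
  simp
  ring

end Fermat.Agent.S23
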